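import Fermat.Agent.SW3.Forms
import Fermat.Agent.S52.Short
import Fermat.Agent.EllFrob.Trace
import Fermat.Agent.Alg.Frobenius

/-!
The congruence modulo three along the pencil: a linear change of projective coordinates identifies
the three-torsion points of two members.
-/

set_option autoImplicit false
set_option linter.all false

noncomputable section

namespace FLTAgent.SW3

open WeierstrassCurve FLTAgent.Local FLTAgent.Torsion

section Maps

variable {K : Type*} [Field K]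

/-- coefficient of the projective change of coordinates -/
def cAl (c d l m : K) : K := l ^ 3 - 3 * c * l * m ^ 2 - 2 * d * m ^ 3

/-- coefficient of the projective change of coordinates -/
def cBe (c d l m : K) : K := -3 * c * l ^ 2 * m - 6 * d * l * m ^ 2 - 3 * c ^ 2 * m ^ 3

/-- the third coordinate -/
def mapZ (l m x : K) : K := l - x / 3 * m

/-- abscissa of the image -/
def mapX (c d l m x : K) : K := (cAl c d l m * x + 3 * cBe c d l m) / (16 * mapZ l m x)

/-- ordinate of the image -/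
def mapY (c d l m x y : K) : K := fD c d l m * y / (64 * mapZ l m x)

lemma cAl_mul_add (c d l m : K) : cAl c d l m * l + cBe c d l m * m = fD c d l m := by
  simp only [cAl, cBe, fD]; ring

lemma mapY_neg (c d l m x y : K) : mapY c d l m x (-y) = -mapY c d l m x y := by
  simp only [mapY]; ring

/-- the polynomial of the three-torsion abscissae -/
def psi (c d x : K) : K := x ^ 4 - 54 * c * x ^ 2 - 216 * d * x - 243 * c ^ 2

variable [CharZero K]

lemma mapZ_ne {c d l m x : K} (hD : fD c d l m ≠ 0) (hx : psi c d x = 0) : mapZ l m x ≠ 0 := by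
  intro h
  apply hD
  simp only [mapZ] at h
  have e : fD c d l m = fD c d (x / 3 * m) m := by rw [← sub_eq_zero.1 h]
  rw [e, show fD c d (x / 3 * m) m = m ^ 4 / 81 * psi c d x by simp only [fD, psi]; ring, hx, mul_zero]

lemma map_equation {c d c' d' l m x y : K} (hc : 256 * c' = fC4 c d l m)
    (hd : 4096 * d' = fC6 c d l m) (hD : fD c d l m ≠ 0)
    (he : y ^ 2 = x ^ 3 - 27 * c * x - 54 * d) (hx : psi c d x = 0) :
    mapY c d l m x y ^ 2 = mapX c d l m x ^ 3 - 27 * c' * mapX c d l m x - 54 * d' := by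
  have hZ := mapZ_ne hD hx
  set Z := mapZ l m x with hZd
  set N := cAl c d l m * x + 3 * cBe c d l m with hN
  have key : fD c d l m ^ 2 * y ^ 2 * Z = N ^ 3 - 27 * fC4 c d l m * N * Z ^ 2 - 54 * fC6 c d l m * Z ^ 3 := by
    rw [he]
    have : fD c d l m ^ 2 * (x ^ 3 - 27 * c * x - 54 * d) * Z - (N ^ 3 - 27 * fC4 c d l m * N * Z ^ 2
        - 54 * fC6 c d l m * Z ^ 3) = -(m / 3) * fD c d l m ^ 2 * psi c d x := by
      simp only [hN, hZd, mapZ, cAl, cBe, fD, fC4, fC6, psi]; ring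
    rw [hx, mul_zero] at this
    exact sub_eq_zero.1 this
  have ec : c' = fC4 c d l m / 256 := by rw [← hc]; ring
  have ed : d' = fC6 c d l m / 4096 := by rw [← hd]; ring
  simp only [mapY, mapX, ← hZd, ← hN, ec, ed]
  field_simp
  linear_combination (4294967296 : K) * key

lemma map_psi {c d c' d' l m x : K} (hc : 256 * c' = fC4 c d l m)
    (hd : 4096 * d' = fC6 c d l m) (hD : fD c d l m ≠ 0) (hx : psi c d x = 0) :
    psi c' d' (mapX c d l m x) = 0 := by
  have hZ := mapZ_ne hD hx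
  set Z := mapZ l m x with hZd
  set N := cAl c d l m * x + 3 * cBe c d l m with hN
  have key : N ^ 4 - 54 * fC4 c d l m * N ^ 2 * Z ^ 2 - 216 * fC6 c d l m * N * Z ^ 3
      - 243 * fC4 c d l m ^ 2 * Z ^ 4 = 0 := by
    rw [show N ^ 4 - 54 * fC4 c d l m * N ^ 2 * Z ^ 2 - 216 * fC6 c d l m * N * Z ^ 3
        - 243 * fC4 c d l m ^ 2 * Z ^ 4 = (cAl c d l m ^ 4 - 6 * fC4 c d l m * cAl c d l m ^ 2 * m ^ 2
          + 8 * fC6 c d l m * cAl c d l m * m ^ 3 - 3 * fC4 c d l m ^ 2 * m ^ 4) * psi c d x by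
      simp only [hN, hZd, mapZ, cAl, cBe, fC4, fC6, psi]; ring, hx, mul_zero]
  have ec : c' = fC4 c d l m / 256 := by rw [← hc]; ring
  have ed : d' = fC6 c d l m / 4096 := by rw [← hd]; ring
  rw [show psi c' d' (mapX c d l m x) = (N ^ 4 - 54 * fC4 c d l m * N ^ 2 * Z ^ 2
      - 216 * fC6 c d l m * N * Z ^ 3 - 243 * fC4 c d l m ^ 2 * Z ^ 4) / (16 * Z) ^ 4 by
    simp only [psi, mapX, ← hZd, ← hN, ec, ed]
    field_simp
    ring, key, zero_div]

lemma mapX_injOn {c d l m x x' : K} (hD : fD c d l m ≠ 0) (hx : psi c d x = 0)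
    (hx' : psi c d x' = 0) (h : mapX c d l m x = mapX c d l m x') : x = x' := by
  have hZ := mapZ_ne hD hx
  have hZ' := mapZ_ne hD hx'
  simp only [mapX] at h
  rw [div_eq_div_iff (mul_ne_zero (by norm_num) hZ) (mul_ne_zero (by norm_num) hZ')] at h
  simp only [mapZ] at h
  refine sub_eq_zero.1 ((mul_eq_zero.1 (?_ : (x - x') * fD c d l m = 0)).resolve_right hD)
  rw [← cAl_mul_add]
  linear_combination (1 / 16 : K) * h

lemma map_line {c d l m x lam nu : K} (hD : fD c d l m ≠ 0) (hx : psi c d x = 0) :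
    mapY c d l m x (lam * x + nu) = (lam * l + nu * m / 3) / 4 * mapX c d l m x
      + (nu * cAl c d l m - 3 * lam * cBe c d l m) / 64 := by
  have hZ := mapZ_ne hD hx
  simp only [mapY, mapX]
  rw [← cAl_mul_add]
  field_simp
  simp only [mapZ]
  ring_nf

end Maps

section Points

variable {K : Type*} [Field K] [CharZero K]

lemma equation_psi {c d x y : K} :
    (S52.lvlCurve (9 * c) (27 * d)).toAffine.Equation x y ↔
      y ^ 2 = x ^ 3 - 27 * c * x - 54 * d := by
  rw [S52.lvlCurve_equation]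
  constructor <;> intro e <;> linear_combination e

lemma negY_lvl {h t x y : K} : (S52.lvlCurve h t).toAffine.negY x y = -y := by
  simp [S52.lvlCurve, Affine.negY]

lemma addX_lvl {h t x₁ x₂ L : K} :
    (S52.lvlCurve h t).toAffine.addX x₁ x₂ L = L ^ 2 - x₁ - x₂ := by
  simp [S52.lvlCurve, Affine.addX]

lemma addY_lvl {h t x₁ x₂ y₁ L : K} :
    (S52.lvlCurve h t).toAffine.addY x₁ x₂ y₁ L = -(L * (L ^ 2 - x₁ - x₂ - x₁) + y₁) := by
  simp [S52.lvlCurve, Affine.addY, Affine.negAddY, Affine.negY, Affine.addX]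

/-- three points of a short curve on a line -/
lemma sum_eq_sq {c d L M x₁ x₂ x₃ : K} (h12 : x₁ ≠ x₂) (h13 : x₁ ≠ x₃) (h23 : x₂ ≠ x₃)
    (e1 : (L * x₁ + M) ^ 2 = x₁ ^ 3 - 27 * c * x₁ - 54 * d)
    (e2 : (L * x₂ + M) ^ 2 = x₂ ^ 3 - 27 * c * x₂ - 54 * d)
    (e3 : (L * x₃ + M) ^ 2 = x₃ ^ 3 - 27 * c * x₃ - 54 * d) : L ^ 2 - x₁ - x₂ = x₃ := by
  have a : L ^ 2 * (x₁ + x₂) + 2 * L * M - (x₁ ^ 2 + x₁ * x₂ + x₂ ^ 2) + 27 * c = 0 :=
    mul_left_cancel₀ (sub_ne_zero.2 h12) (by linear_combination e1 - e2)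
  have b : L ^ 2 * (x₁ + x₃) + 2 * L * M - (x₁ ^ 2 + x₁ * x₃ + x₃ ^ 2) + 27 * c = 0 :=
    mul_left_cancel₀ (sub_ne_zero.2 h13) (by linear_combination e1 - e3)
  exact mul_left_cancel₀ (sub_ne_zero.2 h23) (by linear_combination a - b)

variable [DecidableEq K]

lemma add_self_three {G : Type*} [AddCommGroup G] {P : G} (h : 3 • P = 0) : P + P = -P :=
  eq_neg_of_add_eq_zero_left (by rw [← h]; abel)

/-- three-torsion gives a root of the polynomial -/
lemma psi_of_three {c d x y : K} {h : (S52.lvlCurve (9 * c) (27 * d)).toAffine.Nonsingular x y}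
    (h3 : 3 • Affine.Point.some x y h = 0) : psi c d x = 0 := by
  have hy : y ≠ 0 := by
    intro hy
    have h2 : Affine.Point.some x y h + Affine.Point.some x y h = 0 :=
      Affine.Point.add_of_Y_eq rfl (by rw [negY_lvl, hy, neg_zero])
    rw [add_self_three h3, neg_eq_zero] at h2
    exact Affine.Point.some_ne_zero h h2
  have hne : y ≠ (S52.lvlCurve (9 * c) (27 * d)).toAffine.negY x y := by
    rw [negY_lvl]; intro e; exact hy (by linear_combination (1 / 2 : K) * e)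
  have hs := add_self_three h3
  rw [Affine.Point.add_self_of_Y_ne hne, Affine.Point.neg_some] at hs
  simp only [Affine.Point.some.injEq] at hs
  have hX := hs.1
  rw [addX_lvl, Affine.slope_of_Y_ne rfl hne, negY_lvl] at hX
  simp [S52.lvlCurve] at hX
  have he := equation_psi.1 h.1
  have h2y : y + y ≠ 0 := fun e => hy (by linear_combination (1 / 2 : K) * e)
  field_simp at hX
  simp only [psi]
  linear_combination (-1 / 3 : K) * hX + (-4 * x) * he

/-- a root of the polynomial gives three-torsion -/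
lemma three_of_psi {c d x y : K} (hΔ : (S52.lvlCurve (9 * c) (27 * d)).Δ ≠ 0)
    (h : (S52.lvlCurve (9 * c) (27 * d)).toAffine.Nonsingular x y) (hx : psi c d x = 0) :
    3 • Affine.Point.some x y h = 0 := by
  have he := equation_psi.1 h.1
  simp only [psi] at hx
  have hy : y ≠ 0 := by
    intro hy
    apply hΔ
    rw [hy] at he
    have hxc : x ^ 2 - 9 * c = 0 := pow_eq_zero_iff (n := 2) two_ne_zero |>.1 (by
      linear_combination (-1 / 3 : K) * hx + (-4 / 3 * x) * he)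
    rw [S52.lvlCurve_Δ, show d = (x ^ 3 - 27 * c * x) / 54 by linear_combination (1 / 54 : K) * he,
      show c = x ^ 2 / 9 by linear_combination (-1 / 9 : K) * hxc]
    ring
  have hne : y ≠ (S52.lvlCurve (9 * c) (27 * d)).toAffine.negY x y := by
    rw [negY_lvl]; intro e; exact hy (by linear_combination (1 / 2 : K) * e)
  have h2 : Affine.Point.some x y h + Affine.Point.some x y h = -Affine.Point.some x y h := by
    rw [Affine.Point.add_self_of_Y_ne hne, Affine.Point.neg_some]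
    simp only [Affine.Point.some.injEq]
    have hX : ((S52.lvlCurve (9 * c) (27 * d)).toAffine.slope x x y y) ^ 2 = 3 * x := by
      rw [Affine.slope_of_Y_ne rfl hne, negY_lvl]
      simp [S52.lvlCurve]
      have h2y : y + y ≠ 0 := fun e => hy (by linear_combination (1 / 2 : K) * e)
      field_simp
      linear_combination -hx + (-4 * x) * he
    refine ⟨by rw [addX_lvl, hX]; ring, ?_⟩
    rw [addY_lvl, negY_lvl, hX]
    ring
  calc 3 • Affine.Point.some x y h
      = Affine.Point.some x y h + Affine.Point.some x y h + Affine.Point.some x y h := by abel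
    _ = 0 := by rw [h2, neg_add_cancel]

variable (c d c' d' l m : K)

open Classical in
/-- the map on points -/
def mapPt : (S52.lvlCurve (9 * c) (27 * d)).toAffine.Point →
    (S52.lvlCurve (9 * c') (27 * d')).toAffine.Point
  | .zero => 0
  | .some x y _ =>
    if h : (S52.lvlCurve (9 * c') (27 * d')).toAffine.Nonsingular (mapX c d l m x) (mapY c d l m x y)
    then .some _ _ h else 0

variable {c d c' d' l m}

variable (hc : 256 * c' = fC4 c d l m) (hd : 4096 * d' = fC6 c d l m) (hD : fD c d l m ≠ 0)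
  (hΔ : c' ^ 3 - d' ^ 2 ≠ 0)

include hc hd hD hΔ

lemma mapPt_some {x y : K} {h : (S52.lvlCurve (9 * c) (27 * d)).toAffine.Nonsingular x y}
    (h3 : 3 • Affine.Point.some x y h = 0) :
    ∃ h', mapPt c d c' d' l m (.some x y h) =
        .some (mapX c d l m x) (mapY c d l m x y) h' ∧ 3 • Affine.Point.some _ _ h' = 0 := by
  have hx := psi_of_three h3
  have hΔ' : (S52.lvlCurve (9 * c') (27 * d')).Δ ≠ 0 := by
    rw [S52.lvlCurve_Δ]
    intro e
    exact hΔ (by linear_combination (1 / 1728 / 729 : K) * e)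
  have h' : (S52.lvlCurve (9 * c') (27 * d')).toAffine.Nonsingular (mapX c d l m x)
      (mapY c d l m x y) :=
    (Affine.equation_iff_nonsingular_of_Δ_ne_zero hΔ').1
      (equation_psi.2 (map_equation hc hd hD (equation_psi.1 h.1) hx))
  exact ⟨h', dif_pos h', three_of_psi hΔ' h' (map_psi hc hd hD hx)⟩

lemma mapPt_neg {P : (S52.lvlCurve (9 * c) (27 * d)).toAffine.Point} (hP : 3 • P = 0) :
    mapPt c d c' d' l m (-P) = -mapPt c d c' d' l m P := by
  rcases P with _ | ⟨x, y, h⟩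
  · rfl
  have hP' : 3 • -Affine.Point.some x y h = 0 := by rw [smul_neg, hP, neg_zero]
  rw [Affine.Point.neg_some] at hP' ⊢
  obtain ⟨k, e, -⟩ := mapPt_some hc hd hD hΔ hP
  obtain ⟨k', e', -⟩ := mapPt_some hc hd hD hΔ hP'
  rw [e, e', Affine.Point.neg_some]
  simp only [Affine.Point.some.injEq, negY_lvl, mapY_neg, and_self]

theorem mapPt_add {P Q : (S52.lvlCurve (9 * c) (27 * d)).toAffine.Point} (hP : 3 • P = 0)
    (hQ : 3 • Q = 0) :
    mapPt c d c' d' l m (P + Q) = mapPt c d c' d' l m P + mapPt c d c' d' l m Q := by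
  rcases eq_or_ne Q P with rfl | hne
  · rcases Q with _ | ⟨x, y, h⟩
    · rfl
    obtain ⟨k, e, h3⟩ := mapPt_some hc hd hD hΔ hP
    rw [add_self_three hP, mapPt_neg hc hd hD hΔ hP, e, add_self_three h3]
  rcases eq_or_ne Q (-P) with rfl | hne'
  · rw [add_neg_cancel, mapPt_neg hc hd hD hΔ hP, add_neg_cancel]
    rfl
  rcases P with _ | ⟨x₁, y₁, h₁⟩
  · show mapPt c d c' d' l m (0 + Q) = 0 + _
    rw [zero_add, zero_add]
  rcases Q with _ | ⟨x₂, y₂, h₂⟩
  · show mapPt c d c' d' l m (_ + 0) = _ + 0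
    rw [add_zero, add_zero]
  have h12 : x₁ ≠ x₂ := by
    rintro rfl
    rcases Affine.Y_eq_of_X_eq h₂.1 h₁.1 rfl with e | e
    · exact hne (by subst e; rfl)
    · apply hne'
      rw [Affine.Point.neg_some]
      subst e; rfl
  set L := (S52.lvlCurve (9 * c) (27 * d)).toAffine.slope x₁ x₂ y₁ y₂ with hL
  set x₃ := L ^ 2 - x₁ - x₂ with hx₃
  set M := y₁ - L * x₁ with hM
  have hy₂ : y₂ = L * x₂ + M := by
    rw [hM, hL, Affine.slope_of_X_ne h12]
    have := sub_ne_zero.2 h12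
    field_simp
    ring
  obtain ⟨h₃, hsum⟩ : ∃ h₃ : (S52.lvlCurve (9 * c) (27 * d)).toAffine.Nonsingular x₃ (-(L * x₃ + M)),
      Affine.Point.some x₁ y₁ h₁ + Affine.Point.some x₂ y₂ h₂ = Affine.Point.some _ _ h₃ := by
    have eX : (S52.lvlCurve (9 * c) (27 * d)).toAffine.addX x₁ x₂ L = x₃ := addX_lvl
    have eY : (S52.lvlCurve (9 * c) (27 * d)).toAffine.addY x₁ x₂ y₁ L = -(L * x₃ + M) := by
      rw [addY_lvl, hx₃, hM]; ring
    refine ⟨?_, ?_⟩
    · have := Affine.nonsingular_add h₁ h₂ (fun ⟨e, _⟩ => h12 e)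
      rwa [← hL, eX, eY] at this
    · rw [Affine.Point.add_of_X_ne h12]
      simp only [Affine.Point.some.injEq, ← hL]
      exact ⟨eX, eY⟩
  have hS : 3 • (Affine.Point.some x₁ y₁ h₁ + Affine.Point.some x₂ y₂ h₂) = 0 := by
    rw [smul_add, hP, hQ, add_zero]
  have hoff : ∀ (A B : (S52.lvlCurve (9 * c) (27 * d)).toAffine.Point), 3 • A = 0 → A ≠ 0 →
      B ≠ 0 → B ≠ A → B ≠ -A → A + B ≠ A ∧ A + B ≠ -A := by
    intro A B h3 _ hB hBA _
    refine ⟨fun e => hB (add_eq_left.1 e), fun e => hBA ?_⟩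
    rw [← add_self_three h3] at e
    exact add_left_cancel e
  have hoff' := hoff _ _ hQ (Affine.Point.some_ne_zero h₂) (Affine.Point.some_ne_zero h₁)
    (Ne.symm hne) (fun e => hne' (by rw [e, neg_neg]))
  rw [add_comm] at hoff'
  have hoff1 := hoff _ _ hP (Affine.Point.some_ne_zero h₁) (Affine.Point.some_ne_zero h₂) hne hne'
  have hx13 : x₁ ≠ x₃ := by
    intro e
    rcases Affine.Y_eq_of_X_eq h₃.1 h₁.1 e.symm with e' | e'
    · exact hoff1.1 (hsum.trans (S52.some_congr _ _ e.symm e'))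
    · refine hoff1.2 (hsum.trans ?_)
      rw [Affine.Point.neg_some]
      exact S52.some_congr _ _ e.symm e'
  have hx23 : x₂ ≠ x₃ := by
    intro e
    rcases Affine.Y_eq_of_X_eq h₃.1 h₂.1 e.symm with e' | e'
    · exact hoff'.1 (hsum.trans (S52.some_congr _ _ e.symm e'))
    · refine hoff'.2 (hsum.trans ?_)
      rw [Affine.Point.neg_some]
      exact S52.some_congr _ _ e.symm e'
  rw [hsum] at hS ⊢
  obtain ⟨k₁, e₁, -⟩ := mapPt_some hc hd hD hΔ hP
  obtain ⟨k₂, e₂, -⟩ := mapPt_some hc hd hD hΔ hQ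
  obtain ⟨k₃, e₃, -⟩ := mapPt_some hc hd hD hΔ hS
  rw [e₁, e₂, e₃]
  have p₁ := psi_of_three hP
  have p₂ := psi_of_three hQ
  have p₃ := psi_of_three hS
  have n12 : mapX c d l m x₁ ≠ mapX c d l m x₂ := fun e => h12 (mapX_injOn hD p₁ p₂ e)
  have n13 : mapX c d l m x₁ ≠ mapX c d l m x₃ := fun e => hx13 (mapX_injOn hD p₁ p₃ e)
  have n23 : mapX c d l m x₂ ≠ mapX c d l m x₃ := fun e => hx23 (mapX_injOn hD p₂ p₃ e)
  set p := (L * l + M * m / 3) / 4 with hp
  set q := (M * cAl c d l m - 3 * L * cBe c d l m) / 64 with hq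
  have l₁ : mapY c d l m x₁ y₁ = p * mapX c d l m x₁ + q := by
    rw [show y₁ = L * x₁ + M by rw [hM]; ring]; exact map_line hD p₁
  have l₂ : mapY c d l m x₂ y₂ = p * mapX c d l m x₂ + q := by
    rw [hy₂]; exact map_line hD p₂
  have l₃ : mapY c d l m x₃ (-(L * x₃ + M)) = -(p * mapX c d l m x₃ + q) := by
    rw [mapY_neg]; exact congrArg Neg.neg (map_line hD p₃)
  have hslope : (S52.lvlCurve (9 * c') (27 * d')).toAffine.slope (mapX c d l m x₁) (mapX c d l m x₂)
      (mapY c d l m x₁ y₁) (mapY c d l m x₂ y₂) = p := by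
    rw [Affine.slope_of_X_ne n12, l₁, l₂, div_eq_iff (sub_ne_zero.2 n12)]; ring
  have f₃ := equation_psi.1 k₃.1
  rw [l₃] at f₃
  have hadd : p ^ 2 - mapX c d l m x₁ - mapX c d l m x₂ = mapX c d l m x₃ :=
    sum_eq_sq n12 n13 n23 (by rw [← l₁]; exact equation_psi.1 k₁.1)
      (by rw [← l₂]; exact equation_psi.1 k₂.1) (by linear_combination f₃)
  rw [Affine.Point.add_of_X_ne n12]
  simp only [Affine.Point.some.injEq, hslope, addX_lvl, addY_lvl, hadd]
  exact ⟨trivial, by rw [l₃, l₁]; ring⟩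

end Points

local notation "Ω" => AlgebraicClosure ℚ

lemma shortPt_surjective (W : WeierstrassCurve ℤ) : Function.Surjective (S52.shortPt W) := by
  rintro (_ | ⟨x, y, h⟩)
  · exact ⟨0, map_zero _⟩
  set C := S52.shortVC W
  have hu : ((C.u : Ω))⁻¹ ≠ 0 := inv_ne_zero C.u.ne_zero
  let a : Ω := x / ((C.u : Ω))⁻¹ ^ 2 + C.r
  let b : Ω := y / ((C.u : Ω))⁻¹ ^ 3 + C.s * (a - C.r) + C.t
  have ea : vcX C a = x := by simp only [vcX, a, Units.val_inv_eq_inv_val]; field_simp; ring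
  have eb : vcY C a b = y := by simp only [vcY, b, Units.val_inv_eq_inv_val]; field_simp; ring
  have hab : (curveBar W).toAffine.Nonsingular a b := by
    rw [← vc_nonsingular (S52.shortVC_smul W) a b, ea, eb]; exact h
  refine ⟨Affine.Point.some a b hab, ?_⟩
  show vcPt C (S52.shortVC_smul W) _ = _
  rw [vcPt_some]
  exact S52.some_congr _ _ ea eb

/-- members of the pencil have isomorphic three-torsion -/
theorem exists_tors_equiv {W W' : WeierstrassCurve ℤ} (hΔ : W.Δ ≠ 0) (hΔ' : W'.Δ ≠ 0) (l m : ℤ)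
    (hc : 256 * W'.c₄ = fC4 W.c₄ W.c₆ l m) (hd : 4096 * W'.c₆ = fC6 W.c₄ W.c₆ l m) :
    ∃ ψ : Tors W 3 ≃ₗ[ZMod 3] Tors W' 3, ∀ (σ : Ω ≃ₐ[ℚ] Ω) x, ψ (σ • x) = σ • ψ x := by
  classical
  haveI : Fact (Nat.Prime 3) := ⟨Nat.prime_three⟩
  have hDz : fD W.c₄ W.c₆ l m ≠ 0 := by
    intro e
    have h := forms_relation W.c₄ W.c₆ l m
    rw [e, ← hc, ← hd] at h
    apply hΔ'
    have h1 := W'.c_relation
    linarith [show (256 * W'.c₄) ^ 3 - (4096 * W'.c₆) ^ 2 = 16777216 * (W'.c₄ ^ 3 - W'.c₆ ^ 2) by ring]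
  let ι : ℤ →+* Ω := Int.castRingHom Ω
  have hc' : 256 * (W'.c₄ : Ω) = fC4 (W.c₄ : Ω) W.c₆ l m := by
    have := congrArg ι hc
    rw [map_mul, map_fC4] at this
    simpa [ι] using this
  have hd' : 4096 * (W'.c₆ : Ω) = fC6 (W.c₄ : Ω) W.c₆ l m := by
    have := congrArg ι hd
    rw [map_mul, map_fC6] at this
    simpa [ι] using this
  have hD : fD (W.c₄ : Ω) W.c₆ l m ≠ 0 := by
    have := (map_ne_zero_iff ι (Int.cast_injective (α := Ω))).2 hDz
    rw [map_fD] at this
    simpa [ι] using this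
  have hΔc : (W'.c₄ : Ω) ^ 3 - (W'.c₆ : Ω) ^ 2 ≠ 0 := by
    intro e
    have h1 := congrArg (fun z : ℤ => (z : Ω)) W'.c_relation
    push_cast at h1
    have : (W'.Δ : Ω) = 0 := by linear_combination (1 / 1728 : Ω) * e + (1 / 1728 : Ω) * h1
    exact hΔ' (by exact_mod_cast this)
  let M := mapPt (W.c₄ : Ω) W.c₆ (W'.c₄ : Ω) W'.c₆ l m
  have t3 : ∀ x : Tors W 3, 3 • S52.shortPt W (x : QPoint W) = 0 := fun x => by
    rw [← map_nsmul, nsmul_tors, map_zero]
  have hM3 : ∀ P, 3 • P = 0 → 3 • M P = 0 := by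
    intro P hP
    rcases P with _ | ⟨x, y, h⟩
    · exact nsmul_zero 3
    · obtain ⟨k, e, h3⟩ := mapPt_some hc' hd' hD hΔc hP
      show 3 • mapPt _ _ _ _ _ _ _ = _
      rw [e]; exact h3
  have hex : ∀ x : Tors W 3, ∃ y : Tors W' 3,
      S52.shortPt W' (y : QPoint W') = M (S52.shortPt W (x : QPoint W)) := by
    intro x
    obtain ⟨Q, hQ⟩ := shortPt_surjective W' (M (S52.shortPt W (x : QPoint W)))
    refine ⟨mkTors Q (S52.shortPt_injective W' ?_), hQ⟩
    rw [map_nsmul, hQ, hM3 _ (t3 x), map_zero]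
  choose f hf using hex
  let φ : Tors W 3 →+ Tors W' 3 := AddMonoidHom.mk' f (fun x y => by
    apply Subtype.ext
    apply S52.shortPt_injective W'
    rw [Submodule.coe_add, map_add, hf, hf, hf, Submodule.coe_add, map_add]
    exact mapPt_add hc' hd' hD hΔc (t3 x) (t3 y))
  have hφ : Function.Injective φ := by
    rw [injective_iff_map_eq_zero]
    intro x hx
    have h1 : M (S52.shortPt W (x : QPoint W)) = 0 := by
      rw [← hf x, show f x = 0 from hx, Submodule.coe_zero, map_zero]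
    rcases hR : S52.shortPt W (x : QPoint W) with _ | ⟨a, b, hab⟩
    · exact Subtype.ext (S52.shortPt_injective W (hR.trans (map_zero _).symm))
    · have h3 := t3 x
      rw [hR] at h3 h1
      obtain ⟨k, e, -⟩ := mapPt_some hc' hd' hD hΔc h3
      exact absurd (e.symm.trans h1) (Affine.Point.some_ne_zero k)
  haveI := isElliptic_curveBar hΔ'
  haveI := isElliptic_curveBar hΔ
  haveI : Finite (Tors W' 3) := finite_torsionBy (curveBar W') 3 (by norm_num)
  have hbij : Function.Bijective φ := hφ.bijective_of_nat_card_le (by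
    rw [show Nat.card (Tors W 3) = 3 ^ 2 from natCard_torsionBy (curveBar W) 3 (by norm_num),
      show Nat.card (Tors W' 3) = 3 ^ 2 from natCard_torsionBy (curveBar W') 3 (by norm_num)])
  refine ⟨LinearEquiv.ofBijective (φ.toZModLinearMap 3) hbij, fun σ x => ?_⟩
  show f (σ • x) = σ • f x
  apply Subtype.ext
  apply S52.shortPt_injective W'
  rw [hf, FLTAgent.Torsion.coe_smul, FLTAgent.Torsion.coe_smul]
  rcases hR : S52.shortPt W (x : QPoint W) with _ | ⟨a, b, hab⟩
  · have hx0 : (x : QPoint W) = 0 := S52.shortPt_injective W (hR.trans (map_zero _).symm)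
    have hf0 : (f x : QPoint W') = 0 := by
      apply S52.shortPt_injective W'
      rw [hf, hR, map_zero]; rfl
    rw [hx0, hf0, Affine.Point.algEquiv_smul_def, Affine.Point.algEquiv_smul_def, map_zero, map_zero,
      map_zero, map_zero]
    rfl
  · obtain ⟨hab', e'⟩ := S52.shortPt_smul_some W σ (x : QPoint W) hR
    have h3 := t3 x
    rw [hR] at h3
    have h3' := t3 (σ • x)
    rw [FLTAgent.Torsion.coe_smul, e'] at h3'
    obtain ⟨k, e, -⟩ := mapPt_some hc' hd' hD hΔc h3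
    obtain ⟨k', e2, -⟩ := mapPt_some hc' hd' hD hΔc h3'
    have hfx : S52.shortPt W' (f x : QPoint W') = Affine.Point.some _ _ k := by
      rw [hf, hR]; exact e
    obtain ⟨k'', e3⟩ := S52.shortPt_smul_some W' σ (f x : QPoint W') hfx
    rw [e', e3]
    refine e2.trans (S52.some_congr _ _ ?_ ?_) <;>
      simp [mapX, mapY, mapZ, cAl, cBe, fD, map_ofNat]

/-- the congruence modulo three -/
theorem dvd_apOfModel_sub {W W' : WeierstrassCurve ℤ} (hΔ : W.Δ ≠ 0) (hΔ' : W'.Δ ≠ 0) (l m : ℤ)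
    (hc : 256 * W'.c₄ = fC4 W.c₄ W.c₆ l m) (hd : 4096 * W'.c₆ = fC6 W.c₄ W.c₆ l m) {ℓ : ℕ}
    (hℓ : ℓ.Prime) (h1 : ¬ (ℓ : ℤ) ∣ W.Δ) (h2 : ¬ (ℓ : ℤ) ∣ W'.Δ) (h3 : ℓ ≠ 3) :
    (3 : ℤ) ∣ (W'.apOfModel ℓ - W.apOfModel ℓ) := by
  obtain ⟨ψ, hψ⟩ := exists_tors_equiv hΔ hΔ' l m hc hd
  obtain ⟨A, σ, hA, hσ⟩ := FLTAgent.Alg.exists_place_frobenius ℓ hℓ
  have t1 := (FLTAgent.EllFrob.galois_charpoly hℓ h1 hA hσ Nat.prime_three (Ne.symm h3)).1
  have t2 := (FLTAgent.EllFrob.galois_charpoly hℓ h2 hA hσ Nat.prime_three (Ne.symm h3)).1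
  rw [Affine.Point.galoisTrace_def] at t1 t2
  have hconj : Affine.Point.galoisRepModuleEnd ℚ (K := Ω) (W'.map (Int.castRingHom ℚ)) 3 σ =
      ψ.conj (Affine.Point.galoisRepModuleEnd ℚ (K := Ω) (W.map (Int.castRingHom ℚ)) 3 σ) := by
    refine LinearMap.ext fun y => ?_
    rw [LinearEquiv.conj_apply_apply]
    show σ • y = ψ (σ • ψ.symm y)
    rw [hψ, LinearEquiv.apply_symm_apply]
  rw [hconj, LinearMap.trace_conj'] at t2
  rw [show (3 : ℤ) = ((3 : ℕ) : ℤ) from rfl, ← ZMod.intCast_zmod_eq_zero_iff_dvd]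
  push_cast
  rw [← t1, ← t2, sub_self]

end FLTAgent.SW3

end
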