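import Mathlib

/-!
Integral models with given invariants, of good or multiplicative reduction at two and three.
-/

set_option autoImplicit false

noncomputable section

namespace FLTAgent.SW3

open WeierstrassCurve

/-- a model with given invariants -/
theorem exists_model {c4 c6 Δ b : ℤ} (h4 : Odd c4) (h6 : c6 % 4 = 3)
    (hrel : 1728 * Δ = c4 ^ 3 - c6 ^ 2) (hb : (3 : ℤ) ∣ b ^ 2 - c4)
    (hb' : (27 : ℤ) ∣ b ^ 3 - 3 * b * c4 - 2 * c6) :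
    ∃ W : WeierstrassCurve ℤ, W.c₄ = c4 ∧ W.c₆ = c6 ∧ W.Δ = Δ := by
  have hcop : IsCoprime c4 (64 : ℤ) := by
    have : IsCoprime c4 (2 : ℤ) :=
      ((Int.prime_two.irreducible).coprime_iff_not_dvd.2
        (fun h => (Int.not_even_iff_odd.2 h4) (even_iff_two_dvd.2 h))).symm
    simpa using this.pow_right (n := 6)
  obtain ⟨x, y, hxy⟩ := hcop
  set σ : ℤ := x * c6 with hσdef
  have hσ : (64 : ℤ) ∣ σ * c4 - c6 := ⟨-(y * c6), by rw [hσdef]; linear_combination c6 * hxy⟩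
  have hσ2 : (64 : ℤ) ∣ σ ^ 2 - c4 := by
    have h : (64 : ℤ) ∣ (σ ^ 2 - c4) * c4 ^ 2 := by
      obtain ⟨k, hk⟩ := hσ
      exact ⟨k * (σ * c4 + c6) - 27 * Δ, by linear_combination (σ * c4 + c6) * hk + hrel⟩
    exact (IsCoprime.pow_right (n := 2) (show IsCoprime (64 : ℤ) c4 from ⟨y, x, by linear_combination hxy⟩)).dvd_of_dvd_mul_right h
  set b2 : ℤ := b - 513 * (σ + b) with hb2
  have h64 : (64 : ℤ) ∣ b2 + σ := ⟨-8 * (σ + b), by rw [hb2]; ring⟩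
  have h27 : (27 : ℤ) ∣ b2 - b := ⟨-19 * (σ + b), by rw [hb2]; ring⟩
  have hA : (192 : ℤ) ∣ b2 ^ 2 - c4 := by
    refine IsCoprime.mul_dvd (x := (64 : ℤ)) (y := 3) ⟨1, -21, by norm_num⟩ ?_ ?_
    · have e : b2 ^ 2 - c4 = (b2 + σ) * (b2 - σ) + (σ ^ 2 - c4) := by ring
      rw [e]; exact dvd_add (dvd_mul_of_dvd_left h64 _) hσ2
    · have e : b2 ^ 2 - c4 = (b2 - b) * (b2 + b) + (b ^ 2 - c4) := by ring
      rw [e]
      exact dvd_add (dvd_mul_of_dvd_left ((show (3 : ℤ) ∣ 27 by norm_num).trans h27) _) hb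
  have hB : (1728 : ℤ) ∣ b2 ^ 3 - 3 * b2 * c4 - 2 * c6 := by
    refine IsCoprime.mul_dvd (x := (64 : ℤ)) (y := 27) ⟨-8, 19, by norm_num⟩ ?_ ?_
    · have e : b2 ^ 3 - 3 * b2 * c4 - 2 * c6 = (b2 + σ) * (b2 ^ 2 - b2 * σ + σ ^ 2 - 3 * c4)
          - σ * (σ ^ 2 - c4) + 2 * (σ * c4 - c6) := by ring
      rw [e]
      exact dvd_add (dvd_sub (dvd_mul_of_dvd_left h64 _) (dvd_mul_of_dvd_right hσ2 _))
        (dvd_mul_of_dvd_right hσ _)
    · have e : b2 ^ 3 - 3 * b2 * c4 - 2 * c6 =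
          (b2 - b) * (b2 ^ 2 + b2 * b + b ^ 2 - 3 * c4) + (b ^ 3 - 3 * b * c4 - 2 * c6) := by ring
      rw [e]
      exact dvd_add (dvd_mul_of_dvd_left h27 _) hb'
  obtain ⟨k4, hk4⟩ := hA
  obtain ⟨k6, hk6⟩ := hB
  obtain ⟨a2, ha2⟩ : (4 : ℤ) ∣ b2 - 1 := by
    have h4c : c4 % 4 = 1 := by
      have : (4 : ℤ) ∣ σ ^ 2 - c4 := (show (4 : ℤ) ∣ 64 by norm_num).trans hσ2
      obtain ⟨u, hu⟩ := h4
      rcases Int.even_or_odd σ with ⟨s, hs⟩ | ⟨s, hs⟩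
      · exfalso
        have e : σ ^ 2 - c4 = 4 * s ^ 2 - (2 * u + 1) := by rw [hs, hu]; ring
        rw [e] at this; omega
      · have e : σ ^ 2 - c4 = 4 * (s ^ 2 + s) + 1 - c4 := by rw [hs]; ring
        rw [e] at this; omega
    obtain ⟨j, hj⟩ : (4 : ℤ) ∣ σ * c4 - c6 := (show (4 : ℤ) ∣ 64 by norm_num).trans hσ
    obtain ⟨c, hc⟩ : ∃ c, c4 = 4 * c + 1 := ⟨c4 / 4, by omega⟩
    have hσ3 : σ % 4 = 3 := by
      rw [hc, show σ * (4 * c + 1) = 4 * (σ * c) + σ by ring] at hj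
      omega
    obtain ⟨i, hi⟩ := h64
    exact ⟨16 * i - σ / 4 - 1, by omega⟩
  have hb2' : b2 = 1 + 4 * a2 := by linear_combination ha2
  rw [hb2'] at hk4 hk6
  let W : WeierstrassCurve ℤ := ⟨1, a2, 0, 4 * k4, k6⟩
  have e4 : W.c₄ = c4 := by
    simp only [W, c₄, b₂, b₄]
    linear_combination hk4
  have e6 : W.c₆ = c6 := by
    refine mul_left_cancel₀ (two_ne_zero (α := ℤ)) ?_
    simp only [W, c₆, b₂, b₄, b₆]
    linear_combination hk6 - 3 * (1 + 4 * a2) * hk4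
  refine ⟨W, e4, e6, mul_left_cancel₀ (show (1728 : ℤ) ≠ 0 by norm_num) ?_⟩
  rw [W.c_relation, e4, e6, hrel]

end FLTAgent.SW3

end
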