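import Fermat.Agent.SW3.Forms

/-!
A squarefree sieve for the values of the quartic form on a box in an arithmetic progression.
-/

set_option autoImplicit false
set_option linter.all false

noncomputable section

namespace FLTAgent.SW3

open Finset

/-- one residue class in an interval -/
lemma card_class (s H q : ℕ) (c : ZMod q) (hq : 0 < q) :
    #{i ∈ Ico s (s + H) | ((i : ℕ) : ZMod q) = c} ≤ H / q + 1 := by
  rw [← card_range (H / q + 1)]
  refine card_le_card_of_injOn (fun i => (i - s) / q) (fun i hi => ?_) ?_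
  · simp only [coe_filter, mem_Ico, Set.mem_setOf_eq] at hi
    simp only [coe_range, Set.mem_Iio]
    exact Nat.lt_succ_of_le (Nat.div_le_div_right (by omega))
  · intro i hi i' hi' e
    simp only [coe_filter, mem_Ico, Set.mem_setOf_eq] at hi hi'
    have h : ((i - s : ℕ) : ZMod q) = ((i' - s : ℕ) : ZMod q) := by
      rw [Nat.cast_sub hi.1.1, Nat.cast_sub hi'.1.1, hi.2, hi'.2]
    rw [ZMod.natCast_eq_natCast_iff'] at h
    simp only at e
    have h1 := Nat.div_add_mod (i - s) q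
    rw [e, h, Nat.div_add_mod] at h1
    omega

/-- finitely many residue classes in an interval -/
lemma card_classes (s H q : ℕ) (R : Finset (ZMod q)) (hq : 0 < q) :
    #{i ∈ Ico s (s + H) | ((i : ℕ) : ZMod q) ∈ R} ≤ #R * (H / q + 1) := by
  rw [mul_comm]
  refine card_le_mul_card_image_of_maps_to (f := fun i : ℕ => (i : ZMod q))
    (fun i hi => (mem_filter.1 hi).2) _ fun c _ => ?_
  refine le_trans (card_le_card ?_) (card_class s H q c hq)
  intro i hi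
  simp only [mem_filter] at hi ⊢
  exact ⟨hi.1.1, hi.2⟩

/-- few primes up to `n` -/
lemma card_primes_le (n k : ℕ) :
    k * #{p ∈ range (n + 1) | p.Prime} ≤ k * (2 ^ k + 1) + 2 * n := by
  set P := {p ∈ range (n + 1) | p.Prime} with hP
  set Q := {p ∈ P | 2 ^ k < p} with hQ
  have h1 : #P ≤ (2 ^ k + 1) + #Q := by
    calc #P ≤ #(range (2 ^ k + 1) ∪ Q) := by
          refine card_le_card fun p hp => ?_
          rw [mem_union, mem_range, hQ, mem_filter]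
          rcases lt_or_ge (2 ^ k) p with h | h
          · exact Or.inr ⟨hp, h⟩
          · exact Or.inl (by omega)
      _ ≤ _ := by
          refine (card_union_le _ _).trans ?_
          rw [card_range]
  have h2 : (2 : ℕ) ^ (k * #Q) ≤ 2 ^ (2 * n) := by
    rw [pow_mul 2 2 n, pow_mul]
    calc (2 ^ k) ^ #Q = ∏ _p ∈ Q, 2 ^ k := by rw [prod_const]
      _ ≤ ∏ p ∈ Q, p := prod_le_prod' fun p hp => (mem_filter.1 hp).2.le
      _ ≤ ∏ p ∈ P, p := prod_le_prod_of_subset_of_one_le' (filter_subset _ _)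
          fun p hp _ => (mem_filter.1 hp).2.one_le
      _ ≤ 4 ^ n := primorial_le_four_pow n
      _ = (2 ^ 2) ^ n := by norm_num
  have h3 : k * #Q ≤ 2 * n := (Nat.pow_le_pow_iff_right (by norm_num)).1 h2
  calc k * #P ≤ k * ((2 ^ k + 1) + #Q) := Nat.mul_le_mul_left _ h1
    _ ≤ _ := by rw [Nat.mul_add]; omega

variable (c4 c6 : ℤ)

/-- roots of the quartic form modulo a square -/
def rootsSq (p : ℕ) [NeZero (p ^ 2)] : Finset (ZMod (p ^ 2)) :=
  {x | fD (c4 : ZMod (p ^ 2)) (c6 : ZMod (p ^ 2)) x 1 = 0}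

lemma card_rootsSq {p : ℕ} (hp : p.Prime) [NeZero (p ^ 2)] (h2 : p ≠ 2) (h3 : p ≠ 3)
    (hbad : ¬ (p : ℤ) ∣ c4 ^ 3 - c6 ^ 2) : #(rootsSq c4 c6 p) ≤ 4 := by
  have : Fact p.Prime := ⟨hp⟩
  have hsm : ∀ d : ℕ, d.Prime → p ≠ d → (d : ZMod p) ≠ 0 := fun d hd hne h =>
    hne ((Nat.prime_dvd_prime_iff_eq hp hd).1 ((ZMod.natCast_eq_zero_iff _ _).1 h))
  have hΔ : (c4 : ZMod p) ^ 3 - (c6 : ZMod p) ^ 2 ≠ 0 := by
    intro h
    apply hbad
    rw [← ZMod.intCast_zmod_eq_zero_iff_dvd]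
    push_cast
    exact h
  let P : Polynomial (ZMod p) := Polynomial.X ^ 4 - Polynomial.C (6 * (c4 : ZMod p)) * Polynomial.X ^ 2
    - Polynomial.C (8 * (c6 : ZMod p)) * Polynomial.X - Polynomial.C (3 * (c4 : ZMod p) ^ 2)
  have hdeg : P.natDegree = 4 := by simp only [P]; compute_degree!
  have hP0 : P ≠ 0 := fun h => by rw [h, Polynomial.natDegree_zero] at hdeg; omega
  have hdvd : p ∣ p ^ 2 := dvd_pow_self p two_ne_zero
  let π : ZMod (p ^ 2) →+* ZMod p := ZMod.castHom hdvd (ZMod p)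
  refine le_trans (card_le_card_of_injOn π (t := P.roots.toFinset) (fun x hx => ?_) ?_)
    (((Multiset.toFinset_card_le _).trans (Polynomial.card_roots' P)).trans hdeg.le)
  · simp only [rootsSq, coe_filter, mem_univ, true_and, Set.mem_setOf_eq] at hx
    simp only [mem_coe, Multiset.mem_toFinset, Polynomial.mem_roots hP0, Polynomial.IsRoot]
    have := congrArg π hx
    rw [map_fD, map_intCast, map_intCast, map_one, map_zero] at this
    simp only [fD] at this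
    simp only [P, Polynomial.eval_sub, Polynomial.eval_mul, Polynomial.eval_pow,
      Polynomial.eval_X, Polynomial.eval_C]
    linear_combination this
  · intro x hx y hy e
    simp only [rootsSq, coe_filter, mem_univ, true_and, Set.mem_setOf_eq] at hx hy
    obtain ⟨a, rfl⟩ := ZMod.intCast_surjective x
    obtain ⟨b, rfl⟩ := ZMod.intCast_surjective y
    have ha : ((p ^ 2 : ℕ) : ℤ) ∣ fD c4 c6 a 1 := by
      rw [← ZMod.intCast_zmod_eq_zero_iff_dvd, ← eq_intCast (Int.castRingHom (ZMod (p ^ 2))), map_fD]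
      simpa using hx
    have hb : ((p ^ 2 : ℕ) : ℤ) ∣ fD c4 c6 b 1 := by
      rw [← ZMod.intCast_zmod_eq_zero_iff_dvd, ← eq_intCast (Int.castRingHom (ZMod (p ^ 2))), map_fD]
      simpa using hy
    rw [map_intCast, map_intCast, ZMod.intCast_eq_intCast_iff_dvd_sub] at e
    rw [ZMod.intCast_eq_intCast_iff_dvd_sub]
    push_cast at ha hb ⊢
    obtain ⟨d, hd⟩ := e
    have hD' : ¬ (p : ℤ) ∣ fD' c4 c6 a 1 := by
      intro h
      have h0 : fD (c4 : ZMod p) (c6 : ZMod p) (a : ZMod p) 1 = 0 := by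
        have := (ZMod.intCast_zmod_eq_zero_iff_dvd (fD c4 c6 a 1) p).2
          ((dvd_pow_self (p : ℤ) two_ne_zero).trans ha)
        simp only [fD] at this ⊢
        push_cast at this
        linear_combination this
      have h1 : fD' (c4 : ZMod p) (c6 : ZMod p) (a : ZMod p) 1 = 0 := by
        have := (ZMod.intCast_zmod_eq_zero_iff_dvd (fD' c4 c6 a 1) p).2 h
        simp only [fD'] at this ⊢
        push_cast at this
        linear_combination this
      exact one_ne_zero (fD_separable (by exact_mod_cast hsm 2 Nat.prime_two h2)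
        (by exact_mod_cast hsm 3 Nat.prime_three h3) hΔ h0 h1).2
    have hmain : (p : ℤ) * p ∣ (p : ℤ) * (d * fD' c4 c6 a 1) := by
      have hbe : b = a + p * d := by linear_combination hd
      rw [show (p : ℤ) * (d * fD' c4 c6 a 1) = fD c4 c6 b 1 - fD c4 c6 a 1 -
        (p : ℤ) ^ 2 * (d ^ 2 * (6 * a ^ 2 - 6 * c4) + 4 * a * d ^ 3 * p + d ^ 4 * (p : ℤ) ^ 2) by
        rw [hbe]; simp only [fD, fD']; ring, ← sq]
      exact dvd_sub (dvd_sub hb ha) (dvd_mul_right _ _)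
    have hpd : (p : ℤ) ∣ d :=
      ((Nat.prime_iff_prime_int.1 hp).dvd_or_dvd
        ((mul_dvd_mul_iff_left (Int.natCast_ne_zero.2 hp.ne_zero)).1 hmain)).resolve_right hD'
    rw [hd, sq]
    exact mul_dvd_mul_left _ hpd

/-- the class of a point whose value is divisible by a square -/
lemma exists_root_class {p : ℕ} (hp : p.Prime) [NeZero (p ^ 2)] {l m : ℤ} (hm : ¬ (p : ℤ) ∣ m)
    (h : (p : ℤ) ^ 2 ∣ fD c4 c6 l m) :
    ∃ x ∈ rootsSq c4 c6 p, ((l : ℤ) : ZMod (p ^ 2)) = x * (m : ZMod (p ^ 2)) := by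
  obtain ⟨u, hu⟩ : ∃ u : ZMod (p ^ 2), u * (m : ZMod (p ^ 2)) = 1 := by
    obtain ⟨x, y, hxy⟩ : IsCoprime m ((p : ℤ) ^ 2) :=
      (((Nat.prime_iff_prime_int.1 hp).irreducible.coprime_iff_not_dvd.2 hm).pow_left).symm
    refine ⟨(x : ZMod (p ^ 2)), ?_⟩
    have := congrArg (Int.cast (R := ZMod (p ^ 2))) hxy
    push_cast at this
    have hz : ((p : ZMod (p ^ 2))) ^ 2 = 0 := by rw [← Nat.cast_pow, ZMod.natCast_self]
    linear_combination this - (y : ZMod (p ^ 2)) * hz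
  refine ⟨(l : ZMod (p ^ 2)) * u, ?_, by rw [mul_assoc, hu, mul_one]⟩
  simp only [rootsSq, mem_filter, mem_univ, true_and]
  have h0 : fD (c4 : ZMod (p ^ 2)) c6 l m = 0 := by
    rw [← eq_intCast (Int.castRingHom _) l, ← eq_intCast (Int.castRingHom _) m,
      ← eq_intCast (Int.castRingHom _) c4, ← eq_intCast (Int.castRingHom _) c6, ← map_fD,
      eq_intCast, ZMod.intCast_zmod_eq_zero_iff_dvd]
    exact_mod_cast h
  calc fD (c4 : ZMod (p ^ 2)) c6 ((l : ZMod (p ^ 2)) * u) 1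
      = fD (c4 : ZMod (p ^ 2)) c6 l m * u ^ 4 := by
        rw [← hu]; simp only [fD]; ring
    _ = 0 := by rw [h0, zero_mul]

/-- coprime points with vanishing determinant -/
lemma eq_or_neg_of_det {l m l' m' : ℤ} (h : IsCoprime l m) (h' : IsCoprime l' m')
    (hdet : l * m' = l' * m) : (l' = l ∧ m' = m) ∨ (l' = -l ∧ m' = -m) := by
  have h1 : l ∣ l' := h.dvd_of_dvd_mul_right ⟨m', hdet.symm⟩
  have h2 : l' ∣ l := h'.dvd_of_dvd_mul_right ⟨m, hdet⟩
  rcases Int.natAbs_eq_natAbs_iff.1 (Int.natAbs_eq_of_dvd_dvd h1 h2) with e | e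
  · by_cases hl : l = 0
    · subst hl
      rw [isCoprime_zero_left, Int.isUnit_iff] at h
      rw [← e, isCoprime_zero_left, Int.isUnit_iff] at h'
      omega
    · left
      exact ⟨e.symm, mul_left_cancel₀ hl (by rw [hdet, ← e])⟩
  · by_cases hl : l = 0
    · subst hl
      have e' : l' = 0 := by omega
      rw [isCoprime_zero_left, Int.isUnit_iff] at h
      rw [e', isCoprime_zero_left, Int.isUnit_iff] at h'
      omega
    · right
      exact ⟨by omega, mul_left_cancel₀ hl (by rw [hdet, e]; ring)⟩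

lemma sum_inv_sq_le (P : Finset ℕ) (hP : ∀ p ∈ P, 200 < p) :
    ∑ p ∈ P, (1 : ℝ) / (p : ℝ) ^ 2 ≤ 1 / 200 := by
  calc ∑ p ∈ P, (1 : ℝ) / (p : ℝ) ^ 2 ≤ ∑ p ∈ Ioc 200 (P.sup id + 200), (1 : ℝ) / (p : ℝ) ^ 2 := by
        refine sum_le_sum_of_subset_of_nonneg (fun p hp => mem_Ioc.2 ⟨hP p hp, ?_⟩)
          fun _ _ _ => by positivity
        exact (le_sup (f := id) hp).trans (Nat.le_add_right _ _)
    _ ≤ ((200 : ℕ) : ℝ)⁻¹ - ((P.sup id + 200 : ℕ) : ℝ)⁻¹ := by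
        simp only [one_div]
        exact sum_Ioc_inv_sq_le_sub (by norm_num) (Nat.le_add_left _ _)
    _ ≤ 1 / 200 := by
        have : (0 : ℝ) ≤ ((P.sup id + 200 : ℕ) : ℝ)⁻¹ := by positivity
        norm_num
        linarith

lemma total_lt {k Cb E H B p1 p3 S X Y : ℝ} (hk : 0 < k) (hkr : k = 8 * (28 * Cb + 16 * E))
    (hH : 1 ≤ H) (hB : 1 ≤ B) (hHB : 120 * B ≤ H) (q1 : k * p1 ≤ k * B + 4 * Cb * H)
    (q3 : k * p3 ≤ k * B + 2 * E * H ^ 2) (hS : S ≤ 1 / 200)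
    (hX : X + Y ≤ 5 * H ^ 2 * S + 7 * H * p1) :
    X + Y + 8 * p3 < H * H := by
  have hH0 : 0 ≤ H := by linarith
  have hBH : 15 * H * B ≤ H ^ 2 / 8 := by
    have := mul_le_mul_of_nonneg_left hHB hH0
    linarith [show H * (120 * B) = 8 * (15 * H * B) by ring, show H * H = H ^ 2 by ring]
  have g1 : 7 * H * (k * p1) ≤ 7 * H * (k * B + 4 * Cb * H) :=
    mul_le_mul_of_nonneg_left q1 (by positivity)
  have g3 : 8 * (k * p3) ≤ 8 * (k * B + 2 * E * H ^ 2) := by linarith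
  have g4 : 8 * (k * B) ≤ 8 * (k * B) * H :=
    le_mul_of_one_le_right (by positivity) hH
  have g5 : k * (15 * H * B) ≤ k * (H ^ 2 / 8) := mul_le_mul_of_nonneg_left hBH hk.le
  have g6 : (28 * Cb + 16 * E) * H ^ 2 = k / 8 * H ^ 2 := by rw [hkr]; ring
  have hsum : k * (7 * H * p1 + 8 * p3) ≤ k * (H ^ 2 / 4) := by linarith
  have hsum' := le_of_mul_le_mul_left hsum hk
  have hS' := mul_le_mul_of_nonneg_left hS (by positivity : (0 : ℝ) ≤ 5 * H ^ 2)
  have hHH : 0 < H ^ 2 := by positivity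
  linarith [show H * H = H ^ 2 by ring]

section Box

variable {c4 c6} {N : ℕ} {a b : ℤ} {s t H : ℕ}

/-- the points of the box with a common prime factor `p` -/
lemma card_common {p : ℕ} (hp : p.Prime) (hpN : ¬ p ∣ N) :
    #{x ∈ Ico s (s + H) ×ˢ Ico t (t + H) |
      (p : ℤ) ∣ a + N * (x.1 : ℕ) ∧ (p : ℤ) ∣ b + N * (x.2 : ℕ)} ≤ (H / p + 1) ^ 2 := by
  have : Fact p.Prime := ⟨hp⟩
  have hN : (N : ZMod p) ≠ 0 := fun h => hpN ((ZMod.natCast_eq_zero_iff _ _).1 h)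
  have key : ∀ (e : ℤ) (i : ℕ), (p : ℤ) ∣ e + N * i → ((i : ℕ) : ZMod p) = -(e : ZMod p) / N := by
    intro e i h
    have := (ZMod.intCast_zmod_eq_zero_iff_dvd _ _).2 h
    push_cast at this
    rw [eq_div_iff hN]; linear_combination this
  refine le_trans (card_le_card (t := {i ∈ Ico s (s + H) | ((i : ℕ) : ZMod p) = -(a : ZMod p) / N}
    ×ˢ {j ∈ Ico t (t + H) | ((j : ℕ) : ZMod p) = -(b : ZMod p) / N}) fun x hx => ?_) ?_
  · simp only [mem_filter, mem_product] at hx ⊢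
    exact ⟨⟨hx.1.1, key a _ hx.2.1⟩, ⟨hx.1.2, key b _ hx.2.2⟩⟩
  · rw [card_product, sq]
    exact Nat.mul_le_mul (card_class _ _ _ _ hp.pos) (card_class _ _ _ _ hp.pos)

/-- the points of the box where a square divides the value -/
lemma card_square {p : ℕ} (hp : p.Prime) (h2 : p ≠ 2) (h3 : p ≠ 3)
    (hbad : ¬ (p : ℤ) ∣ c4 ^ 3 - c6 ^ 2) (hpN : ¬ p ∣ N) :
    #{x ∈ Ico s (s + H) ×ˢ Ico t (t + H) | ¬ (p : ℤ) ∣ b + N * (x.2 : ℕ) ∧
      (p : ℤ) ^ 2 ∣ fD c4 c6 (a + N * (x.1 : ℕ)) (b + N * (x.2 : ℕ))} ≤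
      H * (4 * (H / p ^ 2 + 1)) := by
  classical
  have : NeZero (p ^ 2) := ⟨pow_ne_zero 2 hp.ne_zero⟩
  obtain ⟨u, hu⟩ : ∃ u : ZMod (p ^ 2), (N : ZMod (p ^ 2)) * u = 1 :=
    ⟨(N : ZMod (p ^ 2))⁻¹, ZMod.coe_mul_inv_eq_one N ((hp.coprime_iff_not_dvd.2 hpN).symm.pow_right 2)⟩
  refine le_trans (card_le_mul_card_image_of_maps_to (f := Prod.snd) (t := Ico t (t + H))
    (fun x hx => (mem_product.1 (mem_filter.1 hx).1).2) (4 * (H / p ^ 2 + 1)) fun j _ => ?_)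
    (by rw [Nat.card_Ico, Nat.add_sub_cancel_left, mul_comm])
  let R : Finset (ZMod (p ^ 2)) := (rootsSq c4 c6 p).image fun x =>
    (x * ((b + N * (j : ℕ) : ℤ) : ZMod (p ^ 2)) - (a : ZMod (p ^ 2))) * u
  have hR : #R ≤ 4 := card_image_le.trans (card_rootsSq c4 c6 hp h2 h3 hbad)
  refine le_trans ?_ ((card_classes s H (p ^ 2) R (NeZero.pos _)).trans
    (Nat.mul_le_mul_right _ hR))
  refine card_le_card_of_injOn Prod.fst (fun x hx => ?_) ?_
  · simp only [coe_filter, mem_filter, mem_product, Set.mem_setOf_eq] at hx ⊢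
    obtain ⟨⟨⟨hi, -⟩, hm, hF⟩, rfl⟩ := hx
    obtain ⟨z, hz, e⟩ := exists_root_class c4 c6 hp hm hF
    refine ⟨hi, mem_image.2 ⟨z, hz, ?_⟩⟩
    rw [← e]
    push_cast
    linear_combination (x.1 : ZMod (p ^ 2)) * hu
  · intro x hx y hy e
    simp only [coe_filter, Set.mem_setOf_eq] at hx hy
    exact Prod.ext e (hx.2.trans hy.2.symm)

/-- the points of the box where the square of a large prime divides the value -/
lemma card_large {p : ℕ} (hp : p.Prime) (h2 : p ≠ 2) (h3 : p ≠ 3)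
    (hbad : ¬ (p : ℤ) ∣ c4 ^ 3 - c6 ^ 2) (hN : N ≠ 0) {M : ℕ}
    (hM : ∀ i ∈ Ico s (s + H), |a + N * (i : ℕ)| ≤ M)
    (hM' : ∀ j ∈ Ico t (t + H), |b + N * (j : ℕ)| ≤ M) (hpM : 2 * M < p) :
    #{x ∈ Ico s (s + H) ×ˢ Ico t (t + H) |
      IsCoprime (a + N * (x.1 : ℕ)) (b + N * (x.2 : ℕ)) ∧
      (p : ℤ) ^ 2 ∣ fD c4 c6 (a + N * (x.1 : ℕ)) (b + N * (x.2 : ℕ))} ≤ 8 := by
  classical
  have : NeZero (p ^ 2) := ⟨pow_ne_zero 2 hp.ne_zero⟩
  let cl : ℕ × ℕ → ZMod (p ^ 2) := fun x => ((a + N * (x.1 : ℕ) : ℤ) : ZMod (p ^ 2)) *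
    ((b + N * (x.2 : ℕ) : ℤ) : ZMod (p ^ 2))⁻¹
  set S := {x ∈ Ico s (s + H) ×ˢ Ico t (t + H) |
      IsCoprime (a + N * (x.1 : ℕ)) (b + N * (x.2 : ℕ)) ∧
      (p : ℤ) ^ 2 ∣ fD c4 c6 (a + N * (x.1 : ℕ)) (b + N * (x.2 : ℕ))} with hS
  have hclass : ∀ x ∈ S, cl x ∈ rootsSq c4 c6 p ∧
      ((a + N * (x.1 : ℕ) : ℤ) : ZMod (p ^ 2)) = cl x * ((b + N * (x.2 : ℕ) : ℤ) : ZMod (p ^ 2)) := by
    intro x hx
    rw [hS, mem_filter] at hx
    obtain ⟨-, hcop, hF⟩ := hx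
    have hm : ¬ (p : ℤ) ∣ b + N * (x.2 : ℕ) := by
      intro hm
      have hl : (p : ℤ) ∣ a + N * (x.1 : ℕ) := by
        refine (Nat.prime_iff_prime_int.1 hp).dvd_of_dvd_pow (n := 4) ?_
        set l := a + (N : ℤ) * (x.1 : ℕ)
        set m := b + (N : ℤ) * (x.2 : ℕ)
        rw [show l ^ 4 = fD c4 c6 l m +
          m * (6 * c4 * l ^ 2 * m + 8 * c6 * l * m ^ 2 + 3 * c4 ^ 2 * m ^ 3) by
          simp only [fD]; ring]
        exact dvd_add ((dvd_pow_self (p : ℤ) two_ne_zero).trans hF) (dvd_mul_of_dvd_left hm _)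
      exact (Nat.prime_iff_prime_int.1 hp).not_isUnit (hcop.isUnit_of_dvd' hl hm)
    obtain ⟨z, hz, e⟩ := exists_root_class c4 c6 hp hm hF
    have hunit : IsUnit ((b + N * (x.2 : ℕ) : ℤ) : ZMod (p ^ 2)) := by
      obtain ⟨u, v, huv⟩ : IsCoprime (b + N * (x.2 : ℕ)) ((p : ℤ) ^ 2) :=
        (((Nat.prime_iff_prime_int.1 hp).irreducible.coprime_iff_not_dvd.2 hm).pow_left).symm
      refine IsUnit.of_mul_eq_one_right (u : ZMod (p ^ 2)) ?_
      have := congrArg (Int.cast (R := ZMod (p ^ 2))) huv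
      have hz0 : ((p : ZMod (p ^ 2))) ^ 2 = 0 := by rw [← Nat.cast_pow, ZMod.natCast_self]
      push_cast at this ⊢
      linear_combination this - (v : ZMod (p ^ 2)) * hz0
    have hcl : cl x = z := by
      simp only [cl]
      rw [e, mul_assoc, ZMod.mul_inv_of_unit _ hunit, mul_one]
    exact ⟨hcl ▸ hz, hcl ▸ e⟩
  refine le_trans (card_le_mul_card_image_of_maps_to (f := cl) (fun x hx => (hclass x hx).1) 2
    fun z _ => ?_) (le_trans (Nat.mul_le_mul_left 2 (card_rootsSq c4 c6 hp h2 h3 hbad)) le_rfl)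
  by_cases hne : {x ∈ S | cl x = z} = ∅
  · rw [hne]; simp
  obtain ⟨x0, hx0⟩ := nonempty_iff_ne_empty.2 hne
  let L : ℕ × ℕ → ℤ × ℤ := fun x => (a + N * (x.1 : ℕ), b + N * (x.2 : ℕ))
  refine le_trans (card_le_card_of_injOn L (t := {L x0, (-(L x0).1, -(L x0).2)}) ?_ ?_) card_le_two
  · intro x hx
    rw [mem_coe, mem_filter] at hx
    rw [mem_filter] at hx0
    have e1 := (hclass x hx.1).2
    have e0 := (hclass x0 hx0.1).2
    rw [hx.2] at e1; rw [hx0.2] at e0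
    have hx1 := hx.1; have hx01 := hx0.1
    rw [hS, mem_filter, mem_product] at hx1 hx01
    have hdvd : ((p ^ 2 : ℕ) : ℤ) ∣
        (L x0).1 * (L x).2 - (L x).1 * (L x0).2 := by
      rw [← ZMod.intCast_zmod_eq_zero_iff_dvd]
      simp only [L, Int.cast_sub, Int.cast_mul, e1, e0]
      ring
    have hzero : (L x0).1 * (L x).2 - (L x).1 * (L x0).2 = 0 := by
      refine Int.eq_zero_of_abs_lt_dvd hdvd ?_
      have b1 := hM _ hx1.1.1
      have b2 := hM' _ hx1.1.2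
      have b3 := hM _ hx01.1.1
      have b4 := hM' _ hx01.1.2
      have hM0 : (0 : ℤ) ≤ M := Int.natCast_nonneg M
      have : |(L x0).1 * (L x).2 - (L x).1 * (L x0).2| ≤ (M : ℤ) * M + M * M := by
        refine (abs_sub _ _).trans (add_le_add ?_ ?_) <;> rw [abs_mul]
        · exact mul_le_mul b3 b2 (abs_nonneg _) hM0
        · exact mul_le_mul b1 b4 (abs_nonneg _) hM0
      refine this.trans_lt ?_
      push_cast
      have : (2 * M : ℤ) < p := by exact_mod_cast hpM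
      nlinarith
    rcases eq_or_neg_of_det hx01.2.1 hx1.2.1 (sub_eq_zero.1 hzero) with ⟨h1, h2'⟩ | ⟨h1, h2'⟩
    · simp only [coe_insert, coe_singleton, Set.mem_insert_iff, Set.mem_singleton_iff]
      exact Or.inl (Prod.ext h1 h2')
    · simp only [coe_insert, coe_singleton, Set.mem_insert_iff, Set.mem_singleton_iff]
      exact Or.inr (Prod.ext h1 h2')
  · intro x _ y _ e
    simp only [L, Prod.mk.injEq, add_right_inj, mul_eq_mul_left_iff, Nat.cast_inj,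
      Int.natCast_eq_zero, hN, or_false] at e
    exact Prod.ext e.1 e.2

end Box

/-- most of a large box gives coprime arguments and values squarefree away from `N` -/
theorem exists_sifted {N : ℕ} {a b : ℤ} (hN : N ≠ 0)
    (hsmall : ∀ p : ℕ, p.Prime → p ≤ 200 → p ∣ N)
    (hbad : ∀ p : ℕ, p.Prime → ¬ p ∣ N → ¬ (p : ℤ) ∣ c4 ^ 3 - c6 ^ 2)
    (hab : ∀ p : ℕ, p.Prime → p ∣ N → ¬ ((p : ℤ) ∣ a ∧ (p : ℤ) ∣ b))
    (i0 j0 H1 : ℕ)
    (hne : ∀ H i j : ℕ, H1 ≤ H → i ∈ Ico (i0 * H) (i0 * H + H) → j ∈ Ico (j0 * H) (j0 * H + H) →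
      fD c4 c6 (a + N * i) (b + N * j) ≠ 0) :
    ∃ H0 : ℕ, ∀ H : ℕ, H0 ≤ H → ∃ i ∈ Ico (i0 * H) (i0 * H + H),
      ∃ j ∈ Ico (j0 * H) (j0 * H + H), ∀ p : ℕ, p.Prime → ¬ p ∣ N →
        ¬ ((p : ℤ) ∣ a + N * i ∧ (p : ℤ) ∣ b + N * j) ∧
        ¬ (p : ℤ) ^ 2 ∣ fD c4 c6 (a + N * i) (b + N * j) := by
  classical
  set Cb : ℕ := a.natAbs + b.natAbs + N * (i0 + j0 + 1) + 1 with hCb
  set E : ℕ := (1 + 6 * c4.natAbs + 8 * c6.natAbs + 3 * c4.natAbs ^ 2) * Cb ^ 4 with hE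
  set k : ℕ := 8 * (28 * Cb + 16 * E) with hk
  refine ⟨max H1 (120 * (2 ^ k + 1)), fun H hH => ?_⟩
  have hH1 : H1 ≤ H := (le_max_left _ _).trans hH
  have hH2 : 120 * (2 ^ k + 1) ≤ H := (le_max_right _ _).trans hH
  have hH0 : 1 ≤ H := le_trans (Nat.one_le_iff_ne_zero.2 (by positivity)) hH2
  set s := i0 * H with hs
  set t := j0 * H with ht
  set box := Ico s (s + H) ×ˢ Ico t (t + H) with hbox
  have hbl : ∀ i ∈ Ico s (s + H), |a + N * (i : ℕ)| ≤ ((Cb * H : ℕ) : ℤ) := by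
    intro i hi
    rw [mem_Ico, hs] at hi
    have : i ≤ (i0 + j0 + 1) * H := by nlinarith
    have h2 : (a.natAbs : ℕ) + N * i ≤ Cb * H := by
      have := Nat.mul_le_mul_left N this
      rw [hCb]
      have := Nat.le_mul_of_pos_right a.natAbs hH0
      have := Nat.le_mul_of_pos_right b.natAbs hH0
      simp only [add_mul, mul_assoc] at *
      omega
    refine (abs_add_le _ _).trans ?_
    rw [Int.abs_eq_natAbs, abs_of_nonneg (by positivity)]
    exact_mod_cast h2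
  have hbm : ∀ j ∈ Ico t (t + H), |b + N * (j : ℕ)| ≤ ((Cb * H : ℕ) : ℤ) := by
    intro j hj
    rw [mem_Ico, ht] at hj
    have : j ≤ (i0 + j0 + 1) * H := by nlinarith
    have h2 : (b.natAbs : ℕ) + N * j ≤ Cb * H := by
      have := Nat.mul_le_mul_left N this
      rw [hCb]
      have := Nat.le_mul_of_pos_right a.natAbs hH0
      have := Nat.le_mul_of_pos_right b.natAbs hH0
      simp only [add_mul, mul_assoc] at *
      omega
    refine (abs_add_le _ _).trans ?_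
    rw [Int.abs_eq_natAbs, abs_of_nonneg (by positivity)]
    exact_mod_cast h2
  set n1 : ℕ := 2 * Cb * H with hn1
  set n3 : ℕ := E * H ^ 2 with hn3
  set P1 := {p ∈ {p ∈ range (n1 + 1) | p.Prime} | ¬ p ∣ N} with hP1
  set P3 := {p ∈ {p ∈ range (n3 + 1) | p.Prime} | ¬ p ∣ N ∧ n1 < p} with hP3
  set T1 := fun p : ℕ => {x ∈ box |
      (p : ℤ) ∣ a + N * (x.1 : ℕ) ∧ (p : ℤ) ∣ b + N * (x.2 : ℕ)} with hT1
  set T2 := fun p : ℕ => {x ∈ box | ¬ (p : ℤ) ∣ b + N * (x.2 : ℕ) ∧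
      (p : ℤ) ^ 2 ∣ fD c4 c6 (a + N * (x.1 : ℕ)) (b + N * (x.2 : ℕ))} with hT2
  set T3 := fun p : ℕ => {x ∈ box |
      IsCoprime (a + N * (x.1 : ℕ)) (b + N * (x.2 : ℕ)) ∧
      (p : ℤ) ^ 2 ∣ fD c4 c6 (a + N * (x.1 : ℕ)) (b + N * (x.2 : ℕ))} with hT3
  suffices hlt : #(P1.biUnion T1 ∪ P1.biUnion T2 ∪ P3.biUnion T3) < #box by
    obtain ⟨x, hx, hxn⟩ := not_subset.1 (fun hsub => absurd (card_le_card hsub) (not_le.2 hlt))
    simp only [mem_union, mem_biUnion, not_or, not_exists, not_and] at hxn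
    obtain ⟨⟨hx1, hx2⟩, hx3⟩ := hxn
    rw [hbox, mem_product] at hx
    refine ⟨x.1, hx.1, x.2, hx.2, ?_⟩
    have hnz := hne H _ _ hH1 hx.1 hx.2
    set l : ℤ := a + N * (x.1 : ℕ) with hl
    set m : ℤ := b + N * (x.2 : ℕ) with hm
    have hcommon : ∀ p : ℕ, p.Prime → ¬ ((p : ℤ) ∣ l ∧ (p : ℤ) ∣ m) := by
      rintro p hp ⟨h1, h2⟩
      by_cases hpN : p ∣ N
      · have hpN' : (p : ℤ) ∣ N := Int.natCast_dvd_natCast.2 hpN
        refine hab p hp hpN ⟨?_, ?_⟩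
        · rw [show a = l - N * (x.1 : ℕ) by rw [hl]; ring]; exact dvd_sub h1 (hpN'.mul_right _)
        · rw [show b = m - N * (x.2 : ℕ) by rw [hm]; ring]; exact dvd_sub h2 (hpN'.mul_right _)
      · have hle : p ≤ n1 := by
          rw [hn1]
          have hlm : l ≠ 0 ∨ m ≠ 0 := by
            by_contra hcon
            push Not at hcon
            exact hnz (by rw [hcon.1, hcon.2]; simp [fD])
          have key : ∀ z : ℤ, z ≠ 0 → (p : ℤ) ∣ z → |z| ≤ ((Cb * H : ℕ) : ℤ) → p ≤ 2 * Cb * H := by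
            intro z hz hd hb
            have h' : (p : ℤ) ≤ |z| := Int.le_of_dvd (abs_pos.2 hz) ((dvd_abs _ _).2 hd)
            have : p ≤ Cb * H := by exact_mod_cast h'.trans hb
            nlinarith
          rcases hlm with h | h
          · exact key l h h1 (hbl _ hx.1)
          · exact key m h h2 (hbm _ hx.2)
        refine hx1 p (by simp [hP1, hp, hpN, Nat.lt_succ_of_le hle]) ?_
        simp only [hT1, mem_filter, hbox, mem_product]
        exact ⟨hx, h1, h2⟩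
    intro p hp hpN
    refine ⟨hcommon p hp, fun hF => ?_⟩
    by_cases hle : p ≤ n1
    · refine hx2 p (by simp [hP1, hp, hpN, Nat.lt_succ_of_le hle]) ?_
      simp only [hT2, mem_filter, hbox, mem_product]
      refine ⟨hx, fun hpm => hcommon p hp ⟨?_, hpm⟩, hF⟩
      refine (Nat.prime_iff_prime_int.1 hp).dvd_of_dvd_pow (n := 4) ?_
      rw [show l ^ 4 = fD c4 c6 l m +
        m * (6 * c4 * l ^ 2 * m + 8 * c6 * l * m ^ 2 + 3 * c4 ^ 2 * m ^ 3) by
        simp only [fD]; ring]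
      exact dvd_add ((dvd_pow_self (p : ℤ) two_ne_zero).trans hF) (dvd_mul_of_dvd_left hpm _)
    · have hcop : IsCoprime l m := by
        rw [Int.isCoprime_iff_gcd_eq_one]
        by_contra hg
        obtain ⟨q, hq, hqd⟩ := Nat.exists_prime_and_dvd hg
        exact hcommon q hq ⟨(Int.natCast_dvd_natCast.2 hqd).trans (Int.gcd_dvd_left _ _),
          (Int.natCast_dvd_natCast.2 hqd).trans (Int.gcd_dvd_right _ _)⟩
      have hb : (p : ℤ) ^ 2 ≤ |fD c4 c6 l m| :=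
        Int.le_of_dvd (abs_pos.2 hnz) ((dvd_abs _ _).2 hF)
      have hbound : |fD c4 c6 l m| ≤ ((E * H ^ 4 : ℕ) : ℤ) := by
        set M : ℤ := ((Cb * H : ℕ) : ℤ) with hM
        have hlM : |l| ≤ M := hbl _ hx.1
        have hmM : |m| ≤ M := hbm _ hx.2
        have hM0 : 0 ≤ M := Int.natCast_nonneg _
        have t1 : |l| ^ 4 ≤ M ^ 4 := pow_le_pow_left₀ (abs_nonneg _) hlM 4
        have t2 : |l| ^ 2 * |m| ^ 2 ≤ M ^ 4 := by
          calc |l| ^ 2 * |m| ^ 2 ≤ M ^ 2 * M ^ 2 := mul_le_mul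
                (pow_le_pow_left₀ (abs_nonneg _) hlM 2) (pow_le_pow_left₀ (abs_nonneg _) hmM 2)
                (by positivity) (by positivity)
            _ = M ^ 4 := by ring
        have t3 : |l| * |m| ^ 3 ≤ M ^ 4 := by
          calc |l| * |m| ^ 3 ≤ M * M ^ 3 := mul_le_mul hlM
                (pow_le_pow_left₀ (abs_nonneg _) hmM 3) (by positivity) hM0
            _ = M ^ 4 := by ring
        have t4 : |m| ^ 4 ≤ M ^ 4 := pow_le_pow_left₀ (abs_nonneg _) hmM 4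
        calc |fD c4 c6 l m| ≤ |l| ^ 4 + 6 * |c4| * (|l| ^ 2 * |m| ^ 2) + 8 * |c6| * (|l| * |m| ^ 3)
              + 3 * |c4| ^ 2 * |m| ^ 4 := by
              simp only [fD]
              refine (abs_sub _ _).trans (add_le_add ((abs_sub _ _).trans (add_le_add
                ((abs_sub _ _).trans (add_le_add ?_ ?_)) ?_)) ?_) <;>
                simp [abs_mul, abs_pow, mul_assoc]
          _ ≤ M ^ 4 + 6 * |c4| * M ^ 4 + 8 * |c6| * M ^ 4 + 3 * |c4| ^ 2 * M ^ 4 := by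
              gcongr
          _ = _ := by
              rw [hM, hE]; push_cast; ring
      have hle3 : p ≤ n3 := by
        rw [hn3]
        by_contra hlt'
        push Not at hlt'
        have h1 : p ^ 2 ≤ E * H ^ 4 := by exact_mod_cast hb.trans hbound
        have h2 : (E * H ^ 2) ^ 2 < p ^ 2 := Nat.pow_lt_pow_left hlt' two_ne_zero
        have hE1 : E * H ^ 4 ≤ (E * H ^ 2) ^ 2 := by
          rw [mul_pow, ← pow_mul]
          exact Nat.mul_le_mul_right _ (Nat.le_self_pow two_ne_zero E)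
        omega
      refine hx3 p (by simp [hP3, hp, hpN, Nat.lt_succ_of_le hle3, not_le.1 hle]) ?_
      simp only [hT3, mem_filter, hbox, mem_product]
      exact ⟨hx, hcop, hF⟩
  have h200 : ∀ p ∈ P1, 200 < p := by
    intro p hp
    simp only [hP1, mem_filter] at hp
    exact not_le.1 fun h => hp.2 (hsmall p hp.1.2 h)
  have b1 : ∀ p ∈ P1, #(T1 p) ≤ (H / p + 1) ^ 2 := fun p hp => by
    simp only [hP1, mem_filter] at hp
    exact card_common hp.1.2 hp.2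
  have b2 : ∀ p ∈ P1, #(T2 p) ≤ H * (4 * (H / p ^ 2 + 1)) := fun p hp => by
    have h := h200 p hp
    simp only [hP1, mem_filter] at hp
    exact card_square hp.1.2 (by omega) (by omega) (hbad p hp.1.2 hp.2) hp.2
  have b3 : ∀ p ∈ P3, #(T3 p) ≤ 8 := fun p hp => by
    simp only [hP3, mem_filter] at hp
    have h : 200 < p := not_le.1 fun h => hp.2.1 (hsmall p hp.1.2 h)
    exact card_large hp.1.2 (by omega) (by omega) (hbad p hp.1.2 hp.2.1) hN hbl hbm
      (by rw [← mul_assoc]; exact hp.2.2)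
  have hu : #(P1.biUnion T1 ∪ P1.biUnion T2 ∪ P3.biUnion T3) ≤
      (∑ p ∈ P1, (H / p + 1) ^ 2) + (∑ p ∈ P1, H * (4 * (H / p ^ 2 + 1))) + ∑ _p ∈ P3, 8 := by
    refine (card_union_le _ _).trans (add_le_add ((card_union_le _ _).trans (add_le_add ?_ ?_)) ?_)
    · exact card_biUnion_le.trans (sum_le_sum b1)
    · exact card_biUnion_le.trans (sum_le_sum b2)
    · exact card_biUnion_le.trans (sum_le_sum b3)
  refine hu.trans_lt ?_
  rw [hbox, card_product, Nat.card_Ico, Nat.card_Ico, Nat.add_sub_cancel_left,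
    Nat.add_sub_cancel_left, ← Nat.cast_lt (α := ℝ)]
  push_cast
  have hS : ∑ p ∈ P1, (1 : ℝ) / (p : ℝ) ^ 2 ≤ 1 / 200 := sum_inv_sq_le P1 h200
  have e1 : ∑ p ∈ P1, (((H / p : ℕ) : ℝ) + 1) ^ 2 + ∑ p ∈ P1, (H : ℝ) * (4 * (((H / p ^ 2 : ℕ) : ℝ) + 1))
      ≤ 5 * (H : ℝ) ^ 2 * (∑ p ∈ P1, (1 : ℝ) / (p : ℝ) ^ 2) + 7 * H * #P1 := by
    rw [← sum_add_distrib, mul_sum, card_eq_sum_ones, Nat.cast_sum, mul_sum, ← sum_add_distrib]
    refine sum_le_sum fun p hp => ?_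
    have hp1 : (1 : ℝ) ≤ p := by exact_mod_cast le_trans (by norm_num) (h200 p hp).le
    have hHr : (1 : ℝ) ≤ H := by exact_mod_cast hH0
    have d1 : ((H / p : ℕ) : ℝ) ≤ (H : ℝ) / p := Nat.cast_div_le
    have d2 : ((H / p ^ 2 : ℕ) : ℝ) ≤ (H : ℝ) / (p : ℝ) ^ 2 := by
      exact_mod_cast (Nat.cast_div_le (α := ℝ) (m := H) (n := p ^ 2))
    have d3 : (H : ℝ) / p ≤ H := div_le_self (by positivity) hp1
    have e : ((H : ℝ) / p + 1) ^ 2 = (H : ℝ) ^ 2 * (1 / (p : ℝ) ^ 2) + 2 * ((H : ℝ) / p) + 1 := by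
      ring
    have e' : (H : ℝ) * (4 * ((H : ℝ) / (p : ℝ) ^ 2 + 1)) = 4 * (H : ℝ) ^ 2 * (1 / (p : ℝ) ^ 2) + 4 * H := by
      ring
    have f1 : (((H / p : ℕ) : ℝ) + 1) ^ 2 ≤ ((H : ℝ) / p + 1) ^ 2 :=
      pow_le_pow_left₀ (by positivity) (by linarith) 2
    have f2 : (H : ℝ) * (4 * (((H / p ^ 2 : ℕ) : ℝ) + 1)) ≤
        (H : ℝ) * (4 * ((H : ℝ) / (p : ℝ) ^ 2 + 1)) := by gcongr
    push_cast
    linarith
  have q1 : (k : ℝ) * #P1 ≤ k * ((2 : ℝ) ^ k + 1) + 4 * Cb * H := by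
    have hsub : P1 ⊆ {p ∈ range (n1 + 1) | p.Prime} := by
      rw [hP1]; exact filter_subset _ _
    have := (Nat.mul_le_mul_left k (card_le_card hsub)).trans (card_primes_le n1 k)
    rw [hn1] at this
    have h' : ((k * #P1 : ℕ) : ℝ) ≤ ((k * (2 ^ k + 1) + 2 * (2 * Cb * H) : ℕ) : ℝ) :=
      Nat.cast_le.2 this
    push_cast at h'
    linarith
  have q3 : (k : ℝ) * #P3 ≤ k * ((2 : ℝ) ^ k + 1) + 2 * E * (H : ℝ) ^ 2 := by
    have hsub : P3 ⊆ {p ∈ range (n3 + 1) | p.Prime} := by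
      rw [hP3]; exact filter_subset _ _
    have := (Nat.mul_le_mul_left k (card_le_card hsub)).trans (card_primes_le n3 k)
    rw [hn3] at this
    have h' : ((k * #P3 : ℕ) : ℝ) ≤ ((k * (2 ^ k + 1) + 2 * (E * H ^ 2) : ℕ) : ℝ) :=
      Nat.cast_le.2 this
    push_cast at h'
    linarith
  have hkr : (k : ℝ) = 8 * (28 * Cb + 16 * E) := by rw [hk]; push_cast; ring
  have hkpos : (0 : ℝ) < k := by
    have h0 : 0 < k := by
      rw [hk]; exact Nat.mul_pos (by norm_num) (by omega)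
    exact Nat.cast_pos.2 h0
  have hHB : 120 * ((2 : ℝ) ^ k + 1) ≤ (H : ℝ) := by
    have h' : ((120 * (2 ^ k + 1) : ℕ) : ℝ) ≤ (H : ℝ) := Nat.cast_le.2 hH2
    push_cast at h'
    exact h'
  have h3 : ∑ _p ∈ P3, (8 : ℝ) = 8 * #P3 := by rw [sum_const, nsmul_eq_mul]; ring
  rw [h3]
  exact total_lt hkpos hkr (Nat.one_le_cast.2 hH0) (le_add_of_nonneg_left (by positivity)) hHB
    q1 q3 hS e1

end FLTAgent.SW3

end
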