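import Fermat.Agent.SW3.Line
import Fermat.Agent.SW3.Model
import Fermat.Agent.SW3.Sieve
import Fermat.Agent.SW3.Congr
import Fermat.Agent.R2.Anchor

/-!
The switch at three: an anchor congruent modulo three to a given curve.
-/

set_option autoImplicit false
set_option linter.all false

noncomputable section

namespace FLTAgent.SW3

open WeierstrassCurve

/-- simultaneous congruences modulo powers of primes -/
lemma exists_crt (S : Finset ℕ) (hS : ∀ q ∈ S, q.Prime) (e : ℕ → ℕ) (f : ℕ → ℤ) :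
    ∃ a : ℤ, ∀ q ∈ S, ((q ^ e q : ℕ) : ℤ) ∣ a - f q := by
  classical
  have hne : ∀ q ∈ S, q ^ e q ≠ 0 := fun q hq => pow_ne_zero _ (hS q hq).ne_zero
  have hpp : Set.Pairwise (↑S) (Function.onFun Nat.Coprime fun q => q ^ e q) := by
    intro p hp q hq hpq
    exact Nat.Coprime.pow _ _ ((Nat.coprime_primes (hS p hp) (hS q hq)).2 hpq)
  obtain ⟨k, hk⟩ := Nat.chineseRemainderOfFinset (fun q => (f q % ((q ^ e q : ℕ) : ℤ)).toNat)
    (fun q => q ^ e q) S hne hpp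
  refine ⟨k, fun q hq => ?_⟩
  have h := Int.natCast_modEq_iff.2 (hk q hq)
  rw [Int.toNat_of_nonneg (Int.emod_nonneg _ (Int.natCast_ne_zero.2 (hne q hq)))] at h
  exact (h.trans (Int.mod_modEq _ _)).symm.dvd

/-- the values of the forms at two -/
lemma exists_two_part {c d Δ u T l m : ℤ} {v : ℕ} (hrel : 1728 * Δ = c ^ 3 - d ^ 2) (hv : 1 ≤ v)
    (hΔ : Δ = 2 ^ v * u) (hu : Odd u) (hc : Odd c) (hd : d % 4 = 3) (hT : Even T)
    (hg : (2 : ℤ) ^ (v + 6) ∣ gT d Δ T - 2 ^ v * (5 * u))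
    (hl : (2 : ℤ) ^ (v + 20) ∣ l - (3 * d + 4 * T)) (hm : (2 : ℤ) ^ (v + 20) ∣ m - c) :
    ∃ c' d' w : ℤ, fC4 c d l m = 256 * c' ∧ fC6 c d l m = 4096 * d' ∧
      fD c d l m = 256 * (2 ^ v * w) ∧ Odd c' ∧ d' % 4 = 3 ∧ Odd w ∧ u * w ^ 3 % 8 = 5 := by
  obtain ⟨e1, e2, e3⟩ := forms_two hrel T
  obtain ⟨g1, g2, g3⟩ := forms_congr (n := 2 ^ (v + 20)) c d (l := l) (m := m)
    (l' := 3 * d + 4 * T) (m' := c) (by exact_mod_cast hl) (by exact_mod_cast hm)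
  rw [e1] at g1; rw [e2] at g2; rw [e3] at g3
  push_cast at g1 g2 g3
  obtain ⟨kD, hkD⟩ := g1
  obtain ⟨k4, hk4⟩ := g2
  obtain ⟨k6, hk6⟩ := g3
  obtain ⟨j, hj⟩ := hg
  have hΔe : Even Δ := by
    rw [hΔ]; exact (even_two.pow_of_ne_zero (by omega)).mul_right _
  have hd1 : Odd d := Int.odd_iff.2 (by omega)
  refine ⟨c * p4T d Δ T + 2 ^ (v + 12) * k4, p6T d Δ T + 2 ^ (v + 8) * k6,
    5 * u + 64 * j + 4096 * kD, by linear_combination hk4, by linear_combination hk6,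
    by linear_combination hkD + 256 * hj, ?_, ?_, ?_, ?_⟩
  · exact (hc.mul (p4T_odd hd1 hΔe hT)).add_even ((even_two.pow_of_ne_zero (by omega)).mul_right _)
  · have h := p6T_mod hd hΔe hT
    rw [show (2 : ℤ) ^ (v + 8) * k6 = 4 * (2 ^ (v + 6) * k6) by ring, Int.add_mul_emod_self_left]
    exact h
  · rw [show 5 * u + 64 * j + 4096 * kD = u + 2 * (2 * u + 32 * j + 2048 * kD) by ring]
    exact hu.add_even (even_two_mul _)
  · obtain ⟨t, rfl⟩ := hu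
    have key : (((2 * t + 1) * (5 * (2 * t + 1) + 64 * j + 4096 * kD) ^ 3 : ℤ) : ZMod 8) =
        ((5 : ℤ) : ZMod 8) := by
      push_cast
      rw [show (64 : ZMod 8) = 0 from rfl, show (4096 : ZMod 8) = 0 from rfl, zero_mul, zero_mul]
      generalize (t : ZMod 8) = x
      revert x
      decide
    rw [ZMod.intCast_eq_intCast_iff'] at key
    exact key

/-- the quartic form is positive near the first axis -/
lemma fD_pos {c d l m K : ℤ} (hK : 1 + 6 * |c| + 8 * |d| + 3 * c ^ 2 ≤ K) (h : |m| * K ≤ l) :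
    l ^ 4 ≤ K * fD c d l m := by
  have hK1 : 1 ≤ K := by nlinarith [abs_nonneg c, abs_nonneg d, sq_nonneg c]
  have hl : 0 ≤ l := le_trans (by positivity) h
  have hm : |m| ≤ l := le_trans (le_mul_of_one_le_right (abs_nonneg m) hK1) h
  have t2 : l ^ 2 * |m| ^ 2 * K ≤ l ^ 4 := by
    calc l ^ 2 * |m| ^ 2 * K = l ^ 2 * |m| * (|m| * K) := by ring
      _ ≤ l ^ 2 * l * l := by gcongr
      _ = l ^ 4 := by ring
  have t3 : l * |m| ^ 3 * K ≤ l ^ 4 := by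
    calc l * |m| ^ 3 * K = l * |m| ^ 2 * (|m| * K) := by ring
      _ ≤ l * l ^ 2 * l := by gcongr
      _ = l ^ 4 := by ring
  have t4 : |m| ^ 4 * K ≤ l ^ 4 := by
    calc |m| ^ 4 * K = |m| ^ 3 * (|m| * K) := by ring
      _ ≤ l ^ 3 * l := by gcongr
      _ = l ^ 4 := by ring
  have s2 : c * l ^ 2 * m ^ 2 * K ≤ |c| * l ^ 4 := by
    calc c * l ^ 2 * m ^ 2 * K ≤ |c| * l ^ 2 * m ^ 2 * K := by gcongr; exact le_abs_self c
      _ = |c| * (l ^ 2 * |m| ^ 2 * K) := by rw [sq_abs]; ring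
      _ ≤ _ := by gcongr
  have s3 : d * l * m ^ 3 * K ≤ |d| * l ^ 4 := by
    calc d * l * m ^ 3 * K ≤ |d * l * m ^ 3| * K := by gcongr; exact le_abs_self _
      _ = |d| * (l * |m| ^ 3 * K) := by rw [abs_mul, abs_mul, abs_pow, abs_of_nonneg hl]; ring
      _ ≤ _ := by gcongr
  have s4 : c ^ 2 * m ^ 4 * K ≤ c ^ 2 * l ^ 4 := by
    calc c ^ 2 * m ^ 4 * K = c ^ 2 * (|m| ^ 4 * K) := by rw [Even.pow_abs (by decide) m]; ring
      _ ≤ _ := by gcongr
  have : (1 + 6 * |c| + 8 * |d| + 3 * c ^ 2) * l ^ 4 ≤ K * l ^ 4 := by gcongr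
  simp only [fD]
  linarith [show (0:ℤ) ≤ l ^ 4 by positivity]

/-- the quartic form is negative near the second axis -/
lemma fD_neg {c d l m K : ℤ} (hc : c ≠ 0) (hK : 1 + 6 * |c| + 8 * |d| + 3 * c ^ 2 ≤ K)
    (h : |l| * K ≤ m) : K * fD c d l m ≤ -m ^ 4 := by
  have hK1 : 1 ≤ K := by nlinarith [abs_nonneg c, abs_nonneg d, sq_nonneg c]
  have hm : 0 ≤ m := le_trans (by positivity) h
  have hl : |l| ≤ m := le_trans (le_mul_of_one_le_right (abs_nonneg l) hK1) h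
  have t4 : |l| ^ 4 * K ≤ m ^ 4 := by
    calc |l| ^ 4 * K = |l| ^ 3 * (|l| * K) := by ring
      _ ≤ m ^ 3 * m := by gcongr
      _ = m ^ 4 := by ring
  have t2 : |l| ^ 2 * m ^ 2 * K ≤ m ^ 4 := by
    calc |l| ^ 2 * m ^ 2 * K = |l| * m ^ 2 * (|l| * K) := by ring
      _ ≤ m * m ^ 2 * m := by gcongr
      _ = m ^ 4 := by ring
  have t3 : |l| * m ^ 3 * K ≤ m ^ 4 := by
    calc |l| * m ^ 3 * K = m ^ 3 * (|l| * K) := by ring
      _ ≤ m ^ 3 * m := by gcongr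
      _ = m ^ 4 := by ring
  have s2 : -c * l ^ 2 * m ^ 2 * K ≤ |c| * m ^ 4 := by
    calc -c * l ^ 2 * m ^ 2 * K ≤ |c| * l ^ 2 * m ^ 2 * K := by gcongr; exact neg_le_abs c
      _ = |c| * (|l| ^ 2 * m ^ 2 * K) := by rw [sq_abs]; ring
      _ ≤ _ := by gcongr
  have s3 : -(d * l * m ^ 3) * K ≤ |d| * m ^ 4 := by
    calc -(d * l * m ^ 3) * K ≤ |d * l * m ^ 3| * K := by gcongr; exact neg_le_abs _
      _ = |d| * (|l| * m ^ 3 * K) := by rw [abs_mul, abs_mul, abs_pow, abs_of_nonneg hm]; ring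
      _ ≤ _ := by gcongr
  have s1 : l ^ 4 * K ≤ m ^ 4 := by rwa [← Even.pow_abs (by decide) l]
  have hc2 : 1 ≤ c ^ 2 := by nlinarith [Int.one_le_abs hc, sq_abs c]
  have : (1 + 6 * |c| + 8 * |d| + 3 * c ^ 2) * m ^ 4 ≤ K * m ^ 4 := by gcongr
  have hKc : K * m ^ 4 ≤ c ^ 2 * (K * m ^ 4) := le_mul_of_one_le_left (by positivity) hc2
  simp only [fD]
  linarith [show m ^ 4 ≤ c ^ 2 * m ^ 4 from le_mul_of_one_le_left (by positivity) hc2,
    show m ^ 4 ≤ K * m ^ 4 from le_mul_of_one_le_left (by positivity) hK1,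
    show (0:ℤ) ≤ |c| * m ^ 4 by positivity, show (0:ℤ) ≤ |d| * m ^ 4 by positivity,
    show (0:ℤ) ≤ c ^ 2 * m ^ 4 by positivity, show (0:ℤ) ≤ m ^ 4 by positivity]

/-- the cone containing the box -/
lemma cone_bound {K z z' : ℤ} {N K2 H k k' : ℕ} (hK : 1 ≤ K) (hN : (1 : ℤ) ≤ N)
    (hK2 : (K2 : ℤ) = 2 * K + 1) (hz : |z| + 1 ≤ (H : ℤ)) (hz' : |z'| + 1 ≤ (H : ℤ))
    (hk : K2 * H ≤ k) (hk' : k' ≤ H) :
    (H : ℤ) ≤ z + N * k ∧ |z' + N * k'| * K ≤ z + N * k := by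
  have hk1 : (2 * K + 1) * (H : ℤ) ≤ k := by rw [← hK2]; exact_mod_cast hk
  have h1 : (N : ℤ) * ((2 * K + 1) * H) ≤ N * k := mul_le_mul_of_nonneg_left hk1 (by linarith)
  have hH : (0 : ℤ) ≤ H := Int.natCast_nonneg H
  have h2 : 0 ≤ (K * H) * ((N : ℤ) - 1) := mul_nonneg (mul_nonneg (by linarith) hH) (by linarith)
  have h3 : (H : ℤ) ≤ (N : ℤ) * H := le_mul_of_one_le_left hH hN
  have h4 : (H : ℤ) ≤ (N * K : ℤ) * H :=
    le_mul_of_one_le_left hH (le_trans hN (le_mul_of_one_le_right (by linarith) hK))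
  have hk2 : (N : ℤ) * k' ≤ N * H :=
    mul_le_mul_of_nonneg_left (by exact_mod_cast hk') (by linarith)
  have hs : |z' + N * k'| * K ≤ ((N : ℤ) + 1) * H * K := by
    refine mul_le_mul_of_nonneg_right ?_ (by linarith)
    refine (abs_add_le _ _).trans ?_
    rw [abs_of_nonneg (show (0 : ℤ) ≤ N * k' by positivity)]
    linarith
  constructor
  · linarith [neg_abs_le z]
  · linarith [neg_abs_le z]

lemma value_pos {K X z : ℤ} {H : ℕ} (hK : 1 ≤ K) (hz : (H : ℤ) ≤ z) (h : z ^ 4 ≤ K * X)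
    (hH : 0 < H := by omega) : 0 < X ∧ (H : ℤ) ≤ K * |X| := by
  have hz1 : (1 : ℤ) ≤ z := le_trans (by exact_mod_cast hH) hz
  have h4 : (H : ℤ) ≤ z ^ 4 := hz.trans (le_self_pow₀ hz1 (by norm_num))
  have hX : 0 < X := pos_of_mul_pos_right (lt_of_lt_of_le (pow_pos (by linarith) 4) h) (by linarith)
  exact ⟨hX, by rw [abs_of_pos hX]; linarith⟩

lemma value_neg {K X z : ℤ} {H : ℕ} (hK : 1 ≤ K) (hz : (H : ℤ) ≤ z) (h : K * X ≤ -z ^ 4)
    (hH : 0 < H := by omega) : X < 0 ∧ (H : ℤ) ≤ K * |X| := by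
  obtain ⟨h1, h2⟩ := value_pos hK hz (show z ^ 4 ≤ K * -X by linarith) hH
  exact ⟨by linarith, by rwa [abs_neg] at h2⟩

set_option maxHeartbeats 1000000 in
theorem anchorSwitch : R2.AnchorSwitch := by
  intro W hΔ hW h3 h2
  classical
  set c := W.c₄ with hcdef
  set d := W.c₆ with hddef
  set Δ := W.Δ with hΔdef
  have hrel : 1728 * Δ = c ^ 3 - d ^ 2 := W.c_relation
  have hcodd : Odd c := by
    rw [← Int.not_even_iff_odd, even_iff_two_dvd]
    exact hW 2 Nat.prime_two h2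
  have ha1 : Odd W.a₁ := by
    by_contra he
    rw [Int.not_odd_iff_even] at he
    refine (Int.not_even_iff_odd.2 hcodd) ?_
    have h4 : Even (4 : ℤ) := by decide
    have h24 : Even (24 : ℤ) := by decide
    simp [hcdef, c₄, b₂, b₄, parity_simps, he, h4, h24]
  have hd4 : d % 4 = 3 := by
    obtain ⟨t, ht⟩ := ha1
    have hb : W.b₂ = 4 * (t ^ 2 + t + W.a₂) + 1 := by simp only [b₂, ht]; ring
    set z := t ^ 2 + t + W.a₂
    have e : d = 4 * (-(16 * z ^ 3 + 12 * z ^ 2 + 3 * z) + 9 * W.b₂ * W.b₄ - 54 * W.b₆ - 1) + 3 := by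
      rw [hddef, c₆, hb]; ring
    omega
  have hc0 : c ≠ 0 := by rintro h; rw [h] at hcodd; exact absurd hcodd (by decide)
  have hsem : ∀ p : ℕ, p.Prime → (p : ℤ) ∣ Δ → ¬ (p : ℤ) ∣ c := hW
  -- the prime two
  set v := padicValInt 2 Δ with hvdef
  haveI : Fact (Nat.Prime 2) := ⟨Nat.prime_two⟩
  have hv : 1 ≤ v := ((padicValInt_dvd_iff 1 Δ).1 (by simpa using h2)).resolve_left hΔ
  obtain ⟨u, hu⟩ : ((2 : ℕ) : ℤ) ^ v ∣ Δ := padicValInt_dvd Δ
  push_cast at hu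
  have hu_odd : Odd u := by
    rw [← Int.not_even_iff_odd, even_iff_two_dvd]
    rintro ⟨k, hk⟩
    have h' : ((2 : ℕ) : ℤ) ^ (v + 1) ∣ Δ := ⟨k, by push_cast; rw [hu, hk]; ring⟩
    have := ((padicValInt_dvd_iff _ _).1 h').resolve_left hΔ
    omega
  have hd_odd : Odd d := Int.odd_iff.2 (by omega)
  obtain ⟨T, hT, hg⟩ := exists_gT (τ := 2 ^ v * (5 * u)) hd_odd (even_iff_two_dvd.2 h2)
    ((even_two.pow_of_ne_zero (by omega)).mul_right _) (v + 5)
  -- the odd primes of the discriminant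
  have hex : ∀ q : ℕ, ∃ x : ℤ, q.Prime → q ≠ 2 → (q : ℤ) ∣ Δ →
      (q : ℤ) ∣ fD c d x 1 ∧ ¬ (q : ℤ) ^ 2 ∣ fD c d x 1 ∧ ¬ (q : ℤ) ∣ fC4 c d x 1 := by
    intro q
    by_cases h : q.Prime ∧ q ≠ 2 ∧ (q : ℤ) ∣ Δ
    · obtain ⟨hq, hq2, hqΔ⟩ := h
      obtain ⟨x, hx⟩ := exists_simple (c4 := c) (c6 := d) hq hq2
        (by rw [← hrel]; exact hqΔ.mul_left _) (hsem q hq hqΔ)
      exact ⟨x, fun _ _ _ => hx⟩
    · exact ⟨0, fun a b e => absurd ⟨a, b, e⟩ h⟩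
  choose x0 hx0 using hex
  -- the auxiliary prime
  set S0 : Finset ℕ := Δ.natAbs.primeFactors ∪ {q ∈ Finset.range 201 | q.Prime} with hS0
  obtain ⟨r, lr, mr, hr, hrS, hrD, hrroot⟩ := exists_cubic_prime hrel hΔ hc0 S0
  set S : Finset ℕ := insert r S0 with hSdef
  have hSprime : ∀ q ∈ S, q.Prime := by
    intro q hq
    rw [hSdef, Finset.mem_insert, hS0, Finset.mem_union, Finset.mem_filter] at hq
    rcases hq with rfl | hq | hq
    · exact hr
    · exact Nat.prime_of_mem_primeFactors hq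
    · exact hq.2
  have hmemΔ : ∀ q : ℕ, q.Prime → (q : ℤ) ∣ Δ → q ∈ S0 := fun q hq h => by
    rw [hS0, Finset.mem_union]
    exact Or.inl (Nat.mem_primeFactors.2 ⟨hq, Int.natCast_dvd.1 h, Int.natAbs_ne_zero.2 hΔ⟩)
  have hmemsmall : ∀ q : ℕ, q.Prime → q ≤ 200 → q ∈ S0 := fun q hq h => by
    rw [hS0, Finset.mem_union, Finset.mem_filter, Finset.mem_range]
    exact Or.inr ⟨by omega, hq⟩
  have hr2 : r ≠ 2 := fun e => hrS (e ▸ hmemsmall 2 Nat.prime_two (by norm_num))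
  have hr3 : r ≠ 3 := fun e => hrS (e ▸ hmemsmall 3 Nat.prime_three (by norm_num))
  have hrΔ : ¬ (r : ℤ) ∣ Δ := fun h => hrS (hmemΔ r hr h)
  let e : ℕ → ℕ := fun q => if q = 2 then v + 20 else 5
  let sp : ℕ → Prop := fun q => (q : ℤ) ∣ Δ ∧ Even (padicValInt q Δ)
  let fl : ℕ → ℤ := fun q =>
    if q = 2 then 3 * d + 4 * T else if q = r then lr else if sp q then x0 q else 1
  let fm : ℕ → ℤ := fun q => if q = 2 then c else if q = r then mr else if sp q then 1 else 0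
  obtain ⟨a, ha⟩ := exists_crt S hSprime e fl
  obtain ⟨b, hb⟩ := exists_crt S hSprime e fm
  set N : ℕ := ∏ q ∈ S, q ^ e q with hNdef
  have hN : N ≠ 0 := Finset.prod_ne_zero_iff.2 fun q hq => pow_ne_zero _ (hSprime q hq).ne_zero
  have hSN : ∀ q ∈ S, q ^ e q ∣ N := fun q hq => Finset.dvd_prod_of_mem (fun q => q ^ e q) hq
  have he1 : ∀ q, e q ≠ 0 := fun q => by simp only [e]; split_ifs <;> omega
  have hNS : ∀ p : ℕ, p.Prime → (p ∣ N ↔ p ∈ S) := by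
    intro p hp
    refine ⟨fun h => ?_, fun h => (dvd_pow_self p (he1 p)).trans (hSN p h)⟩
    obtain ⟨q, hq, hpq⟩ := (hp.prime.dvd_finset_prod_iff _).1 h
    rwa [(Nat.prime_dvd_prime_iff_eq hp (hSprime q hq)).1 (hp.dvd_of_dvd_pow hpq)]
  -- the sieve
  set K : ℤ := 1 + 6 * |c| + 8 * |d| + 3 * c ^ 2 with hKdef
  have hK1 : 1 ≤ K := by rw [hKdef]; nlinarith [abs_nonneg c, abs_nonneg d, sq_nonneg c]
  set K2 : ℕ := 2 * K.toNat + 1 with hK2
  have hK2' : (K2 : ℤ) = 2 * K + 1 := by rw [hK2]; push_cast; rw [Int.toNat_of_nonneg (by linarith)]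
  set i0 : ℕ := if Δ < 0 then K2 else 0 with hi0
  set j0 : ℕ := if Δ < 0 then 0 else K2 with hj0
  have hregion : ∀ H i j : ℕ, a.natAbs + b.natAbs + 1 ≤ H →
      i ∈ Finset.Ico (i0 * H) (i0 * H + H) → j ∈ Finset.Ico (j0 * H) (j0 * H + H) →
      (Δ < 0 → 0 < fD c d (a + N * i) (b + N * j) ∧
        (H : ℤ) ≤ K * |fD c d (a + N * i) (b + N * j)|) ∧
      (0 < Δ → fD c d (a + N * i) (b + N * j) < 0 ∧
        (H : ℤ) ≤ K * |fD c d (a + N * i) (b + N * j)|) := by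
    intro H i j hH hi hj
    rw [Finset.mem_Ico] at hi hj
    have hN1 : (1 : ℤ) ≤ N := by
      have := Nat.one_le_iff_ne_zero.2 hN
      exact_mod_cast this
    have hH' : |a| + |b| + 1 ≤ (H : ℤ) := by
      rw [Int.abs_eq_natAbs, Int.abs_eq_natAbs]; exact_mod_cast hH
    have ha' : |a| + 1 ≤ (H : ℤ) := by linarith [abs_nonneg b]
    have hb' : |b| + 1 ≤ (H : ℤ) := by linarith [abs_nonneg a]
    constructor
    · intro hΔ0
      simp only [hi0, hj0, hΔ0, if_true, zero_mul, zero_add] at hi hj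
      obtain ⟨hb2, hlin⟩ := cone_bound hK1 hN1 hK2' ha' hb' hi.1 hj.2.le
      exact value_pos hK1 hb2 (fD_pos (c := c) (d := d) le_rfl hlin)
    · intro hΔ0
      simp only [hi0, hj0, not_lt.2 hΔ0.le, if_false, zero_mul, zero_add] at hi hj
      obtain ⟨hb2, hlin⟩ := cone_bound hK1 hN1 hK2' hb' ha' hj.1 hi.2.le
      exact value_neg hK1 hb2 (fD_neg (c := c) (d := d) hc0 le_rfl hlin)
  have hsmall : ∀ p : ℕ, p.Prime → p ≤ 200 → p ∣ N := fun p hp h =>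
    (hNS p hp).2 (Finset.mem_insert_of_mem (hmemsmall p hp h))
  have hbad : ∀ p : ℕ, p.Prime → ¬ p ∣ N → ¬ (p : ℤ) ∣ c ^ 3 - d ^ 2 := by
    intro p hp hpN h
    rw [← hrel] at h
    rcases (Nat.prime_iff_prime_int.1 hp).dvd_or_dvd h with h | h
    · have h' : p ∣ 1728 := Int.natCast_dvd_natCast.1 h
      refine hpN (hsmall p hp ?_)
      have : p ∣ 2 ^ 6 * 3 ^ 3 := h'
      rcases hp.dvd_mul.1 this with h | h <;> have := Nat.le_of_dvd (by norm_num) (hp.dvd_of_dvd_pow h) <;> omega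
    · exact hpN ((hNS p hp).2 (Finset.mem_insert_of_mem (hmemΔ p hp h)))
  have hab : ∀ p : ℕ, p.Prime → p ∣ N → ¬ ((p : ℤ) ∣ a ∧ (p : ℤ) ∣ b) := by
    rintro p hp hpN ⟨hpa, hpb⟩
    have hmem := (hNS p hp).1 hpN
    have hd' : (p : ℤ) ∣ ((p ^ e p : ℕ) : ℤ) := Int.natCast_dvd_natCast.2 (dvd_pow_self p (he1 p))
    have hfl : (p : ℤ) ∣ fl p := (dvd_sub_right hpa).1 (hd'.trans (ha p hmem))
    have hfm : (p : ℤ) ∣ fm p := (dvd_sub_right hpb).1 (hd'.trans (hb p hmem))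
    simp only [fl, fm] at hfl hfm
    by_cases hp2 : p = 2
    · rw [if_pos hp2] at hfm
      subst hp2
      exact (Int.not_even_iff_odd.2 hcodd) (even_iff_two_dvd.2 hfm)
    rw [if_neg hp2] at hfl hfm
    have hu1 : ¬ (p : ℤ) ∣ 1 := fun h => hp.ne_one (Nat.dvd_one.1 (Int.natCast_dvd_natCast.1 h))
    by_cases hpr : p = r
    · rw [if_pos hpr] at hfl hfm
      subst hpr
      refine hrD ?_
      simp only [fD]
      exact dvd_sub (dvd_sub (dvd_sub (dvd_pow hfl (by norm_num))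
        (dvd_mul_of_dvd_right (dvd_pow hfm two_ne_zero) _))
        (dvd_mul_of_dvd_right (dvd_pow hfm three_ne_zero) _))
        (dvd_mul_of_dvd_right (dvd_pow hfm (by norm_num)) _)
    rw [if_neg hpr] at hfl hfm
    by_cases hs : sp p
    · rw [if_pos hs] at hfm; exact hu1 hfm
    · rw [if_neg hs] at hfl; exact hu1 hfl
  obtain ⟨H0, hH0⟩ := exists_sifted c d (a := a) (b := b) hN hsmall hbad hab i0 j0
    (a.natAbs + b.natAbs + 1) (by
      intro H i j hH hi hj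
      rcases lt_or_gt_of_ne hΔ with h | h
      · exact ((hregion H i j hH hi hj).1 h).1.ne'
      · exact ((hregion H i j hH hi hj).2 h).1.ne)
  set H : ℕ := H0 + (a.natAbs + b.natAbs + 1) + (K.toNat * (2 ^ (v + 8) * N) + 1) with hHdef
  obtain ⟨i, hi, j, hj, hsieve⟩ := hH0 H (by omega)
  obtain ⟨hregn, hregp⟩ := hregion H i j (by omega) hi hj
  set l : ℤ := a + N * i with hldef
  set m : ℤ := b + N * j with hmdef
  have hcl : ∀ q ∈ S, ((q ^ e q : ℕ) : ℤ) ∣ l - fl q ∧ ((q ^ e q : ℕ) : ℤ) ∣ m - fm q := by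
    intro q hq
    have hd : ((q ^ e q : ℕ) : ℤ) ∣ (N : ℤ) := Int.natCast_dvd_natCast.2 (hSN q hq)
    refine ⟨?_, ?_⟩
    · rw [show l - fl q = (a - fl q) + N * i by rw [hldef]; ring]
      exact dvd_add (ha q hq) (hd.mul_right _)
    · rw [show m - fm q = (b - fm q) + N * j by rw [hmdef]; ring]
      exact dvd_add (hb q hq) (hd.mul_right _)
  have h2S : 2 ∈ S := Finset.mem_insert_of_mem (hmemsmall 2 Nat.prime_two (by norm_num))
  have he2 : e 2 = v + 20 := if_pos rfl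
  have hfl2 : fl 2 = 3 * d + 4 * T := if_pos rfl
  have hfm2 : fm 2 = c := if_pos rfl
  have hcl2 := hcl 2 h2S
  rw [he2, hfl2, hfm2, Nat.cast_pow, Nat.cast_ofNat] at hcl2
  obtain ⟨c', d', w, eC4, eC6, eD, hc'odd, hd'4, hwodd, huw⟩ :=
    exists_two_part (c := c) (d := d) (l := l) (m := m) hrel hv hu hu_odd hcodd hd4 hT hg
      hcl2.1 hcl2.2
  have hD0 : fD c d l m ≠ 0 := by
    rcases lt_or_gt_of_ne hΔ with h | h
    · exact (hregn h).1.ne'
    · exact (hregp h).1.ne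
  -- congruences at the primes of `S`
  have hmod : ∀ q ∈ S, ∀ k : ℕ, k ≤ e q → ((q ^ k : ℕ) : ℤ) ∣ fD c d l m - fD c d (fl q) (fm q) ∧
      ((q ^ k : ℕ) : ℤ) ∣ fC4 c d l m - fC4 c d (fl q) (fm q) ∧
      ((q ^ k : ℕ) : ℤ) ∣ fC6 c d l m - fC6 c d (fl q) (fm q) := fun q hq k hk =>
    forms_congr c d ((Int.natCast_dvd_natCast.2 (pow_dvd_pow q hk)).trans (hcl q hq).1)
      ((Int.natCast_dvd_natCast.2 (pow_dvd_pow q hk)).trans (hcl q hq).2)
  -- odd primes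
  have hS' : ∀ p ∈ S, p ≠ 2 → ¬ (p : ℤ) ^ 2 ∣ fD c d l m ∧
      ((p : ℤ) ∣ Δ → ¬ (p : ℤ) ∣ fC4 c d l m ∧
        ((p : ℤ) ∣ fD c d l m ↔ Even (padicValInt p Δ))) ∧
      (¬ (p : ℤ) ∣ Δ → ¬ (p : ℤ) ∣ fD c d l m) := by
    intro p hpS hp2
    have hp := hSprime p hpS
    obtain ⟨k1, k2, -⟩ := hmod p hpS 1 (Nat.one_le_iff_ne_zero.2 (he1 p))
    obtain ⟨q1, -, -⟩ := hmod p hpS 2 (by simp only [e, hp2, if_false]; norm_num)
    rw [pow_one] at k1 k2
    push_cast at q1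
    have unit_case : ¬ (p : ℤ) ∣ fD c d (fl p) (fm p) → ¬ (p : ℤ) ^ 2 ∣ fD c d l m ∧
        ¬ (p : ℤ) ∣ fD c d l m := by
      intro h
      have h' : ¬ (p : ℤ) ∣ fD c d l m := fun h' => h ((dvd_iff_dvd_of_dvd_sub k1).1 h')
      exact ⟨fun h'' => h' ((dvd_pow_self _ two_ne_zero).trans h''), h'⟩
    by_cases hpr : p = r
    · have hfl : fl p = lr := by simp only [fl, hp2, hpr, hr2, if_false, if_true]
      have hfm : fm p = mr := by simp only [fm, hp2, hpr, hr2, if_false, if_true]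
      obtain ⟨u1, u2⟩ := unit_case (by rw [hfl, hfm, hpr]; exact hrD)
      exact ⟨u1, fun h => absurd (hpr ▸ h) hrΔ, fun _ => u2⟩
    by_cases hs : sp p
    · have hfl : fl p = x0 p := by simp only [fl, hp2, hpr, hs, if_false, if_true]
      have hfm : fm p = 1 := by simp only [fm, hp2, hpr, hs, if_false, if_true]
      rw [hfl, hfm] at k1 k2 q1
      obtain ⟨a1, a2, a3⟩ := hx0 p hp hp2 hs.1
      exact ⟨fun h => a2 ((dvd_iff_dvd_of_dvd_sub q1).1 h),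
        fun _ => ⟨fun h => a3 ((dvd_iff_dvd_of_dvd_sub k2).1 h),
          iff_of_true ((dvd_iff_dvd_of_dvd_sub k1).2 a1) hs.2⟩,
        fun h => absurd hs.1 h⟩
    · have hfl : fl p = 1 := by simp only [fl, hp2, hpr, hs, if_false]
      have hfm : fm p = 0 := by simp only [fm, hp2, hpr, hs, if_false]
      obtain ⟨u1, u2⟩ := unit_case (by
        rw [hfl, hfm, fD_one_zero]
        exact fun h => hp.ne_one (Nat.dvd_one.1 (Int.natCast_dvd_natCast.1 h)))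
      rw [hfl, hfm, fC4_one_zero] at k2
      exact ⟨u1, fun h => ⟨fun h' => hsem p hp h ((dvd_iff_dvd_of_dvd_sub k2).1 h'),
        iff_of_false u2 (fun he => hs ⟨h, he⟩)⟩, fun _ => u2⟩
  have hodd : ∀ p : ℕ, p.Prime → p ≠ 2 → ¬ (p : ℤ) ^ 2 ∣ fD c d l m ∧
      ((p : ℤ) ∣ fD c d l m → ¬ (p : ℤ) ∣ fC4 c d l m) := by
    intro p hp hp2
    by_cases hpS : p ∈ S
    · obtain ⟨s1, s2, s3⟩ := hS' p hpS hp2
      refine ⟨s1, fun h => ?_⟩
      by_cases hpΔ : (p : ℤ) ∣ Δ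
      · exact (s2 hpΔ).1
      · exact absurd h (s3 hpΔ)
    · obtain ⟨g1, g2⟩ := hsieve p hp (fun h => hpS ((hNS p hp).1 h))
      refine ⟨g2, fun h h' => g1 ?_⟩
      have hb' := forms_bezout c d l m
      have hdiv : (p : ℤ) ∣ 432 * (c ^ 3 - d ^ 2) ^ 2 * m ^ 7 := by
        rw [← hb']; exact dvd_add (dvd_mul_of_dvd_right h' _) (dvd_mul_of_dvd_right h _)
      have hpN : ¬ p ∣ N := fun h => hpS ((hNS p hp).1 h)
      have hpm : (p : ℤ) ∣ m := by
        rcases (Nat.prime_iff_prime_int.1 hp).dvd_or_dvd hdiv with h'' | h''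
        · rcases (Nat.prime_iff_prime_int.1 hp).dvd_or_dvd h'' with h3 | h3
          · exfalso
            have h4 : p ∣ 2 ^ 4 * 3 ^ 3 := Int.natCast_dvd_natCast.1 h3
            refine hpN (hsmall p hp ?_)
            rcases hp.dvd_mul.1 h4 with h | h <;> have := Nat.le_of_dvd (by norm_num) (hp.dvd_of_dvd_pow h) <;> omega
          · exact absurd ((Nat.prime_iff_prime_int.1 hp).dvd_of_dvd_pow h3) (hbad p hp hpN)
        · exact (Nat.prime_iff_prime_int.1 hp).dvd_of_dvd_pow h''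
      refine ⟨(Nat.prime_iff_prime_int.1 hp).dvd_of_dvd_pow (n := 4) ?_, hpm⟩
      rw [show l ^ 4 = fD c d l m + m * (6 * c * l ^ 2 * m + 8 * d * l * m ^ 2 + 3 * c ^ 2 * m ^ 3) by
        simp only [fD]; ring]
      exact dvd_add h (dvd_mul_of_dvd_left hpm _)
  -- the invariants
  set Δ' : ℤ := Δ * (2 ^ v * w) ^ 3 with hΔ'def
  have hw0 : w ≠ 0 := fun h => by rw [h] at eD; simp at eD; exact hD0 eD
  have hΔ'0 : Δ' ≠ 0 := mul_ne_zero hΔ (pow_ne_zero _ (mul_ne_zero (pow_ne_zero _ two_ne_zero) hw0))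
  have hrel' : 1728 * Δ' = c' ^ 3 - d' ^ 2 := by
    have h := forms_relation c d l m
    rw [eC4, eC6, eD, ← hrel] at h
    rw [hΔ'def]
    refine mul_left_cancel₀ (show (16777216 : ℤ) ≠ 0 by norm_num) ?_
    linear_combination -h
  have hdiv3 : ∀ p : ℕ, p.Prime → p ≠ 2 → ∀ z : ℤ, (p : ℤ) ∣ 256 * z → (p : ℤ) ∣ z := by
    intro p hp hp2 z h
    refine ((Nat.prime_iff_prime_int.1 hp).dvd_or_dvd h).resolve_left fun h' => ?_
    have : p ∣ 2 ^ 8 := Int.natCast_dvd_natCast.1 h'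
    exact hp2 ((Nat.prime_dvd_prime_iff_eq hp Nat.prime_two).1 (hp.dvd_of_dvd_pow this))
  have hDdvd : ∀ p : ℕ, p.Prime → p ≠ 2 → ((p : ℤ) ∣ 2 ^ v * w ↔ (p : ℤ) ∣ fD c d l m) :=
    fun p hp hp2 => ⟨fun h => eD ▸ h.mul_left _, fun h => hdiv3 p hp hp2 _ (eD ▸ h)⟩
  have hC4' : ∀ p : ℕ, (p : ℤ) ∣ c' → (p : ℤ) ∣ fC4 c d l m := fun p h => eC4 ▸ h.mul_left _
  have hss : ∀ p : ℕ, p.Prime → (p : ℤ) ∣ Δ' → ¬ (p : ℤ) ∣ c' := by
    intro p hp h h'
    by_cases hp2 : p = 2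
    · subst hp2; exact (Int.not_even_iff_odd.2 hc'odd) (even_iff_two_dvd.2 h')
    rcases (Nat.prime_iff_prime_int.1 hp).dvd_or_dvd h with hΔp | hw'
    · exact ((hS' p (Finset.mem_insert_of_mem (hmemΔ p hp hΔp)) hp2).2.1 hΔp).1 (hC4' p h')
    · exact (hodd p hp hp2).2
        ((hDdvd p hp hp2).1 ((Nat.prime_iff_prime_int.1 hp).dvd_of_dvd_pow hw')) (hC4' p h')
  have h3S : 3 ∈ S := Finset.mem_insert_of_mem (hmemsmall 3 Nat.prime_three (by norm_num))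
  obtain ⟨β, hβ, hβ'⟩ : ∃ β : ℤ, (3 : ℤ) ∣ β ^ 2 - c' ∧
      (27 : ℤ) ∣ β ^ 3 - 3 * β * c' - 2 * d' := by
    by_cases h3Δ : (3 : ℤ) ∣ Δ
    · have h3c : ¬ (3 : ℤ) ∣ c' := hss 3 Nat.prime_three (dvd_mul_of_dvd_left h3Δ _)
      obtain ⟨x, y, hxy⟩ : IsCoprime c' (81 : ℤ) := by
        have h := (Int.prime_three.irreducible.coprime_iff_not_dvd.2 h3c).symm
        simpa using h.pow_right (n := 4)
      obtain ⟨t, ht⟩ : (81 : ℤ) ∣ c' ^ 3 - d' ^ 2 := by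
        obtain ⟨k, hk⟩ : (3 : ℤ) ∣ Δ' := dvd_mul_of_dvd_left h3Δ _
        exact ⟨64 * k, by rw [← hrel', hk]; ring⟩
      have hsq : (81 : ℤ) ∣ (-(x * d')) ^ 2 - c' :=
        ⟨-(x ^ 2 * t) - y * c' * (x * c' + 1), by
          linear_combination (-x ^ 2) * ht + (x * c' + 1) * c' * hxy⟩
      refine ⟨-(x * d'), (show (3 : ℤ) ∣ 81 by norm_num).trans hsq,
        (show (27 : ℤ) ∣ 81 by norm_num).trans ?_⟩
      rw [show (-(x * d')) ^ 3 - 3 * (-(x * d')) * c' - 2 * d' =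
        ((-(x * d')) ^ 2 - c') * (-(x * d')) + 2 * d' * (x * c' - 1) by ring]
      exact dvd_add (dvd_mul_of_dvd_left hsq _) (dvd_mul_of_dvd_right ⟨-y, by linear_combination hxy⟩ _)
    · have hfl : fl 3 = 1 := by
        simp only [fl, sp, h3Δ, Ne.symm hr3, Nat.cast_ofNat, false_and, if_false]
        norm_num
      have hfm : fm 3 = 0 := by
        simp only [fm, sp, h3Δ, Ne.symm hr3, Nat.cast_ofNat, false_and, if_false]
        norm_num
      obtain ⟨-, g4, g6⟩ := hmod 3 h3S 4 (by simp [e])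
      rw [hfl, hfm, fC4_one_zero, eC4] at g4
      rw [hfl, hfm, fC6_one_zero, eC6] at g6
      norm_num at g4 g6
      obtain ⟨k4, hk4⟩ := g4
      obtain ⟨k6, hk6⟩ := g6
      have hb6 : W.b₂ ^ 3 - 3 * W.b₂ * c - 2 * d = 432 * W.b₆ := by
        rw [hcdef, hddef, c₄, c₆]; ring
      have hb4 : W.b₂ ^ 2 - c = 24 * W.b₄ := by rw [hcdef, c₄]; ring
      refine ⟨61 ^ 2 * W.b₂, ⟨61 ^ 4 * (8 * W.b₄) - 27 * (61 ^ 4 * k4 - 43759695 * c'), ?_⟩,
        ⟨61 ^ 6 * (16 * W.b₆) - 9 * (61 ^ 2 * W.b₂) * (61 ^ 4 * k4 - 43759695 * c')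
          - 6 * (61 ^ 6 * k6 - 2605277202255 * d'), ?_⟩⟩
      · linear_combination (61 ^ 4 : ℤ) * hb4 - (61 ^ 4 : ℤ) * hk4
      · linear_combination (61 ^ 6 : ℤ) * hb6 - 3 * (61 ^ 2 * W.b₂) * (61 ^ 4 : ℤ) * hk4
          - 2 * (61 ^ 6 : ℤ) * hk6
  obtain ⟨W', hW4, hW6, hWΔ⟩ := exists_model hc'odd hd'4 hrel' hβ hβ'
  refine ⟨W', ⟨?_, ?_, ?_, ?_, ?_, ?_⟩, ?_⟩
  · intro p hp h
    rw [hWΔ] at h; rw [hW4]; exact hss p hp h
  · refine irreducible_two (by rw [hWΔ]; exact hΔ'0) fun x hx => hrroot (16 * x) ?_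
    rw [hW4, hW6] at hx
    obtain ⟨-, g4, g6⟩ := hmod r (Finset.mem_insert_self r S0) 1 (Nat.one_le_iff_ne_zero.2 (he1 r))
    have hfl : fl r = lr := by simp only [fl, hr2, if_false, if_true]
    have hfm : fm r = mr := by simp only [fm, hr2, if_false, if_true]
    rw [hfl, hfm, pow_one] at g4 g6
    obtain ⟨k4, hk4⟩ := g4
    obtain ⟨k6, hk6⟩ := g6
    rw [eC4] at hk4; rw [eC6] at hk6
    exact ⟨432 * x * k4 + 54 * k6, by linear_combination 432 * x * hk4 + 54 * hk6 + 4096 * hx⟩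
  · rw [hWΔ, hΔ'def]
    rcases lt_or_gt_of_ne hΔ with h | h
    · have hD := (hregn h).1
      rw [eD] at hD
      exact mul_neg_of_neg_of_pos h (pow_pos (by linarith) 3)
    · have hD := (hregp h).1
      rw [eD] at hD
      exact mul_neg_of_pos_of_neg h (Odd.pow_neg (by decide) (by linarith))
  · exact ⟨2 * v, u * w ^ 3, by omega, by rw [hWΔ, hΔ'def, hu]; ring, huw⟩
  · intro p hp hp2 h
    haveI : Fact p.Prime := ⟨hp⟩
    rw [hWΔ] at h ⊢
    have hDd0 : (2 : ℤ) ^ v * w ≠ 0 := mul_ne_zero (pow_ne_zero _ two_ne_zero) hw0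
    have hval : padicValInt p Δ' = padicValInt p Δ + 3 * padicValInt p (2 ^ v * w) := by
      rw [hΔ'def, show ((2 : ℤ) ^ v * w) ^ 3 = (2 ^ v * w) * ((2 ^ v * w) * (2 ^ v * w)) by ring,
        padicValInt.mul hΔ (mul_ne_zero hDd0 (mul_ne_zero hDd0 hDd0)),
        padicValInt.mul hDd0 (mul_ne_zero hDd0 hDd0), padicValInt.mul hDd0 hDd0]
      ring
    have hone : (p : ℤ) ∣ 2 ^ v * w → padicValInt p (2 ^ v * w) = 1 := by
      intro h
      have h1 := ((padicValInt_dvd_iff 1 _).1 (by simpa using h)).resolve_left hDd0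
      have h2' : ¬ 2 ≤ padicValInt p (2 ^ v * w) := fun h2' => (hodd p hp hp2).1
        (eD ▸ dvd_mul_of_dvd_right ((padicValInt_dvd_iff 2 _).2 (Or.inr h2')) _)
      omega
    have hzero : ¬ (p : ℤ) ∣ 2 ^ v * w → padicValInt p (2 ^ v * w) = 0 :=
      padicValInt.eq_zero_of_not_dvd
    by_cases hpΔ : (p : ℤ) ∣ Δ
    · have hiff := ((hS' p (Finset.mem_insert_of_mem (hmemΔ p hp hpΔ)) hp2).2.1 hpΔ).2
      rw [← hDdvd p hp hp2] at hiff
      by_cases hev : Even (padicValInt p Δ)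
      · rw [hval, hone (hiff.2 hev)]
        exact hev.add_odd (by decide)
      · rw [hval, hzero (fun h => hev (hiff.1 h)), mul_zero, add_zero]
        exact Nat.not_even_iff_odd.1 hev
    · have hpw : (p : ℤ) ∣ 2 ^ v * w := (Nat.prime_iff_prime_int.1 hp).dvd_of_dvd_pow
        (((Nat.prime_iff_prime_int.1 hp).dvd_or_dvd h).resolve_left hpΔ)
      rw [hval, hone hpw, padicValInt.eq_zero_of_not_dvd hpΔ]
      decide
  · -- a new prime
    by_contra hcon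
    have hwS : w.natAbs.primeFactors ⊆ S := by
      intro p hpw
      obtain ⟨hp, hpw', -⟩ := Nat.mem_primeFactors.1 hpw
      by_contra hpS
      apply hcon
      have hpd : (p : ℤ) ∣ Δ' := by
        rw [hΔ'def]
        exact dvd_mul_of_dvd_right (dvd_pow (dvd_mul_of_dvd_right (Int.natCast_dvd.2 hpw') _) three_ne_zero) _
      refine ⟨p, hp, ?_, hWΔ ▸ hpd⟩
      have := fun (q : ℕ) (hq : q.Prime) (hq' : q ≤ 200) (e : p = q) =>
        hpS (e ▸ Finset.mem_insert_of_mem (hmemsmall q hq hq'))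
      have n2 := this 2 Nat.prime_two (by norm_num)
      have n3 := this 3 Nat.prime_three (by norm_num)
      by_contra h5
      push Not at h5
      have := hp.two_le
      interval_cases p
      · exact n2 rfl
      · exact n3 rfl
      · exact absurd hp (by decide)
    have hsq : Squarefree w.natAbs := by
      rw [Nat.squarefree_iff_prime_squarefree]
      intro p hp hpp
      have hpp' : (p : ℤ) ^ 2 ∣ w := by
        rw [sq, ← Nat.cast_mul]; exact Int.natCast_dvd.2 hpp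
      by_cases hp2 : p = 2
      · subst hp2
        exact (Int.not_even_iff_odd.2 hwodd)
          (even_iff_two_dvd.2 ((dvd_pow_self _ two_ne_zero).trans hpp'))
      · exact (hodd p hp hp2).1 (eD ▸ dvd_mul_of_dvd_right (dvd_mul_of_dvd_right hpp' _) _)
    have hwN : w.natAbs ∣ N := by
      rw [← Nat.prod_primeFactors_of_squarefree hsq, hNdef]
      refine (Finset.prod_dvd_prod_of_subset _ _ _ hwS).trans ?_
      exact Finset.prod_dvd_prod_of_dvd _ _ fun q _ => dvd_pow_self q (he1 q)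
    have hwle : |w| ≤ (N : ℤ) := by
      rw [Int.abs_eq_natAbs]
      exact_mod_cast Nat.le_of_dvd (Nat.pos_of_ne_zero hN) hwN
    have hHle : (H : ℤ) ≤ K * |fD c d l m| := by
      rcases lt_or_gt_of_ne hΔ with h | h
      · exact (hregn h).2
      · exact (hregp h).2
    have hDle : |fD c d l m| ≤ ((2 ^ (v + 8) * N : ℕ) : ℤ) := by
      rw [eD, abs_mul, abs_mul, abs_pow]
      push_cast
      rw [abs_two, show |(256 : ℤ)| = 256 by norm_num, pow_add]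
      have : (0 : ℤ) ≤ 2 ^ v := by positivity
      nlinarith
    have hK0 : ((K.toNat : ℕ) : ℤ) = K := Int.toNat_of_nonneg (by linarith)
    have hlt : K * ((2 ^ (v + 8) * N : ℕ) : ℤ) < (H : ℤ) := by
      rw [← hK0, ← Nat.cast_mul, Nat.cast_lt, hHdef]
      omega
    have := mul_le_mul_of_nonneg_left hDle (by linarith : (0 : ℤ) ≤ K)
    linarith
  · intro p hp hg1 hg2 hp3
    exact dvd_apOfModel_sub hΔ (by rw [hWΔ]; exact hΔ'0) l m (by rw [hW4]; exact eC4.symm)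
      (by rw [hW6]; exact eC6.symm) hp hg1 hg2 hp3

end FLTAgent.SW3

end
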