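import Fermat.Agent.S52.Model
import Fermat.Agent.S52.Irred3
import Fermat.Agent.R2.Anchor

set_option autoImplicit false
set_option linter.all false

/-!
The switch at five, keeping multiplicative reduction at two.
-/

noncomputable section

namespace FLTAgent.SW3

open Polynomial WeierstrassCurve FLTAgent.S52 FLTAgent.Local FLTAgent.Torsion FLTAgent.Attach IsLocalRing

local notation "Ω" => AlgebraicClosure ℚ

/-- the switch model -/
theorem exists_switch_model_two {W : WeierstrassCurve ℤ} (hΔ : W.Δ ≠ 0) (hW : W.IsSemistableModel)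
    (h5 : W.ModRepIsIrreducible 5) :
    ∃ (W' : WeierstrassCurve ℤ) (r : ℕ) (A : ValuationSubring Ω) (τ : Ω ≃ₐ[ℚ] Ω),
      W'.Δ ≠ 0 ∧ W'.IsSemistableModel ∧
      (∃ s : ℚ, (famH W).eval s = 9 * W'.c₄ ∧ (famT W).eval s = 27 * W'.c₆) ∧
      r.Prime ∧ r ≠ 2 ∧ r ≠ 3 ∧ A.LiesOverPrime r ∧ A.IsFrobeniusAt τ r ∧ cyc 3 τ = 1 ∧
      ((2 : ℤ) ∣ W.Δ → (2 : ℤ) ∣ W'.Δ) ∧
      ∃ c : ResidueField A, c ≠ 0 ∧ 9 * (W'.c₄ : ResidueField A) = c ^ 2 ∧
        27 * (W'.c₆ : ResidueField A) = c ^ 3 ∧ ∀ y : ResidueField A, y ^ r = y → y ^ 2 ≠ c := by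
  classical
  obtain ⟨B⟩ := nonempty_base hΔ
  obtain ⟨s0, c0, m0, hc0, hm0, hH0, hT0, hτ0⟩ := B.exists_cusp hΔ
  obtain ⟨a, b, hab⟩ := fam_coprime B
  obtain ⟨dH, QH, hdH, eH⟩ := exists_clear (famH W)
  obtain ⟨dT, QT, hdT, eT⟩ := exists_clear (famT W)
  obtain ⟨da, Qa, hda, ea⟩ := exists_clear a
  obtain ⟨db, Qb, hdb, eb⟩ := exists_clear b
  obtain ⟨N1, hN1, hs0⟩ : ∃ N : ℕ, N ≠ 0 ∧ ∀ (A : ValuationSubring Ω) (r : ℕ), r.Prime →
      A.LiesOverPrime r → ¬ r ∣ N → s0 ∈ A := by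
    rcases eq_or_ne s0 0 with h | h
    · exact ⟨1, one_ne_zero, fun A _ _ _ _ => h ▸ A.zero_mem⟩
    · obtain ⟨N, hN, hN'⟩ := exists_unit_bound h
      exact ⟨N, hN, fun A r hr hA hd => (hN' A r hr hA hd).1⟩
  obtain ⟨N2, hN2, hc0A⟩ := exists_unit_bound hc0
  have hm00 : m0 ≠ 0 := fun e => mul_ne_zero (by norm_num : (-3 : Ω) ≠ 0) hc0
    (by rw [← hm0, e, zero_pow two_ne_zero])
  obtain ⟨N3, hN3, hm0A⟩ := exists_unit_bound hm00
  set R0 : ℕ := 2 * da * db with hR0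
  set D : ℕ := dH * dT * 46656 * R0 with hD
  set bad : ℕ := 30 * N1 * N2 * N3 * D with hbad
  have hR00 : R0 ≠ 0 := mul_ne_zero (mul_ne_zero two_ne_zero hda) hdb
  have hD0 : D ≠ 0 := mul_ne_zero (mul_ne_zero (mul_ne_zero hdH hdT) (by norm_num)) hR00
  have hbad0 : bad ≠ 0 :=
    mul_ne_zero (mul_ne_zero (mul_ne_zero (mul_ne_zero (by norm_num) hN1) hN2) hN3) hD0
  obtain ⟨r, A, τ, hr, hrS, hA, hF, hneg, hτ3⟩ := exists_frobenius_neg hΔ h5 bad.primeFactors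
  have hrbad : ¬ r ∣ bad := fun h => hrS (Nat.mem_primeFactors.2 ⟨hr, h, hbad0⟩)
  have hdiv : ∀ d : ℕ, d ∣ bad → ¬ r ∣ d := fun d hd h => hrbad (h.trans hd)
  have hr2 : r ≠ 2 := fun h => hdiv 2 (by rw [hbad]; exact Dvd.intro (15 * N1 * N2 * N3 * D) (by ring)) (h ▸ dvd_rfl)
  have hr3 : r ≠ 3 := fun h => hdiv 3 (by rw [hbad]; exact Dvd.intro (10 * N1 * N2 * N3 * D) (by ring)) (h ▸ dvd_rfl)
  have hrD : ¬ r ∣ D := hdiv D (Dvd.intro_left _ hbad.symm)
  have hrH : ¬ r ∣ dH := fun h => hrD (h.trans ⟨dT * 46656 * R0, by rw [hD]; ring⟩)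
  have hrT : ¬ r ∣ dT := fun h => hrD (h.trans ⟨dH * 46656 * R0, by rw [hD]; ring⟩)
  haveI hcp : CharP (ResidueField A) r := FLTAgent.Chebotarev.charP_residue hr hA
  obtain ⟨hs, hcc, hmm⟩ := hτ0 τ hneg
  let sA : A := ⟨s0, hs0 A r hr hA (hdiv N1 ⟨30 * N2 * N3 * D, by rw [hbad]; ring⟩)⟩
  obtain ⟨hcm, hcim⟩ := hc0A A r hr hA (hdiv N2 ⟨30 * N1 * N3 * D, by rw [hbad]; ring⟩)
  let cA : A := ⟨c0, hcm⟩
  let mA : A := ⟨m0, (hm0A A r hr hA (hdiv N3 ⟨30 * N1 * N2 * D, by rw [hbad]; ring⟩)).1⟩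
  have hcres : residue A cA ≠ 0 := by
    intro e
    have h1 : cA * ⟨c0⁻¹, hcim⟩ = 1 := Subtype.ext (mul_inv_cancel₀ hc0)
    have := congrArg (residue A) h1
    rw [map_mul, e, zero_mul, map_one] at this
    exact zero_ne_one this
  obtain ⟨-, t, ht⟩ := exists_int_residue hr hF (x := sA) hs
  -- the parameter
  obtain ⟨n0, hn0⟩ : ∃ n0 : ℤ, ((D * n0 : ℤ) : ResidueField A) = residue A sA := by
    obtain ⟨x, y, hxy⟩ := (hr.coprime_iff_not_dvd.2 hrD).isCoprime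
    refine ⟨y * t, ?_⟩
    have := congrArg (fun z : ℤ => (z : ResidueField A)) hxy
    push_cast at this ⊢
    rw [CharP.cast_eq_zero (ResidueField A) r, mul_zero, zero_add] at this
    rw [ht]
    linear_combination (t : ResidueField A) * this
  have hpoly : famH W ^ 3 - famT W ^ 2 ≠ 0 := by
    intro e
    have := congrArg (Polynomial.eval 0) e
    rw [forms_disc (W := W) (W' := W) (lineH_eval_zero _ _).1 (lineH_eval_zero _ _).2, eval_zero] at this
    exact hΔ (by exact_mod_cast (mul_eq_zero.1 this).resolve_left (by norm_num))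
  obtain ⟨j, hj⟩ : ∃ j : ℤ, (famH W ^ 3 - famT W ^ 2).eval ((D * (n0 + r * j) : ℤ) : ℚ) ≠ 0 := by
    by_contra hcon
    push Not at hcon
    have hinj : Function.Injective fun j : ℤ => ((D * (n0 + r * j) : ℤ) : ℚ) := by
      intro j j' h
      have h' : (D : ℤ) * (n0 + r * j) = D * (n0 + r * j') := Int.cast_injective h
      have h'' := mul_left_cancel₀ (Nat.cast_ne_zero.2 hD0 : (D : ℤ) ≠ 0) h'
      exact mul_left_cancel₀ (Nat.cast_ne_zero.2 hr.ne_zero : (r : ℤ) ≠ 0) (by linarith)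
    exact hpoly (eq_zero_of_infinite_isRoot _ ((Set.infinite_range_of_injective hinj).mono (by
      rintro _ ⟨j, rfl⟩; exact hcon j)))
  set n : ℤ := n0 + r * j with hn
  set s : ℤ := D * n with hsdef
  have hsres : residue A sA = (s : ResidueField A) := by
    rw [← hn0, hsdef, hn]
    push_cast
    rw [CharP.cast_eq_zero (ResidueField A) r]
    ring
  obtain ⟨zH, hzH⟩ := exists_value hdH eH (dT * 46656 * R0) n
  obtain ⟨zT, hzT⟩ := exists_value hdT eT (dH * 46656 * R0) n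
  rw [show (dH : ℤ) * (dT * 46656 * R0) * n = s by rw [hsdef, hD]; push_cast; ring,
    show (famH W).eval 0 = 9 * W.c₄ from (lineH_eval_zero _ _).1] at hzH
  rw [show (dT : ℤ) * (dH * 46656 * R0) * n = s by rw [hsdef, hD]; push_cast; ring,
    show (famT W).eval 0 = 27 * W.c₆ from (lineH_eval_zero _ _).2] at hzT
  let W' : WeierstrassCurve ℤ :=
    ⟨W.a₁, W.a₂, W.a₃, W.a₄ - R0 * (108 * dT * zH),
      W.a₆ - R0 * (2 * dH * zT + 9 * W.b₂ * dT * zH)⟩
  have hc4 : (W'.c₄ : ℤ) = W.c₄ + 5184 * (R0 * dT * zH) := by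
    simp only [W', c₄, b₂, b₄]; ring
  have hc6 : (W'.c₆ : ℤ) = W.c₆ + 1728 * (R0 * dH * zT) := by
    simp only [W', c₆, b₂, b₄, b₆]; ring
  have hH : (famH W).eval (s : ℚ) = 9 * W'.c₄ := by
    rw [hzH, hc4]; push_cast; ring
  have hT : (famT W).eval (s : ℚ) = 27 * W'.c₆ := by
    rw [hzT, hc6]; push_cast; ring
  have hΔ' : W'.Δ ≠ 0 := fun e => hj (by rw [forms_disc hH hT, e]; simp)
  have hss : W'.IsSemistableModel := by
    intro p hp hpΔ hpc
    -- a common prime divides `R0`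
    have hpR : (p : ℤ) ∣ R0 := by
      have h := congrArg (Polynomial.eval (s : ℚ)) hab
      rw [eval_add, eval_mul, eval_mul, hH, forms_disc hH hT, eval_one] at h
      have h1 := eval_clear ea s
      have h2 := eval_clear eb s
      have h3 : 2 * (Qa.eval s * db * (9 * W'.c₄) + Qb.eval s * da * (729 * 1728 * W'.Δ)) = (R0 : ℤ) := by
        have : ((2 * (Qa.eval s * db * (9 * W'.c₄) + Qb.eval s * da * (729 * 1728 * W'.Δ)) : ℤ) : ℚ) =
            ((R0 : ℤ) : ℚ) := by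
          push_cast [hR0]
          rw [h1, h2]
          linear_combination 2 * ((da : ℚ) * db) * h
        exact_mod_cast this
      rw [← h3]
      exact dvd_mul_of_dvd_right (dvd_add (Dvd.dvd.mul_left (hpc.mul_left _) _) (Dvd.dvd.mul_left (hpΔ.mul_left _) _)) _
    have hR : ((R0 : ℤ) : ZMod p) = 0 := (ZMod.intCast_zmod_eq_zero_iff_dvd _ _).2 hpR
    have hmap : W'.map (Int.castRingHom (ZMod p)) = W.map (Int.castRingHom (ZMod p)) := by
      ext <;> simp only [W', WeierstrassCurve.map, eq_intCast, Int.cast_sub, Int.cast_mul, hR,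
        zero_mul, sub_zero]
    have e1 := congrArg WeierstrassCurve.Δ hmap
    have e2 := congrArg WeierstrassCurve.c₄ hmap
    rw [map_Δ, map_Δ, eq_intCast, eq_intCast] at e1
    rw [map_c₄, map_c₄, eq_intCast, eq_intCast] at e2
    exact hW p hp ((ZMod.intCast_zmod_eq_zero_iff_dvd _ _).1
      (e1 ▸ (ZMod.intCast_zmod_eq_zero_iff_dvd _ _).2 hpΔ))
      ((ZMod.intCast_zmod_eq_zero_iff_dvd _ _).1
        (e2 ▸ (ZMod.intCast_zmod_eq_zero_iff_dvd _ _).2 hpc))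
  have h2Δ : (2 : ℤ) ∣ W.Δ → (2 : ℤ) ∣ W'.Δ := by
    intro h
    have hR : ((R0 : ℤ) : ZMod 2) = 0 := by
      rw [hR0]; push_cast; rw [show (2 : ZMod 2) = 0 from rfl]; ring
    have hmap : W'.map (Int.castRingHom (ZMod 2)) = W.map (Int.castRingHom (ZMod 2)) := by
      ext <;> simp only [W', WeierstrassCurve.map, eq_intCast, Int.cast_sub, Int.cast_mul, hR,
        zero_mul, sub_zero]
    have e1 := congrArg WeierstrassCurve.Δ hmap
    rw [map_Δ, map_Δ, eq_intCast, eq_intCast] at e1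
    exact (ZMod.intCast_zmod_eq_zero_iff_dvd _ 2).1
      (e1 ▸ (ZMod.intCast_zmod_eq_zero_iff_dvd _ 2).2 h)
  have rH : residue A (cA ^ 2) = ((9 * W'.c₄ : ℤ) : ResidueField A) :=
    residue_value eH hrH (x := sA) (by rw [SubmonoidClass.coe_pow]; exact hH0) hsres
      (by rw [hH]; push_cast; ring)
  have rT : residue A (cA ^ 3) = ((27 * W'.c₆ : ℤ) : ResidueField A) :=
    residue_value eT hrT (x := sA) (by rw [SubmonoidClass.coe_pow]; exact hT0) hsres
      (by rw [hT]; push_cast; ring)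
  rw [map_pow, Int.cast_mul, Int.cast_ofNat] at rH rT
  have hrΔ : (r : ℤ) ∣ W'.Δ := by
    have h := congrArg (fun z : ℤ => (z : ResidueField A)) W'.c_relation
    push_cast at h
    have h0 : (729 * 1728 : ResidueField A) * (W'.Δ : ResidueField A) = 0 := by
      have e : (residue A cA ^ 2) ^ 3 = (residue A cA ^ 3) ^ 2 := by ring
      rw [rH, rT] at e
      linear_combination 729 * h + e
    have h729 : ((729 * 1728 : ℕ) : ResidueField A) ≠ 0 := by
      rw [Ne, CharP.cast_eq_zero_iff (ResidueField A) r]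
      intro h
      have : r ∣ 2 ^ 6 * 3 ^ 9 := by simpa using h
      rcases (Nat.Prime.dvd_mul hr).1 this with h | h
      · exact hr2 ((Nat.prime_dvd_prime_iff_eq hr Nat.prime_two).1 (hr.dvd_of_dvd_pow h))
      · exact hr3 ((Nat.prime_dvd_prime_iff_eq hr Nat.prime_three).1 (hr.dvd_of_dvd_pow h))
    refine (CharP.intCast_eq_zero_iff (ResidueField A) r _).1 ((mul_eq_zero.1 h0).resolve_left ?_)
    norm_num at h729 ⊢
    exact h729
  exact ⟨W', r, A, τ, hΔ', hss, ⟨s, hH, hT⟩, hr, hr2, hr3, hA, hF, hτ3, h2Δ, residue A cA, hcres,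
    rH.symm, rT.symm, fun y hy => nonsquare hr hr2 hr3 hF hτ3 (c := cA) (m := mA) hcres hm0 hmm hy⟩

/-- switched curves at five remain multiplicative at two -/
theorem fiveSwitch : R2.FiveSwitch := by
  intro W hΔ hW h5 h2
  by_cases h3 : W.ModRepIsIrreducible 3
  · exact ⟨W, hΔ, hW, h3, h2, fun ℓ _ _ _ _ => by simp⟩
  obtain ⟨W', r, A, τ, hΔ', hss, ⟨s, hH, hT⟩, hr, hr2, hr3, hA, hF, hτ3, h2', c, hc, hc4, hc6, hns⟩ :=
    exists_switch_model_two hΔ hW h5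
  exact ⟨W', hΔ', hss,
    FLTAgent.S52.irreducible_three hΔ' hss hr hr2 hr3 hA hF hτ3 hc hc4 hc6 hns, h2' h2,
    fun ℓ hℓ g g' h5' => FLTAgent.S52.dvd_apOfModel_sub hΔ hΔ' s hH hT hℓ g g' h5'⟩

end FLTAgent.SW3

end
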