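import Fermat.Agent.Chebotarev.Density
import Fermat.Agent.S52.Short
import Fermat.Prelude.Def_FLTPrelim_ModularRep

/-!
Cubic resolvents of the two-torsion along a line of the parametrisation.
-/

set_option autoImplicit false
set_option linter.all false

noncomputable section

namespace FLTAgent.SW3

open Polynomial

/-- an identity forced by integral roots along a line -/
theorem exists_quadratic {H T : ℚ[X]} (hH : H.natDegree ≤ 4) (hT : T.natDegree ≤ 6)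
    (hneg : H.coeff 4 ^ 3 < T.coeff 6 ^ 2) {a : ℚ}
    (ha : a ^ 3 - 27 * H.coeff 4 * a - 54 * T.coeff 6 = 0) (T0 : ℕ)
    (hint : ∀ n : ℕ, T0 ≤ n → ∃ x : ℤ,
      (x : ℚ) ^ 3 - 27 * H.eval (n : ℚ) * x - 54 * T.eval (n : ℚ) = 0) :
    ∃ g : ℚ[X], g.natDegree ≤ 2 ∧ g ^ 3 - C 27 * H * g - C 54 * T = 0 := by
  set h4 := H.coeff 4 with h4d
  set h3 := H.coeff 3 with h3d
  set h2 := H.coeff 2 with h2d
  set h1 := H.coeff 1 with h1d
  set h0 := H.coeff 0 with h0d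
  set k6 := T.coeff 6 with k6d
  set k5 := T.coeff 5 with k5d
  set k4 := T.coeff 4 with k4d
  set k3 := T.coeff 3 with k3d
  set k2 := T.coeff 2 with k2d
  set k1 := T.coeff 1 with k1d
  set k0 := T.coeff 0 with k0d
  have evH : ∀ t : ℚ, H.eval t = h4 * t ^ 4 + h3 * t ^ 3 + h2 * t ^ 2 + h1 * t + h0 := by
    intro t
    rw [eval_eq_sum_range' (Nat.lt_succ_of_le hH)]
    simp only [Finset.sum_range_succ, Finset.sum_range_zero, ← h4d, ← h3d, ← h2d, ← h1d, ← h0d]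
    ring
  have evT : ∀ t : ℚ, T.eval t =
      k6 * t ^ 6 + k5 * t ^ 5 + k4 * t ^ 4 + k3 * t ^ 3 + k2 * t ^ 2 + k1 * t + k0 := by
    intro t
    rw [eval_eq_sum_range' (Nat.lt_succ_of_le hT)]
    simp only [Finset.sum_range_succ, Finset.sum_range_zero, ← k6d, ← k5d, ← k4d, ← k3d, ← k2d,
      ← k1d, ← k0d]
    ring
  have hdisc : (3 * a ^ 2 - 27 * h4) ^ 2 * (108 * h4 - 3 * a ^ 2) =
      78732 * (h4 ^ 3 - k6 ^ 2) := by
    linear_combination (-27 * (a ^ 3 - 27 * h4 * a + 54 * k6)) * ha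
  have hne : 3 * a ^ 2 - 27 * h4 ≠ 0 := by
    intro e
    rw [e] at hdisc
    nlinarith
  set δ : ℚ := 3 * a ^ 2 - 108 * h4 with hδd
  have hδ : 0 < δ := by
    by_contra hcon
    push Not at hcon
    have : 0 ≤ (3 * a ^ 2 - 27 * h4) ^ 2 * (108 * h4 - 3 * a ^ 2) :=
      mul_nonneg (sq_nonneg _) (by rw [hδd] at hcon; linarith)
    linarith
  obtain ⟨b, hb⟩ : ∃ b, (3 * a ^ 2 - 27 * h4) * b - 27 * h3 * a - 54 * k5 = 0 :=
    ⟨(27 * h3 * a + 54 * k5) / (3 * a ^ 2 - 27 * h4), by field_simp; ring⟩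
  obtain ⟨c, hc⟩ : ∃ c, (3 * a ^ 2 - 27 * h4) * c + 3 * a * b ^ 2 - 27 * h3 * b - 27 * h2 * a
      - 54 * k4 = 0 :=
    ⟨(-(3 * a * b ^ 2) + 27 * h3 * b + 27 * h2 * a + 54 * k4) / (3 * a ^ 2 - 27 * h4), by
      field_simp; ring⟩
  set R3 : ℚ := 6 * a * b * c + b ^ 3 - 27 * (h3 * c + h2 * b + h1 * a) - 54 * k3
  set R2 : ℚ := 3 * a * c ^ 2 + 3 * b ^ 2 * c - 27 * (h2 * c + h1 * b + h0 * a) - 54 * k2
  set R1 : ℚ := 3 * b * c ^ 2 - 27 * (h1 * c + h0 * b) - 54 * k1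
  set R0 : ℚ := c ^ 3 - 27 * h0 * c - 54 * k0
  have hF : ∀ t : ℚ, (a * t ^ 2 + b * t + c) ^ 3 - 27 * H.eval t * (a * t ^ 2 + b * t + c)
      - 54 * T.eval t = R3 * t ^ 3 + R2 * t ^ 2 + R1 * t + R0 := by
    intro t
    rw [evH, evT]
    simp only [R3, R2, R1, R0]
    linear_combination t ^ 6 * ha + t ^ 5 * hb + t ^ 4 * hc
  -- bounds
  set M : ℚ := |R3| + |R2| + |R1| + |R0|
  set M2 : ℚ := |6 * a * b - 108 * h3| + |6 * a * c + 3 * b ^ 2 - 108 * h2| + |6 * b * c - 108 * h1|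
    + |3 * c ^ 2 - 108 * h0|
  set den : ℕ := a.den * b.den * c.den with hden
  obtain ⟨T1, hT1⟩ := exists_nat_gt (2 * M2 / δ + 8 * M * den / δ + 1)
  refine ⟨C a * X ^ 2 + C b * X + C c, natDegree_quadratic_le, ?_⟩
  refine eq_zero_of_infinite_isRoot _ (Set.infinite_of_injective_forall_mem
    (f := fun n : ℕ => ((n + T0 + T1 : ℕ) : ℚ))
    (fun m n e => by simpa using e) fun n => ?_)
  set N : ℕ := n + T0 + T1 with hN
  obtain ⟨x, hx⟩ := hint N (by omega)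
  set t : ℚ := (N : ℚ) with htd
  show eval t _ = 0
  simp only [eval_sub, eval_mul, eval_pow, eval_add, eval_C, eval_X]
  set g : ℚ := a * t ^ 2 + b * t + c with hg
  have hT1t : (T1 : ℚ) ≤ t := by rw [htd]; exact_mod_cast (by omega : T1 ≤ N)
  have hM0 : 0 ≤ M := by positivity
  have hM20 : 0 ≤ M2 := by positivity
  have hd0 : (0 : ℚ) < den := by
    have := a.den_pos; have := b.den_pos; have := c.den_pos
    rw [hden]; positivity
  have hq1 : 0 ≤ 2 * M2 / δ := by positivity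
  have hq2 : 0 ≤ 8 * M * den / δ := by positivity
  have ht1 : 1 ≤ t := by linarith
  have ht2 : 2 * M2 ≤ δ * t := by
    rw [mul_comm δ, ← div_le_iff₀ hδ]; linarith
  have ht3 : 8 * M * den < δ * t := by
    rw [mul_comm δ, ← div_lt_iff₀ hδ]; linarith
  have habs : ∀ r3 r2 r1 r0 : ℚ, |r3 * t ^ 3 + r2 * t ^ 2 + r1 * t + r0| ≤
      (|r3| + |r2| + |r1| + |r0|) * t ^ 3 := by
    intro r3 r2 r1 r0
    have e2 : t ^ 2 ≤ t ^ 3 := pow_le_pow_right₀ ht1 (by norm_num)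
    have e1 : t ≤ t ^ 3 := le_self_pow₀ ht1 (by norm_num)
    have e0 : (1 : ℚ) ≤ t ^ 3 := one_le_pow₀ ht1
    have t0 : 0 ≤ t := by linarith
    calc |r3 * t ^ 3 + r2 * t ^ 2 + r1 * t + r0|
        ≤ |r3| * t ^ 3 + |r2| * t ^ 2 + |r1| * t + |r0| * 1 := by
          refine (abs_add_le _ _).trans (add_le_add ((abs_add_le _ _).trans (add_le_add
            ((abs_add_le _ _).trans (add_le_add ?_ ?_)) ?_)) (by rw [mul_one])) <;>
            rw [abs_mul] <;> simp [abs_of_nonneg t0, abs_of_nonneg (pow_nonneg t0 _)]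
      _ ≤ |r3| * t ^ 3 + |r2| * t ^ 3 + |r1| * t ^ 3 + |r0| * t ^ 3 := by gcongr
      _ = _ := by ring
  have hquad : δ * t ^ 4 / 2 ≤ 3 * g ^ 2 - 108 * H.eval t := by
    have e : 3 * g ^ 2 - 108 * H.eval t = δ * t ^ 4 + ((6 * a * b - 108 * h3) * t ^ 3
        + (6 * a * c + 3 * b ^ 2 - 108 * h2) * t ^ 2 + (6 * b * c - 108 * h1) * t
        + (3 * c ^ 2 - 108 * h0)) := by
      rw [evH, hg, hδd]; ring
    rw [e]
    have h' := (abs_le.1 (habs (6 * a * b - 108 * h3) (6 * a * c + 3 * b ^ 2 - 108 * h2)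
      (6 * b * c - 108 * h1) (3 * c ^ 2 - 108 * h0))).1
    have h'' : 2 * M2 * t ^ 3 ≤ δ * t * t ^ 3 := mul_le_mul_of_nonneg_right ht2 (by positivity)
    linarith [show δ * t * t ^ 3 = δ * t ^ 4 by ring]
  have hsplit : ((x : ℚ) - g) * ((x : ℚ) ^ 2 + x * g + g ^ 2 - 27 * H.eval t)
      = -(g ^ 3 - 27 * H.eval t * g - 54 * T.eval t) := by linear_combination hx
  have hQ : δ * t ^ 4 / 8 ≤ (x : ℚ) ^ 2 + x * g + g ^ 2 - 27 * H.eval t := by
    linarith [sq_nonneg ((x : ℚ) + g / 2), show ((x : ℚ) + g / 2) ^ 2 = (x : ℚ) ^ 2 + x * g + g ^ 2 / 4 by ring]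
  have hsmall : |(x : ℚ) - g| * (δ * t ^ 4 / 8) ≤ M * t ^ 3 := by
    have h' := congrArg (fun z : ℚ => |z|) hsplit
    simp only [abs_mul, abs_neg] at h'
    rw [hF t] at h'
    calc |(x : ℚ) - g| * (δ * t ^ 4 / 8)
        ≤ |(x : ℚ) - g| * |(x : ℚ) ^ 2 + x * g + g ^ 2 - 27 * H.eval t| :=
          mul_le_mul_of_nonneg_left (hQ.trans (le_abs_self _)) (abs_nonneg _)
      _ ≤ M * t ^ 3 := h'.le.trans (habs R3 R2 R1 R0)
  have hlt : |(x : ℚ) - g| * den < 1 := by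
    by_contra hcon
    push Not at hcon
    have h5 : δ * t ^ 4 / 8 ≤ M * t ^ 3 * den := by
      calc δ * t ^ 4 / 8 ≤ (|(x : ℚ) - g| * den) * (δ * t ^ 4 / 8) :=
            le_mul_of_one_le_left (by positivity) hcon
        _ = |(x : ℚ) - g| * (δ * t ^ 4 / 8) * den := by ring
        _ ≤ _ := mul_le_mul_of_nonneg_right hsmall hd0.le
    have h6 : 8 * M * den * t ^ 3 < δ * t * t ^ 3 := mul_lt_mul_of_pos_right ht3 (by positivity)
    linarith [show δ * t * t ^ 3 = δ * t ^ 4 by ring]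
  obtain ⟨z, hz⟩ : ∃ z : ℤ, ((x : ℚ) - g) * den = z := by
    refine ⟨x * den - (a.num * b.den * c.den * (N : ℤ) ^ 2 + b.num * a.den * c.den * N
      + c.num * a.den * b.den), ?_⟩
    rw [hden, hg, htd]
    push_cast
    rw [← Rat.mul_den_eq_num a, ← Rat.mul_den_eq_num b, ← Rat.mul_den_eq_num c]
    ring
  have hz0 : z = 0 := by
    rw [← abs_of_pos hd0, ← abs_mul, hz, ← Int.cast_abs] at hlt
    have : |z| < 1 := by exact_mod_cast hlt
    exact Int.abs_lt_one_iff.1 this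
  have hxg : (x : ℚ) = g := by
    rw [hz0, Int.cast_zero, mul_eq_zero] at hz
    exact sub_eq_zero.1 (hz.resolve_right hd0.ne')
  rw [← hxg]
  linear_combination hx

/-- the identity is impossible over a squarefree quartic -/
theorem no_quadratic {H T D g : ℚ[X]} {K : ℚ} (hH : H.natDegree ≤ 4) (hD : D.natDegree = 4)
    (hg : g.natDegree ≤ 2) (hK : K ≠ 0) (hrel : H ^ 3 - T ^ 2 = C K * D ^ 3)
    (hsq : Squarefree D) (hcop : IsCoprime D H) (he : g ^ 3 - C 27 * H * g - C 54 * T = 0) :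
    False := by
  set A : ℚ[X] := 3 * g ^ 2 - 27 * H with hA
  set B : ℚ[X] := 108 * H - 3 * g ^ 2 with hB
  have hC : ∀ q : ℕ, (C (q : ℚ) : ℚ[X]) = (q : ℚ[X]) := fun q => map_natCast C q
  have hAB : A ^ 2 * B = C (78732 * K) * D ^ 3 := by
    rw [show (27 : ℚ) = ((27 : ℕ) : ℚ) by norm_num, show (54 : ℚ) = ((54 : ℕ) : ℚ) by norm_num, hC, hC] at he
    rw [map_mul, mul_assoc, ← hrel, show (78732 : ℚ) = ((78732 : ℕ) : ℚ) by norm_num, hC, hA, hB]
    push_cast at he ⊢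
    linear_combination (-27 * (g ^ 3 - 27 * H * g + 54 * T)) * he
  have hD0 : D ≠ 0 := fun h => by rw [h, natDegree_zero] at hD; omega
  have hK' : IsUnit (C (78732 * K)) := isUnit_C.2 (isUnit_iff_ne_zero.2 (mul_ne_zero (by norm_num) hK))
  have hprod : A ^ 2 * B ≠ 0 := by
    rw [hAB]; exact mul_ne_zero hK'.ne_zero (pow_ne_zero _ hD0)
  have hcopA : IsCoprime A D := by
    refine isCoprime_of_prime_dvd (fun h => hD0 h.2) fun p hp hpA hpD => ?_
    have hnB : ¬ p ∣ B := by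
      intro hpB
      have h81 : p ∣ 81 * H := by
        rw [show (81 : ℚ[X]) * H = A + B by rw [hA, hB]; ring]
        exact dvd_add hpA hpB
      have hu : IsUnit (81 : ℚ[X]) := by
        rw [show (81 : ℚ[X]) = C ((81 : ℕ) : ℚ) by rw [hC]; norm_num]
        exact isUnit_C.2 (by norm_num)
      exact hp.not_isUnit (hcop.isUnit_of_dvd' hpD ((hu.dvd_mul_left).1 h81))
    obtain ⟨A1, hA1⟩ := hpA
    obtain ⟨e, he'⟩ := hpD
    have hpe : ¬ p ∣ e := fun h => hp.not_isUnit (hsq p (he' ▸ mul_dvd_mul_left p h))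
    have h1 : A1 ^ 2 * B = p * (C (78732 * K) * e ^ 3) := by
      refine mul_left_cancel₀ (pow_ne_zero 2 hp.ne_zero) ?_
      rw [hA1, he'] at hAB
      linear_combination hAB
    obtain ⟨A2, hA2⟩ : p ∣ A1 :=
      hp.dvd_of_dvd_pow ((hp.dvd_or_dvd ⟨_, h1⟩).resolve_right hnB)
    have h2 : p * (A2 ^ 2 * B) = C (78732 * K) * e ^ 3 := by
      refine mul_left_cancel₀ hp.ne_zero ?_
      rw [hA2] at h1
      linear_combination h1
    exact hpe (hp.dvd_of_dvd_pow ((hK'.dvd_mul_left).1 ⟨_, h2.symm⟩))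
  have hdvd : D ^ 3 ∣ B := by
    refine (hcopA.symm.pow (m := 3) (n := 2)).dvd_of_dvd_mul_left ?_
    rw [hAB]; exact dvd_mul_left _ _
  have hB0 : B ≠ 0 := fun h => hprod (by rw [h, mul_zero])
  have h1 := natDegree_le_of_dvd hdvd hB0
  rw [natDegree_pow, hD] at h1
  have h2 : B.natDegree ≤ 4 := by
    rw [hB]
    refine (natDegree_sub_le _ _).trans (max_le ?_ ?_)
    · refine natDegree_mul_le.trans ?_
      rw [natDegree_ofNat, zero_add]
      exact hH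
    · refine natDegree_mul_le.trans ?_
      rw [natDegree_ofNat, zero_add, natDegree_pow]
      omega
  omega

/-- a point on the line where the cubic has no integral root -/
theorem exists_no_root {H T D : ℚ[X]} {K : ℚ} (hH : H.natDegree ≤ 4) (hT : T.natDegree ≤ 6)
    (hD : D.natDegree = 4) (hK : K ≠ 0) (hneg : H.coeff 4 ^ 3 < T.coeff 6 ^ 2) {a : ℚ}
    (ha : a ^ 3 - 27 * H.coeff 4 * a - 54 * T.coeff 6 = 0)
    (hrel : H ^ 3 - T ^ 2 = C K * D ^ 3) (hsq : Squarefree D) (hcop : IsCoprime D H) (T0 : ℕ) :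
    ∃ n : ℕ, T0 ≤ n ∧ ∀ x : ℤ,
      (x : ℚ) ^ 3 - 27 * H.eval (n : ℚ) * x - 54 * T.eval (n : ℚ) ≠ 0 := by
  by_contra hcon
  push Not at hcon
  obtain ⟨g, hg, he⟩ := exists_quadratic hH hT hneg ha T0 hcon
  exact no_quadratic hH hD hg hK hrel hsq hcop he

local notation "Ω" => AlgebraicClosure ℚ

open WeierstrassCurve in
/-- a cubic without rational roots has no roots modulo infinitely many primes -/
theorem exists_prime_no_root {H T : ℤ} (hroot : ∀ x : ℤ, x ^ 3 - 27 * H * x - 54 * T ≠ 0)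
    (hdisc : H ^ 3 - T ^ 2 ≠ 0) (S : Finset ℕ) :
    ∃ r : ℕ, r.Prime ∧ r ∉ S ∧ ∀ x : ℤ, ¬ (r : ℤ) ∣ x ^ 3 - 27 * H * x - 54 * T := by
  classical
  haveI := FLTAgent.Alg.qb_isGalois
  haveI : IsGalois ℚ Ω := FLTAgent.Alg.qb_isGalois
  let P : ℚ[X] := X ^ 3 - C (27 * (H : ℚ)) * X - C (54 * (T : ℚ))
  have hdeg : P.natDegree = 3 := by simp only [P]; compute_degree!
  have hmon : P.Monic := by simp only [P]; monicity!
  have hirr : Irreducible P := by
    refine (hmon.irreducible_iff_roots_eq_zero_of_degree_le_three (by omega) (by omega)).2 ?_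
    refine Multiset.eq_zero_of_forall_notMem fun q hq => ?_
    rw [mem_roots hmon.ne_zero, IsRoot.def] at hq
    simp only [P, eval_sub, eval_mul, eval_pow, eval_C, eval_X] at hq
    have hint : IsIntegral ℤ q := by
      refine ⟨X ^ 3 - C (27 * H) * X - C (54 * T), by monicity!, ?_⟩
      simp only [eval₂_sub, eval₂_mul, eval₂_X_pow, eval₂_C, eval₂_X]
      simp only [algebraMap_int_eq, eq_intCast]
      push_cast
      linear_combination hq
    obtain ⟨z, rfl⟩ := IsIntegrallyClosed.isIntegral_iff.1 hint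
    apply hroot z
    have : ((z ^ 3 - 27 * H * z - 54 * T : ℤ) : ℚ) = ((0 : ℤ) : ℚ) := by
      push_cast; simpa using hq
    exact_mod_cast this
  -- the roots
  obtain ⟨θ1, h1⟩ : ∃ θ : Ω, θ ^ 3 - 27 * (H : Ω) * θ - 54 * (T : Ω) = 0 := by
    obtain ⟨θ, hθ⟩ := IsAlgClosed.exists_aeval_eq_zero Ω P (by
      rw [degree_eq_natDegree hmon.ne_zero, hdeg]; norm_num)
    refine ⟨θ, ?_⟩
    simpa [P] using hθ
  obtain ⟨w, hw⟩ := IsAlgClosed.exists_pow_nat_eq (108 * (H : Ω) - 3 * θ1 ^ 2) (n := 2) two_pos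
  set θ2 : Ω := (-θ1 + w) / 2 with hθ2
  set θ3 : Ω := (-θ1 - w) / 2 with hθ3
  have hfac : ∀ z : Ω, z ^ 3 - 27 * (H : Ω) * z - 54 * (T : Ω) = (z - θ1) * (z - θ2) * (z - θ3) := by
    intro z
    rw [hθ2, hθ3]
    linear_combination h1 + ((z - θ1) / 4) * hw
  have hd : (3 * θ1 ^ 2 - 27 * (H : Ω)) ^ 2 * w ^ 2 = 78732 * ((H : Ω) ^ 3 - (T : Ω) ^ 2) := by
    rw [hw]
    linear_combination (-27 * (θ1 ^ 3 - 27 * (H : Ω) * θ1 + 54 * (T : Ω))) * h1
  have hdne : (3 * θ1 ^ 2 - 27 * (H : Ω)) ^ 2 * w ^ 2 ≠ 0 := by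
    rw [hd]
    exact mul_ne_zero (by norm_num) (by exact_mod_cast hdisc)
  have hprod : (θ1 - θ2) * (θ1 - θ3) = 3 * θ1 ^ 2 - 27 * (H : Ω) := by
    rw [hθ2, hθ3]; linear_combination (-1 / 4 : Ω) * hw
  have h12 : θ1 ≠ θ2 := fun e => hdne (by rw [← hprod, e]; ring)
  have h13 : θ1 ≠ θ3 := fun e => hdne (by rw [← hprod, e]; ring)
  have h23 : θ2 ≠ θ3 := fun e => by
    have : w = 0 := by linear_combination e
    exact hdne (by rw [this]; ring)
  have hroots : ∀ z : Ω, z ^ 3 - 27 * (H : Ω) * z - 54 * (T : Ω) = 0 → z = θ1 ∨ z = θ2 ∨ z = θ3 := by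
    intro z hz
    rw [hfac, mul_eq_zero, mul_eq_zero, sub_eq_zero, sub_eq_zero, sub_eq_zero] at hz
    tauto
  have hr2 : θ2 ^ 3 - 27 * (H : Ω) * θ2 - 54 * (T : Ω) = 0 := by rw [hfac]; ring
  have hr3 : θ3 ^ 3 - 27 * (H : Ω) * θ3 - 54 * (T : Ω) = 0 := by rw [hfac]; ring
  have hmap : ∀ (σ : Ω ≃ₐ[ℚ] Ω) (z : Ω), z ^ 3 - 27 * (H : Ω) * z - 54 * (T : Ω) = 0 →
      (σ z) ^ 3 - 27 * (H : Ω) * σ z - 54 * (T : Ω) = 0 := by
    intro σ z hz
    have := congrArg σ hz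
    simpa [map_ofNat] using this
  have htrans : ∀ z : Ω, z ^ 3 - 27 * (H : Ω) * z - 54 * (T : Ω) = 0 →
      ∃ σ : Ω ≃ₐ[ℚ] Ω, σ θ1 = z := by
    intro z hz
    have m1 : P = minpoly ℚ θ1 := minpoly.eq_of_irreducible_of_monic hirr (by simp [P, h1]) hmon
    have m2 : P = minpoly ℚ z := minpoly.eq_of_irreducible_of_monic hirr (by simp [P, hz]) hmon
    obtain ⟨σ, hσ⟩ := (Normal.minpoly_eq_iff_mem_orbit Ω).1 (m2.symm.trans m1)
    exact ⟨σ, hσ⟩
  obtain ⟨σ, hσ⟩ : ∃ σ : Ω ≃ₐ[ℚ] Ω, σ θ1 ≠ θ1 ∧ σ θ2 ≠ θ2 ∧ σ θ3 ≠ θ3 := by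
    obtain ⟨s, hs⟩ := htrans θ2 hr2
    obtain ⟨t, ht⟩ := htrans θ3 hr3
    by_cases hs3 : s θ3 = θ3
    swap
    · by_cases hs2 : s θ2 = θ2
      · exact absurd (s.injective (hs2.trans hs.symm)) h12.symm
      · exact ⟨s, fun e => h12 (e.symm.trans hs), hs2, hs3⟩
    by_cases ht2 : t θ2 = θ2
    swap
    · by_cases ht3 : t θ3 = θ3
      · exact absurd (t.injective (ht3.trans ht.symm)) h13.symm
      · exact ⟨t, fun e => h13 (e.symm.trans ht), ht2, ht3⟩
    have hs2 : s θ2 = θ1 := by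
      rcases hroots _ (hmap s _ hr2) with e | e | e
      · exact e
      · exact absurd (s.injective (e.trans hs.symm)) h12.symm
      · exact absurd (s.injective (e.trans hs3.symm)) h23
    have ht3 : t θ3 = θ1 := by
      rcases hroots _ (hmap t _ hr3) with e | e | e
      · exact e
      · exact absurd (t.injective (e.trans ht2.symm)) h23.symm
      · exact absurd (t.injective (e.trans ht.symm)) h13.symm
    refine ⟨t.trans s, ?_, ?_, ?_⟩
    · show s (t θ1) ≠ θ1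
      rw [ht, hs3]; exact h13.symm
    · show s (t θ2) ≠ θ2
      rw [ht2, hs2]; exact h12
    · show s (t θ3) ≠ θ3
      rw [ht3, hs]; exact h23
  let E := IntermediateField.adjoin ℚ ({θ1, θ2, θ3} : Set Ω)
  haveI : Finite ({θ1, θ2, θ3} : Set Ω) := (Set.toFinite _).to_subtype
  haveI : FiniteDimensional ℚ E :=
    IntermediateField.finiteDimensional_adjoin fun z _ => Algebra.IsIntegral.isIntegral z
  obtain ⟨r, A, τ, k, hr, hrS, hA, hF, hk⟩ := FLTAgent.Chebotarev.exists_frobenius_pow E σ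
    (S ∪ {2, 3} ∪ (H ^ 3 - T ^ 2).natAbs.primeFactors)
  simp only [Finset.mem_union, Finset.mem_insert, Finset.mem_singleton, Nat.mem_primeFactors,
    not_or] at hrS
  obtain ⟨⟨hrS, hr2', hr3'⟩, hrd⟩ := hrS
  have hrd' : ¬ (r : ℤ) ∣ H ^ 3 - T ^ 2 := fun h =>
    hrd ⟨hr, Int.natCast_dvd.1 h, Int.natAbs_ne_zero.2 hdisc⟩
  refine ⟨r, hr, hrS, fun x hx => ?_⟩
  haveI : Fact r.Prime := ⟨hr⟩
  haveI hcp : CharP (IsLocalRing.ResidueField A) r := FLTAgent.Chebotarev.charP_residue hr hA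
  have hfix : ∀ θ ∈ ({θ1, θ2, θ3} : Set Ω), τ θ ≠ θ := by
    intro θ hθ e
    have hpow : ∀ j : ℕ, (τ ^ j) θ = θ := by
      intro j
      induction j with
      | zero => rfl
      | succ j ih => rw [pow_succ, AlgEquiv.mul_apply, e, ih]
    have h := hk θ (IntermediateField.subset_adjoin ℚ _ hθ)
    rw [hpow] at h
    rcases hθ with rfl | rfl | rfl
    · exact hσ.1 h.symm
    · exact hσ.2.1 h.symm
    · exact hσ.2.2 h.symm
  have hint : ∀ θ : Ω, θ ^ 3 - 27 * (H : Ω) * θ - 54 * (T : Ω) = 0 → θ ∈ A := fun θ hθ => by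
    refine FLTAgent.Chebotarev.coe_mem_valuationSubring (A := A) ?_
    refine ⟨X ^ 3 - C (27 * H) * X - C (54 * T), by monicity!, ?_⟩
    simp only [eval₂_sub, eval₂_mul, eval₂_X_pow, eval₂_C, eval₂_X]
    simp only [algebraMap_int_eq, eq_intCast]
    push_cast
    linear_combination hθ
  let a1 : A := ⟨θ1, hint θ1 h1⟩
  let a2 : A := ⟨θ2, hint θ2 hr2⟩
  let a3 : A := ⟨θ3, hint θ3 hr3⟩
  let q := IsLocalRing.residue A
  have hfA : ((x : A) - a1) * ((x : A) - a2) * ((x : A) - a3) =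
      ((x ^ 3 - 27 * H * x - 54 * T : ℤ) : A) := by
    apply A.subtype_injective
    simp only [map_sub, map_mul, map_intCast]
    push_cast
    show ((x : Ω) - θ1) * ((x : Ω) - θ2) * ((x : Ω) - θ3) = _
    rw [← hfac]
  have hx0 : ((x ^ 3 - 27 * H * x - 54 * T : ℤ) : IsLocalRing.ResidueField A) = 0 :=
    (CharP.intCast_eq_zero_iff _ r _).2 hx
  have hzero : (q x - q a1) * (q x - q a2) * (q x - q a3) = 0 := by
    rw [← map_sub, ← map_sub, ← map_sub, ← map_mul, ← map_mul, hfA, map_intCast, hx0]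
  rw [mul_eq_zero, mul_eq_zero, sub_eq_zero, sub_eq_zero, sub_eq_zero] at hzero
  -- distinct residues
  have huniq : ∀ (θ θ' : A), ((θ : Ω) ^ 3 - 27 * (H : Ω) * θ - 54 * (T : Ω) = 0) →
      ((θ' : Ω) ^ 3 - 27 * (H : Ω) * θ' - 54 * (T : Ω) = 0) → q x = q θ → q x = q θ' → θ = θ' := by
    intro θ θ' hθ hθ' e e'
    by_contra hne
    have hsum : θ ^ 2 + θ * θ' + θ' ^ 2 - 27 * (H : A) = 0 := by
      refine (mul_eq_zero.1 (?_ : (θ - θ') * _ = 0)).resolve_left (sub_ne_zero.2 hne)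
      apply A.subtype_injective
      simp only [map_sub, map_add, map_mul, map_pow, map_intCast, map_ofNat, map_zero]
      show ((θ : Ω) - θ') * ((θ : Ω) ^ 2 + θ * θ' + (θ' : Ω) ^ 2 - 27 * (H : Ω)) = 0
      linear_combination hθ - hθ'
    have h0 := congrArg q hsum
    simp only [map_sub, map_add, map_mul, map_pow, map_ofNat, map_intCast, map_zero, ← e, ← e'] at h0
    have hx' := hx0
    push_cast at hx'
    have : ((78732 * (H ^ 3 - T ^ 2) : ℤ) : IsLocalRing.ResidueField A) = 0 := by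
      push_cast
      linear_combination
        (3 * (x : IsLocalRing.ResidueField A) ^ 2 - 27 * H) *
          (108 * (H : IsLocalRing.ResidueField A) - 3 * x ^ 2) * h0
        + 27 * ((x : IsLocalRing.ResidueField A) ^ 3 - 27 * H * x + 54 * T) * hx'
    rw [CharP.intCast_eq_zero_iff _ r] at this
    rcases (Nat.prime_iff_prime_int.1 hr).dvd_or_dvd this with h | h
    · have h' : r ∣ 2 ^ 2 * 3 ^ 9 := by exact_mod_cast h
      rcases hr.dvd_mul.1 h' with h | h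
      · exact hr2' ((Nat.prime_dvd_prime_iff_eq hr Nat.prime_two).1 (hr.dvd_of_dvd_pow h))
      · exact hr3' ((Nat.prime_dvd_prime_iff_eq hr Nat.prime_three).1 (hr.dvd_of_dvd_pow h))
    · exact hrd' h
  obtain ⟨θ, hθ, hθS, he⟩ : ∃ θ : A, ((θ : Ω) ^ 3 - 27 * (H : Ω) * θ - 54 * (T : Ω) = 0) ∧
      (θ : Ω) ∈ ({θ1, θ2, θ3} : Set Ω) ∧ q x = q θ := by
    rcases hzero with (e | e) | e
    · exact ⟨a1, h1, by simp [a1], e⟩
    · exact ⟨a2, hr2, by simp [a2], e⟩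
    · exact ⟨a3, hr3, by simp [a3], e⟩
  apply hfix _ hθS
  have hτθ : (τ θ) ^ 3 - 27 * (H : Ω) * τ θ - 54 * (T : Ω) = 0 := hmap τ _ hθ
  let b : A := ⟨τ θ, hint _ hτθ⟩
  have hb : q x = q b := by
    have h := FLTAgent.Chebotarev.frob_sub_pow_mem hF θ.2
    have h' : q (b - θ ^ r) = 0 := by
      rw [IsLocalRing.residue_eq_zero_iff, ← ValuationSubring.coe_mem_nonunits_iff]
      simpa [b] using h
    rw [map_sub, map_pow, sub_eq_zero] at h'
    rw [h', ← he, map_intCast]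
    rw [← map_intCast (ZMod.castHom (dvd_refl r) (IsLocalRing.ResidueField A)) x, ← map_pow,
      ZMod.pow_card]
  exact congrArg Subtype.val (huniq b θ hτθ hθ hb he)

open WeierstrassCurve FLTAgent.Local FLTAgent.Torsion in
/-- two-torsion without rational abscissa is irreducible -/
theorem irreducible_two {W : WeierstrassCurve ℤ} (hΔ : W.Δ ≠ 0)
    (hroot : ∀ x : ℤ, x ^ 3 - 27 * W.c₄ * x - 54 * W.c₆ ≠ 0) : W.ModRepIsIrreducible 2 := by
  classical
  haveI : Fact (Nat.Prime 2) := ⟨Nat.prime_two⟩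
  haveI := isElliptic_curveBar hΔ
  obtain ⟨hfin, hrank⟩ := finrank_tors hΔ 2
  haveI := hfin
  refine ⟨Module.nontrivial_of_finrank_pos (R := ZMod 2) (M := Tors W 2) (by rw [hrank]; norm_num),
    fun N hN => ?_⟩
  by_contra hcon
  push Not at hcon
  obtain ⟨hNb, hNt⟩ := hcon
  have hN1 : Module.finrank (ZMod 2) N = 1 := by
    have h1 : 0 < Module.finrank (ZMod 2) N := by
      rw [Module.finrank_pos_iff]
      exact Submodule.nontrivial_iff_ne_bot.mpr hNb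
    have h2 : Module.finrank (ZMod 2) N < 2 := lt_of_lt_of_eq (Submodule.finrank_lt hNt) hrank
    omega
  obtain ⟨P, hPN, hP⟩ := N.exists_mem_ne_zero_of_ne_bot hNb
  have hfix : ∀ σ : Ω ≃ₐ[ℚ] Ω, σ • P = P := by
    intro σ
    obtain ⟨c, hc⟩ := exists_smul_eq_of_finrank_eq_one hN1
      (show (⟨P, hPN⟩ : N) ≠ 0 from fun e => hP (congrArg Subtype.val e)) ⟨σ • P, hN σ P hPN⟩
    have hc' : c • P = σ • P := congrArg Subtype.val hc
    have h01 : ∀ c : ZMod 2, c = 0 ∨ c = 1 := fun d => by fin_cases d <;> first | exact Or.inl rfl | exact Or.inr rfl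
    rcases h01 c with rfl | rfl
    · rw [zero_smul] at hc'
      exact absurd (smul_eq_zero_iff_eq σ |>.1 hc'.symm) hP
    · rw [one_smul] at hc'
      exact hc'.symm
  obtain ⟨x, y, h, e⟩ : ∃ x y h, S52.shortPt W (P : QPoint W) = Affine.Point.some x y h := by
    rcases hR : S52.shortPt W (P : QPoint W) with _ | ⟨x, y, h⟩
    · exact absurd (Subtype.ext (S52.shortPt_injective W (hR.trans (map_zero _).symm))) hP
    · exact ⟨x, y, h, rfl⟩
  have hneg : -S52.shortPt W (P : QPoint W) = S52.shortPt W (P : QPoint W) := by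
    rw [← map_neg]
    congr 1
    rw [neg_eq_iff_add_eq_zero, ← two_nsmul]
    exact nsmul_tors P
  rw [e, Affine.Point.neg_some] at hneg
  simp only [Affine.Point.some.injEq] at hneg
  have hy : y = 0 := by
    have h1 := hneg.2
    simp [S52.lvlCurve, Affine.negY] at h1
    linear_combination (-1 / 2 : Ω) * h1
  have heq := S52.lvlCurve_equation.1 h.1
  rw [hy] at heq
  have hx : ∀ σ : Ω ≃ₐ[ℚ] Ω, σ x = x := by
    intro σ
    obtain ⟨h', e'⟩ := S52.shortPt_smul_some W σ (P : QPoint W) e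
    rw [← FLTAgent.Torsion.coe_smul, hfix σ, e] at e'
    simp only [Affine.Point.some.injEq] at e'
    exact e'.1.symm
  haveI := FLTAgent.Alg.qb_isGalois
  obtain ⟨q, rfl⟩ : x ∈ Set.range (algebraMap ℚ Ω) :=
    (InfiniteGalois.mem_range_algebraMap_iff_fixed x).2 hx
  have hq : q ^ 3 - 27 * (W.c₄ : ℚ) * q - 54 * (W.c₆ : ℚ) = 0 := by
    apply (algebraMap ℚ Ω).injective
    simp only [map_sub, map_mul, map_pow, map_ofNat, map_intCast, map_zero]
    linear_combination -heq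
  have hint : IsIntegral ℤ q := by
    refine ⟨X ^ 3 - C (27 * W.c₄) * X - C (54 * W.c₆), by monicity!, ?_⟩
    simp only [eval₂_sub, eval₂_mul, eval₂_X_pow, eval₂_C, eval₂_X]
    simp only [algebraMap_int_eq, eq_intCast]
    push_cast
    linear_combination hq
  obtain ⟨z, rfl⟩ := IsIntegrallyClosed.isIntegral_iff.1 hint
  apply hroot z
  have : ((z ^ 3 - 27 * W.c₄ * z - 54 * W.c₆ : ℤ) : ℚ) = ((0 : ℤ) : ℚ) := by
    push_cast; simpa using hq
  exact_mod_cast this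

end FLTAgent.SW3

end
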