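import Mathlib

/-!
The binary forms attached to the invariants `c₄`, `c₆` that parametrise the curves with the same
three-torsion, and their values at the primes of the discriminant.
-/

set_option autoImplicit false

noncomputable section

namespace FLTAgent.SW3

section Ring

variable {R S : Type*} [CommRing R] [CommRing S]

/-- the quartic form of the pencil -/
def fD (c4 c6 l m : R) : R :=
  l ^ 4 - 6 * c4 * l ^ 2 * m ^ 2 - 8 * c6 * l * m ^ 3 - 3 * c4 ^ 2 * m ^ 4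

/-- derivative of the quartic form in the first variable -/
def fD' (c4 c6 l m : R) : R := 4 * l ^ 3 - 12 * c4 * l * m ^ 2 - 8 * c6 * m ^ 3

/-- the form giving `c₄` -/
def fC4 (c4 c6 l m : R) : R :=
  c4 * l ^ 4 + 4 * c6 * l ^ 3 * m + 6 * c4 ^ 2 * l ^ 2 * m ^ 2 + 4 * c4 * c6 * l * m ^ 3
    - (3 * c4 ^ 3 - 4 * c6 ^ 2) * m ^ 4

/-- the form giving `c₆` -/
def fC6 (c4 c6 l m : R) : R :=
  c6 * l ^ 6 + 6 * c4 ^ 2 * l ^ 5 * m + 15 * c4 * c6 * l ^ 4 * m ^ 2 + 20 * c6 ^ 2 * l ^ 3 * m ^ 3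
    + 15 * c4 ^ 2 * c6 * l ^ 2 * m ^ 4 + 6 * (3 * c4 ^ 4 - 2 * c4 * c6 ^ 2) * l * m ^ 5
    + (9 * c4 ^ 3 * c6 - 8 * c6 ^ 3) * m ^ 6

lemma forms_relation (c4 c6 l m : R) :
    fC4 c4 c6 l m ^ 3 - fC6 c4 c6 l m ^ 2 = (c4 ^ 3 - c6 ^ 2) * fD c4 c6 l m ^ 3 := by
  simp only [fC4, fC6, fD]; ring

lemma forms_bezout (c4 c6 l m : R) :
    (-12 * c6 * l ^ 3 + 12 * c4 ^ 2 * l ^ 2 * m + 60 * c4 * c6 * l * m ^ 2
        + (108 * c6 ^ 2 - 72 * c4 ^ 3) * m ^ 3) * fC4 c4 c6 l m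
      + (12 * c4 * c6 * l ^ 3 + (48 * c6 ^ 2 - 12 * c4 ^ 3) * l ^ 2 * m
        + 36 * c4 ^ 2 * c6 * l * m ^ 2 + (84 * c4 * c6 ^ 2 - 72 * c4 ^ 4) * m ^ 3) * fD c4 c6 l m
      = 432 * (c4 ^ 3 - c6 ^ 2) ^ 2 * m ^ 7 := by
  simp only [fC4, fD]; ring

lemma map_fD (f : R →+* S) (c4 c6 l m : R) :
    f (fD c4 c6 l m) = fD (f c4) (f c6) (f l) (f m) := by
  simp only [fD, map_sub, map_mul, map_pow, map_ofNat]

lemma map_fC4 (f : R →+* S) (c4 c6 l m : R) :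
    f (fC4 c4 c6 l m) = fC4 (f c4) (f c6) (f l) (f m) := by
  simp only [fC4, map_add, map_sub, map_mul, map_pow, map_ofNat]

lemma map_fC6 (f : R →+* S) (c4 c6 l m : R) :
    f (fC6 c4 c6 l m) = fC6 (f c4) (f c6) (f l) (f m) := by
  simp only [fC6, map_add, map_sub, map_mul, map_pow, map_ofNat]

lemma fD_one_zero (c4 c6 : R) : fD c4 c6 1 0 = 1 := by simp only [fD]; ring

lemma fC4_one_zero (c4 c6 : R) : fC4 c4 c6 1 0 = c4 := by simp only [fC4]; ring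

lemma fC6_one_zero (c4 c6 : R) : fC6 c4 c6 1 0 = c6 := by simp only [fC6]; ring

end Ring

lemma forms_congr {n : ℕ} (c4 c6 : ℤ) {l m l' m' : ℤ} (hl : (n : ℤ) ∣ l - l')
    (hm : (n : ℤ) ∣ m - m') :
    (n : ℤ) ∣ fD c4 c6 l m - fD c4 c6 l' m' ∧ (n : ℤ) ∣ fC4 c4 c6 l m - fC4 c4 c6 l' m' ∧
      (n : ℤ) ∣ fC6 c4 c6 l m - fC6 c4 c6 l' m' := by
  have hl' : ((l : ℤ) : ZMod n) = l' := ((ZMod.intCast_eq_intCast_iff_dvd_sub _ _ _).2 hl).symm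
  have hm' : ((m : ℤ) : ZMod n) = m' := ((ZMod.intCast_eq_intCast_iff_dvd_sub _ _ _).2 hm).symm
  refine ⟨?_, ?_, ?_⟩ <;> rw [← ZMod.intCast_zmod_eq_zero_iff_dvd, Int.cast_sub, sub_eq_zero]
  · rw [← eq_intCast (Int.castRingHom (ZMod n)) (fD c4 c6 l m),
      ← eq_intCast (Int.castRingHom (ZMod n)) (fD c4 c6 l' m'), map_fD, map_fD]
    simp [hl', hm']
  · rw [← eq_intCast (Int.castRingHom (ZMod n)) (fC4 c4 c6 l m),
      ← eq_intCast (Int.castRingHom (ZMod n)) (fC4 c4 c6 l' m'), map_fC4, map_fC4]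
    simp [hl', hm']
  · rw [← eq_intCast (Int.castRingHom (ZMod n)) (fC6 c4 c6 l m),
      ← eq_intCast (Int.castRingHom (ZMod n)) (fC6 c4 c6 l' m'), map_fC6, map_fC6]
    simp [hl', hm']

/-- the quartic form is separable away from `6 Δ` -/
lemma fD_separable {K : Type*} [Field K] {c4 c6 l m : K} (h2 : (2 : K) ≠ 0) (h3 : (3 : K) ≠ 0)
    (hΔ : c4 ^ 3 - c6 ^ 2 ≠ 0) (h : fD c4 c6 l m = 0) (h' : fD' c4 c6 l m = 0) :
    l = 0 ∧ m = 0 := by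
  simp only [fD] at h
  simp only [fD'] at h'
  have h4 : (4 : K) ≠ 0 := by rw [show (4 : K) = 2 * 2 by norm_num]; exact mul_ne_zero h2 h2
  have hq : l ^ 3 - 3 * c4 * l * m ^ 2 - 2 * c6 * m ^ 3 = 0 :=
    mul_left_cancel₀ h4 (by linear_combination h')
  by_cases hm : m = 0
  · refine ⟨?_, hm⟩
    rw [hm] at hq
    exact pow_eq_zero_iff (n := 3) (by norm_num) |>.1 (by linear_combination hq)
  exfalso
  have hr : c4 * l ^ 2 + 2 * c6 * l * m + c4 ^ 2 * m ^ 2 = 0 :=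
    mul_left_cancel₀ (mul_ne_zero h3 (pow_ne_zero 2 hm))
      (by linear_combination -h + l * hq)
  have hr' : c6 * l ^ 2 + 2 * c4 ^ 2 * l * m + c4 * c6 * m ^ 2 = 0 :=
    mul_left_cancel₀ (mul_ne_zero h2 hm) (by linear_combination -c4 * hq + l * hr)
  have hl : l = 0 :=
    (mul_eq_zero.1 (mul_left_cancel₀ (mul_ne_zero h2 hΔ)
      (show 2 * (c4 ^ 3 - c6 ^ 2) * (l * m) = 2 * (c4 ^ 3 - c6 ^ 2) * 0 by
        linear_combination -c6 * hr + c4 * hr'))).resolve_right hm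
  subst hl
  have hc4 : c4 = 0 := by simpa [hm] using hr
  have hc6 : c6 = 0 := by simpa [hc4, h2, hm] using hq
  exact hΔ (by rw [hc4, hc6]; ring)

/-! At an odd prime of the discriminant. -/

/-- a value of the quartic form divisible exactly once by an odd prime of the discriminant -/
lemma exists_simple {c4 c6 : ℤ} {p : ℕ} (hp : p.Prime) (h2 : p ≠ 2)
    (hrel : (p : ℤ) ∣ c4 ^ 3 - c6 ^ 2) (hc4 : ¬ (p : ℤ) ∣ c4) :
    ∃ x : ℤ, (p : ℤ) ∣ fD c4 c6 x 1 ∧ ¬ (p : ℤ) ^ 2 ∣ fD c4 c6 x 1 ∧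
      ¬ (p : ℤ) ∣ fC4 c4 c6 x 1 := by
  have : Fact p.Prime := ⟨hp⟩
  let φ := Int.castRingHom (ZMod p)
  have h2' : (2 : ZMod p) ≠ 0 := by
    intro h
    have h' : ((2 : ℕ) : ZMod p) = 0 := by exact_mod_cast h
    rw [ZMod.natCast_eq_zero_iff] at h'
    exact h2 ((Nat.prime_dvd_prime_iff_eq hp Nat.prime_two).1 h')
  have hc : (c4 : ZMod p) ≠ 0 := fun h => hc4 ((ZMod.intCast_zmod_eq_zero_iff_dvd _ _).1 h)
  have hrel' : (c4 : ZMod p) ^ 3 = (c6 : ZMod p) ^ 2 := by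
    have := (ZMod.intCast_zmod_eq_zero_iff_dvd _ _).2 hrel
    push_cast at this
    exact sub_eq_zero.1 this
  obtain ⟨s, e4, e6⟩ : ∃ s : ZMod p, (c4 : ZMod p) = s ^ 2 ∧ (c6 : ZMod p) = s ^ 3 := by
    refine ⟨c6 / c4, ?_, ?_⟩
    · field_simp; linear_combination hrel'
    · field_simp; linear_combination (c6 : ZMod p) * hrel'
  have hs : s ≠ 0 := fun h => hc (by rw [e4, h]; ring)
  obtain ⟨x0, hx0⟩ := ZMod.intCast_surjective (3 * s : ZMod p)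
  have key : ∀ x : ℤ, (x : ZMod p) = 3 * s → (p : ℤ) ∣ fD c4 c6 x 1 ∧
      ¬ (p : ℤ) ∣ fC4 c4 c6 x 1 ∧ ¬ (p : ℤ) ∣ fD' c4 c6 x 1 := by
    intro x hx
    refine ⟨?_, ?_, ?_⟩
    · rw [← ZMod.intCast_zmod_eq_zero_iff_dvd]
      simp only [fD]
      push_cast
      rw [hx, e4, e6]; ring
    all_goals
      rw [← ZMod.intCast_zmod_eq_zero_iff_dvd]
      simp only [fC4, fD']
      push_cast
      rw [hx, e4, e6]
    · have : (256 : ZMod p) * s ^ 6 ≠ 0 := by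
        rw [show (256 : ZMod p) = 2 ^ 8 by norm_num]
        exact mul_ne_zero (pow_ne_zero _ h2') (pow_ne_zero _ hs)
      exact fun h => this (by linear_combination h)
    · have : (64 : ZMod p) * s ^ 3 ≠ 0 := by
        rw [show (64 : ZMod p) = 2 ^ 6 by norm_num]
        exact mul_ne_zero (pow_ne_zero _ h2') (pow_ne_zero _ hs)
      exact fun h => this (by linear_combination h)
  obtain ⟨hd, hC, hD'⟩ := key x0 hx0
  by_cases hsq : (p : ℤ) ^ 2 ∣ fD c4 c6 x0 1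
  · have hx1 : ((x0 + p : ℤ) : ZMod p) = 3 * s := by push_cast; rw [hx0, ZMod.natCast_self]; ring
    obtain ⟨hd1, hC1, -⟩ := key (x0 + p) hx1
    refine ⟨x0 + p, hd1, fun h => hD' ?_, hC1⟩
    have e : (p : ℤ) * fD' c4 c6 x0 1 = fD c4 c6 (x0 + p) 1 - fD c4 c6 x0 1
        - (p : ℤ) ^ 2 * (6 * x0 ^ 2 - 6 * c4 + 4 * x0 * p + (p : ℤ) ^ 2) := by
      simp only [fD, fD']; ring
    have h' : (p : ℤ) * p ∣ (p : ℤ) * fD' c4 c6 x0 1 := by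
      rw [e, ← sq]
      exact dvd_sub (dvd_sub h hsq) (dvd_mul_right _ _)
    exact (mul_dvd_mul_iff_left (Int.natCast_ne_zero.2 hp.ne_zero)).1 h'
  · exact ⟨x0, hd, hsq, hC⟩

/-! At two. -/

/-- value of the quartic form on the line at two, divided by `256` -/
def gT (c6 Δ T : ℤ) : ℤ :=
  T ^ 4 + 3 * c6 * T ^ 3 + (3 * c6 ^ 2 - 648 * Δ) * T ^ 2 + (c6 ^ 3 - 1188 * c6 * Δ) * T
    - (567 * c6 ^ 2 * Δ + 34992 * Δ ^ 2)

/-- value of the form of `c₄` on the line at two, divided by `256 c₄` -/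
def p4T (c6 Δ T : ℤ) : ℤ :=
  T ^ 4 + 4 * c6 * T ^ 3 + (6 * c6 ^ 2 + 648 * Δ) * T ^ 2 + (4 * c6 ^ 3 + 1080 * c6 * Δ) * T
    + c6 ^ 4 + 432 * c6 ^ 2 * Δ - 34992 * Δ ^ 2

/-- value of the form of `c₆` on the line at two, divided by `4096` -/
def p6T (c6 Δ T : ℤ) : ℤ :=
  c6 * T ^ 6 + (6 * c6 ^ 2 + 2592 * Δ) * T ^ 5 + (15 * c6 ^ 3 + 11340 * c6 * Δ) * T ^ 4
    + (20 * c6 ^ 4 + 19980 * c6 ^ 2 * Δ) * T ^ 3
    + (15 * c6 ^ 5 + 17820 * c6 ^ 3 * Δ + 174960 * c6 * Δ ^ 2) * T ^ 2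
    + (6 * c6 ^ 6 + 8100 * c6 ^ 4 * Δ + 384912 * c6 ^ 2 * Δ ^ 2 + 90699264 * Δ ^ 3) * T
    + c6 ^ 7 + 1512 * c6 ^ 5 * Δ + 204120 * c6 ^ 3 * Δ ^ 2 + 79361856 * c6 * Δ ^ 3

lemma forms_two {c4 c6 Δ : ℤ} (hrel : 1728 * Δ = c4 ^ 3 - c6 ^ 2) (T : ℤ) :
    fD c4 c6 (3 * c6 + 4 * T) c4 = 256 * gT c6 Δ T ∧
    fC4 c4 c6 (3 * c6 + 4 * T) c4 = 256 * (c4 * p4T c6 Δ T) ∧
    fC6 c4 c6 (3 * c6 + 4 * T) c4 = 4096 * p6T c6 Δ T := by
  have e : c4 ^ 3 = c6 ^ 2 + 1728 * Δ := by linear_combination -hrel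
  set l := 3 * c6 + 4 * T with hl
  refine ⟨?_, ?_, ?_⟩
  · rw [show fD c4 c6 l c4 = l ^ 4 - 6 * c4 ^ 3 * l ^ 2 - 8 * c6 * c4 ^ 3 * l - 3 * (c4 ^ 3) ^ 2 by
      simp only [fD]; ring, e, hl, gT]
    ring
  · rw [show fC4 c4 c6 l c4 = c4 * (l ^ 4 + 4 * c6 * l ^ 3 + 6 * c4 ^ 3 * l ^ 2
        + 4 * c4 ^ 3 * c6 * l + c4 ^ 3 * (-3 * c4 ^ 3 + 4 * c6 ^ 2)) by
      simp only [fC4]; ring, e, hl, p4T]
    ring
  · rw [show fC6 c4 c6 l c4 = c6 * l ^ 6 + 6 * c4 ^ 3 * l ^ 5 + 15 * c6 * c4 ^ 3 * l ^ 4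
        + 20 * c6 ^ 2 * c4 ^ 3 * l ^ 3 + 15 * (c4 ^ 3) ^ 2 * c6 * l ^ 2
        + 6 * (c4 ^ 3) ^ 2 * l * (3 * c4 ^ 3 - 2 * c6 ^ 2)
        + (c4 ^ 3) ^ 2 * (9 * c4 ^ 3 * c6 - 8 * c6 ^ 3) by
      simp only [fC6]; ring, e, hl, p6T]
    ring

lemma odd_iff_zmod {x : ℤ} : Odd x ↔ ((x : ℤ) : ZMod 2) = 1 := by
  rw [← Int.not_even_iff_odd, even_iff_two_dvd, show (2 : ℤ) = ((2 : ℕ) : ℤ) from rfl,
    ← ZMod.intCast_zmod_eq_zero_iff_dvd]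
  generalize (x : ZMod 2) = a
  revert a
  decide

/-- Hensel at two -/
lemma exists_gT {c6 Δ τ : ℤ} (hc6 : Odd c6) (hΔ : Even Δ) (hτ : Even τ) (n : ℕ) :
    ∃ T : ℤ, Even T ∧ (2 : ℤ) ^ (n + 1) ∣ gT c6 Δ T - τ := by
  induction n with
  | zero =>
    refine ⟨0, Even.zero, ?_⟩
    rw [zero_add, pow_one, ← even_iff_two_dvd]
    simp [gT, parity_simps, hΔ, hτ]
  | succ n ih =>
    obtain ⟨T, hT, hd⟩ := ih
    by_cases h : (2 : ℤ) ^ (n + 1 + 1) ∣ gT c6 Δ T - τ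
    · exact ⟨T, hT, h⟩
    refine ⟨T + 2 ^ (n + 1), hT.add ((even_two).pow_of_ne_zero (by omega)), ?_⟩
    obtain ⟨k, hk⟩ := hd
    set h' : ℤ := 2 ^ (n + 1) with hh
    set g1 : ℤ := 4 * T ^ 3 + 9 * c6 * T ^ 2 + 2 * (3 * c6 ^ 2 - 648 * Δ) * T
      + (c6 ^ 3 - 1188 * c6 * Δ) with hg1
    have hkodd : Odd k := by
      rw [← Int.not_even_iff_odd]
      rintro ⟨j, rfl⟩
      exact h ⟨j, by rw [hk, pow_succ, hh]; ring⟩
    have hgodd : Odd g1 := by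
      rw [odd_iff_zmod] at hc6 ⊢
      rw [hg1]
      push_cast
      rw [hc6, (ZMod.intCast_zmod_eq_zero_iff_dvd T 2).2 (even_iff_two_dvd.1 hT),
        (ZMod.intCast_zmod_eq_zero_iff_dvd Δ 2).2 (even_iff_two_dvd.1 hΔ)]
      decide
    obtain ⟨j, hj⟩ : Even (k + g1) := hkodd.add_odd hgodd
    refine ⟨j + 2 ^ n * (6 * T ^ 2 + 4 * T * h' + h' ^ 2 + 9 * c6 * T + 3 * c6 * h'
      + 3 * c6 ^ 2 - 648 * Δ), ?_⟩
    have e : gT c6 Δ (T + h') - τ = (gT c6 Δ T - τ) + h' * g1 + h' ^ 2 * (6 * T ^ 2 + 4 * T * h'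
        + h' ^ 2 + 9 * c6 * T + 3 * c6 * h' + 3 * c6 ^ 2 - 648 * Δ) := by
      simp only [gT, hg1]; ring
    rw [e, hk, pow_succ _ (n + 1), ← hh]
    have e2 : h' = 2 * 2 ^ n := by rw [hh]; ring
    linear_combination h' * hj + h' * (6 * T ^ 2 + 4 * T * h'
      + h' ^ 2 + 9 * c6 * T + 3 * c6 * h' + 3 * c6 ^ 2 - 648 * Δ) * e2

lemma p4T_odd {c6 Δ T : ℤ} (hc6 : Odd c6) (hΔ : Even Δ) (hT : Even T) : Odd (p4T c6 Δ T) := by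
  rw [odd_iff_zmod] at hc6 ⊢
  simp only [p4T]
  push_cast
  rw [hc6, (ZMod.intCast_zmod_eq_zero_iff_dvd T 2).2 (even_iff_two_dvd.1 hT),
    (ZMod.intCast_zmod_eq_zero_iff_dvd Δ 2).2 (even_iff_two_dvd.1 hΔ)]
  decide

lemma p6T_mod {c6 Δ T : ℤ} (hc6 : c6 % 4 = 3) (hΔ : Even Δ) (hT : Even T) :
    p6T c6 Δ T % 4 = 3 := by
  obtain ⟨d, rfl⟩ := hΔ
  obtain ⟨t, rfl⟩ := hT
  have h : ((c6 : ℤ) : ZMod 4) = 3 := by
    rw [show (3 : ZMod 4) = ((3 : ℤ) : ZMod 4) from rfl, ZMod.intCast_eq_intCast_iff']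
    simpa using hc6
  have : ((p6T c6 (d + d) (t + t) : ℤ) : ZMod 4) = ((3 : ℤ) : ZMod 4) := by
    simp only [p6T]
    push_cast
    rw [h]
    generalize (d : ZMod 4) = a
    generalize (t : ZMod 4) = b
    revert a b
    decide
  rw [ZMod.intCast_eq_intCast_iff'] at this
  simpa using this

end FLTAgent.SW3

end
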