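import Fermat.Agent.SW3.Forms
import Fermat.Agent.SW3.Cubic

/-!
A point of the parameter plane where the cubic resolvent has no root modulo a large prime.
-/

set_option autoImplicit false
set_option linter.all false

noncomputable section

namespace FLTAgent.SW3

open Polynomial

local notation "Ω" => AlgebraicClosure ℚ

section

variable (c d : ℤ) (u u' v v' : ℤ)

/-- the line through two points -/
def linL : ℚ[X] := C (u : ℚ) * X + C (v : ℚ)

/-- forms along a line -/
def lineC4 : ℚ[X] := fC4 (C (c : ℚ)) (C (d : ℚ)) (linL u v) (linL u' v')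

/-- forms along a line -/
def lineC6 : ℚ[X] := fC6 (C (c : ℚ)) (C (d : ℚ)) (linL u v) (linL u' v')

/-- forms along a line -/
def lineD : ℚ[X] := fD (C (c : ℚ)) (C (d : ℚ)) (linL u v) (linL u' v')

lemma eval_line (n : ℕ) :
    (lineC4 c d u u' v v').eval (n : ℚ) = ((fC4 c d (u * n + v) (u' * n + v') : ℤ) : ℚ) ∧
    (lineC6 c d u u' v v').eval (n : ℚ) = ((fC6 c d (u * n + v) (u' * n + v') : ℤ) : ℚ) ∧
    (lineD c d u u' v v').eval (n : ℚ) = ((fD c d (u * n + v) (u' * n + v') : ℤ) : ℚ) := by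
  simp only [lineC4, lineC6, lineD, linL, fC4, fC6, fD, eval_add, eval_sub, eval_mul, eval_pow,
    eval_C, eval_X, eval_ofNat]
  push_cast
  exact ⟨rfl, rfl, rfl⟩

lemma degree_line :
    (lineC4 c d u u' v v').natDegree ≤ 4 ∧ (lineC6 c d u u' v v').natDegree ≤ 6 ∧
    (lineD c d u u' v v').natDegree ≤ 4 := by
  simp only [lineC4, lineC6, lineD, linL, fC4, fC6, fD]
  refine ⟨?_, ?_, ?_⟩ <;> compute_degree

lemma coeff_line :
    (lineC4 c d u u' v v').coeff 4 = ((fC4 c d u u' : ℤ) : ℚ) ∧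
    (lineC6 c d u u' v v').coeff 6 = ((fC6 c d u u' : ℤ) : ℚ) ∧
    (lineD c d u u' v v').coeff 4 = ((fD c d u u' : ℤ) : ℚ) := by
  simp only [lineC4, lineC6, lineD, linL, fC4, fC6, fD]
  refine ⟨?_, ?_, ?_⟩ <;> push_cast <;> compute_degree!

end

/-- the point and the prime on one line -/
theorem exists_cubic_prime_line {c d Δ : ℤ} (hrel : 1728 * Δ = c ^ 3 - d ^ 2) (hΔ : Δ ≠ 0)
    {u u' v v' : ℤ} (hdet : u * v' - u' * v ≠ 0) (hsign : Δ * fD c d u u' ^ 3 < 0) (S : Finset ℕ) :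
    ∃ (r : ℕ) (l m : ℤ), r.Prime ∧ r ∉ S ∧ ¬ (r : ℤ) ∣ fD c d l m ∧
      ∀ x : ℤ, ¬ (r : ℤ) ∣ x ^ 3 - 27 * fC4 c d l m * x - 54 * fC6 c d l m := by
  classical
  have hDu : fD c d u u' ≠ 0 := fun e => by rw [e] at hsign; norm_num at hsign
  have concl : ∀ l m : ℤ, fD c d l m ≠ 0 →
      (∀ x : ℤ, x ^ 3 - 27 * fC4 c d l m * x - 54 * fC6 c d l m ≠ 0) →
      ∃ (r : ℕ) (l m : ℤ), r.Prime ∧ r ∉ S ∧ ¬ (r : ℤ) ∣ fD c d l m ∧
        ∀ x : ℤ, ¬ (r : ℤ) ∣ x ^ 3 - 27 * fC4 c d l m * x - 54 * fC6 c d l m := by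
    intro l m hD hroot
    obtain ⟨r, hr, hrS, hx⟩ := exists_prime_no_root hroot (by
      rw [forms_relation, ← hrel]
      exact mul_ne_zero (mul_ne_zero (by norm_num) hΔ) (pow_ne_zero _ hD))
      (S ∪ (fD c d l m).natAbs.primeFactors)
    simp only [Finset.mem_union, Nat.mem_primeFactors, not_or] at hrS
    exact ⟨r, l, m, hr, hrS.1,
      fun h => hrS.2 ⟨hr, Int.natCast_dvd.1 h, Int.natAbs_ne_zero.2 hD⟩, hx⟩
  by_cases hP0 : ∀ x : ℤ, x ^ 3 - 27 * fC4 c d u u' * x - 54 * fC6 c d u u' ≠ 0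
  · exact concl u u' hDu hP0
  push Not at hP0
  obtain ⟨a, ha⟩ := hP0
  obtain ⟨hc4, hc6, hcD⟩ := coeff_line c d u u' v v'
  obtain ⟨d4, d6, dD⟩ := degree_line c d u u' v v'
  set H := lineC4 c d u u' v v' with hH
  set T := lineC6 c d u u' v v' with hT
  set D := lineD c d u u' v v' with hD
  have hDdeg : D.natDegree = 4 :=
    natDegree_eq_of_le_of_coeff_ne_zero dD (by rw [hcD]; exact_mod_cast hDu)
  have hrelP : H ^ 3 - T ^ 2 = C (1728 * (Δ : ℚ)) * D ^ 3 := by
    rw [hH, hT, hD, lineC4, lineC6, lineD, forms_relation, ← map_pow C, ← map_pow C, ← map_sub]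
    congr 2
    exact_mod_cast hrel.symm
  have hK : (1728 * (Δ : ℚ)) ≠ 0 := mul_ne_zero (by norm_num) (by exact_mod_cast hΔ)
  have hneg : H.coeff 4 ^ 3 < T.coeff 6 ^ 2 := by
    rw [hc4, hc6]
    have h := forms_relation c d u u'
    rw [← hrel] at h
    have : fC4 c d u u' ^ 3 < fC6 c d u u' ^ 2 := by linarith
    exact_mod_cast this
  have hroots : ∀ s : Ω, aeval s D = 0 → aeval s (derivative D) ≠ 0 ∧ aeval s H ≠ 0 := by
    intro s hs
    set l : Ω := (u : Ω) * s + v with hl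
    set m : Ω := (u' : Ω) * s + v' with hm
    have hD0 : fD (c : Ω) d l m = 0 := by
      rw [← hs, hD, lineD]
      simp only [linL, fD, hl, hm, map_add, map_sub, map_mul, map_pow, map_ofNat, aeval_C, aeval_X,
        map_intCast]
    have hΔ' : (c : Ω) ^ 3 - (d : Ω) ^ 2 ≠ 0 := by
      have : c ^ 3 - d ^ 2 ≠ 0 := by rw [← hrel]; exact mul_ne_zero (by norm_num) hΔ
      exact_mod_cast this
    have hlm : ¬ (l = 0 ∧ m = 0) := by
      rintro ⟨e1, e2⟩
      apply hdet
      have : ((u * v' - u' * v : ℤ) : Ω) = 0 := by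
        push_cast
        rw [hl] at e1; rw [hm] at e2
        linear_combination (u : Ω) * e2 - (u' : Ω) * e1
      exact_mod_cast this
    refine ⟨fun h => hlm ?_, fun h => hlm ?_⟩
    · refine fD_separable two_ne_zero three_ne_zero hΔ' hD0 ?_
      -- derivative along the line
      set Dm : Ω := -12 * (c : Ω) * l ^ 2 * m - 24 * (d : Ω) * l * m ^ 2 - 12 * (c : Ω) ^ 2 * m ^ 3
      have h1 : (u : Ω) * fD' (c : Ω) d l m + (u' : Ω) * Dm = 0 := by
        rw [← h, hD, lineD]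
        simp only [linL, fD, derivative_add, derivative_sub, derivative_mul, derivative_pow,
          derivative_C, derivative_X, derivative_ofNat]
        simp only [fD', Dm, hl, hm, map_add, map_sub, map_mul,
          map_pow, map_ofNat, aeval_C, aeval_X, map_intCast, map_zero, map_one, map_natCast,
          Nat.cast_ofNat]
        ring
      have h2 : l * fD' (c : Ω) d l m + m * Dm = 0 := by
        have e : l * fD' (c : Ω) d l m + m * Dm = 4 * fD (c : Ω) d l m := by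
          simp only [fD', fD, Dm]; ring
        rw [e, hD0, mul_zero]
      have hne : ((u * v' - u' * v : ℤ) : Ω) ≠ 0 := by exact_mod_cast hdet
      refine (mul_eq_zero.1 (show ((u * v' - u' * v : ℤ) : Ω) * fD' (c : Ω) d l m = 0 from ?_)).resolve_left hne
      push_cast
      have : (u : Ω) * m - (u' : Ω) * l = (u : Ω) * v' - (u' : Ω) * v := by rw [hl, hm]; ring
      rw [← this]
      linear_combination m * h1 - (u' : Ω) * h2
    · have hC : fC4 (c : Ω) d l m = 0 := by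
        rw [← h, hH, lineC4]
        simp only [linL, fC4, hl, hm, map_add, map_sub, map_mul, map_pow, map_ofNat, aeval_C,
          aeval_X, map_intCast]
      have hb := forms_bezout (c : Ω) d l m
      rw [hC, hD0, mul_zero, mul_zero, add_zero] at hb
      have hm0 : m = 0 := pow_eq_zero_iff (n := 7) (by norm_num) |>.1
        ((mul_eq_zero.1 hb.symm).resolve_left (mul_ne_zero (by norm_num) (pow_ne_zero _ hΔ')))
      refine ⟨pow_eq_zero_iff (n := 4) (by norm_num) |>.1 ?_, hm0⟩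
      rw [← hD0, hm0]; simp [fD]
  have hsq : Squarefree D := by
    refine Polynomial.Separable.squarefree ?_
    rw [separable_def, Polynomial.isCoprime_iff_aeval_ne_zero_of_isAlgClosed (k := ℚ) Ω]
    intro s
    by_cases hs : aeval s D = 0
    · exact Or.inr (hroots s hs).1
    · exact Or.inl hs
  have hcop : IsCoprime D H := by
    rw [Polynomial.isCoprime_iff_aeval_ne_zero_of_isAlgClosed (k := ℚ) Ω]
    intro s
    by_cases hs : aeval s D = 0
    · exact Or.inr (hroots s hs).2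
    · exact Or.inl hs
  obtain ⟨t0, ht0⟩ : ∃ t0 : ℕ, ∀ n : ℕ, t0 ≤ n → fD c d (u * n + v) (u' * n + v') ≠ 0 := by
    have hD0 : D ≠ 0 := fun e => by rw [e, natDegree_zero] at hDdeg; omega
    refine ⟨(D.roots.toFinset.sup fun q : ℚ => ⌈q⌉₊) + 1, fun n hn e => ?_⟩
    have hmem : (n : ℚ) ∈ D.roots.toFinset := by
      rw [Multiset.mem_toFinset, mem_roots hD0, IsRoot.def, (eval_line c d u u' v v' n).2.2, e,
        Int.cast_zero]
    have := Finset.le_sup (f := fun q : ℚ => ⌈q⌉₊) hmem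
    rw [Nat.ceil_natCast] at this
    omega
  obtain ⟨n, hn, hx⟩ := exists_no_root d4 d6 hDdeg hK hneg (a := (a : ℚ))
    (by rw [hc4, hc6]; exact_mod_cast ha) hrelP hsq hcop t0
  refine concl _ _ (ht0 n hn) fun x e => hx x ?_
  rw [(eval_line c d u u' v v' n).1, (eval_line c d u u' v v' n).2.1]
  exact_mod_cast e

/-- the point and the prime -/
theorem exists_cubic_prime {c d Δ : ℤ} (hrel : 1728 * Δ = c ^ 3 - d ^ 2) (hΔ : Δ ≠ 0) (hc : c ≠ 0)
    (S : Finset ℕ) :
    ∃ (r : ℕ) (l m : ℤ), r.Prime ∧ r ∉ S ∧ ¬ (r : ℤ) ∣ fD c d l m ∧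
      ∀ x : ℤ, ¬ (r : ℤ) ∣ x ^ 3 - 27 * fC4 c d l m * x - 54 * fC6 c d l m := by
  rcases lt_or_gt_of_ne hΔ with h | h
  · exact exists_cubic_prime_line hrel hΔ (u := 1) (u' := 0) (v := 0) (v' := 1) (by norm_num)
      (by rw [fD_one_zero]; linarith) S
  · refine exists_cubic_prime_line hrel hΔ (u := 0) (u' := 1) (v := 1) (v' := 0) (by norm_num) ?_ S
    have e : fD c d 0 1 = -(3 * c ^ 2) := by simp only [fD]; ring
    rw [e]
    have : 0 < (3 * c ^ 2) ^ 3 := by positivity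
    have := mul_pos h this
    linarith [show Δ * (-(3 * c ^ 2)) ^ 3 = -(Δ * (3 * c ^ 2) ^ 3) by ring]

end FLTAgent.SW3

end
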